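import Fermat.Agent.S21.Defs

/-!
# S21 leaf module `GradC`

FROZEN STATEMENTS (skeleton origin/helper21 cf3c14c), all proved below by helper4226.
Put every auxiliary declaration inside `namespace Fermat.Agent.S21.GradC` (to avoid name
clashes with other leaf files).  Do not edit `Defs.lean`.  You may add imports of other
S21 leaf modules listed in PLAN v1 (respect the dependency order, no cycles).
-/

set_option autoImplicit false

open ModularCurve ModularCurve.Period CongruenceSubgroup UpperHalfPlane MeasureTheory Filter Topology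
open scoped MatrixGroups ComplexConjugate ContDiff ENNReal

namespace Fermat.Agent.S21

namespace GradC

/-- The Möbius map of `g ∈ SL(2,ℤ)` as a function `ℂ → ℂ` (junk outside the upper half plane). -/
noncomputable def moeb (g : SL(2, ℤ)) (w : ℂ) : ℂ := ((g • ofComplex w : ℍ) : ℂ)

theorem det_eq_one (g : SL(2, ℤ)) : (((g : GL (Fin 2) ℝ)).val.det : ℝ) = 1 :=
  (Matrix.SpecialLinearGroup.map (Int.castRingHom ℝ) g).2

theorem det_pos (g : SL(2, ℤ)) : 0 < ((g : GL (Fin 2) ℝ)).val.det := by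
  rw [det_eq_one]; exact one_pos

theorem moeb_coe (g : SL(2, ℤ)) (z : ℍ) : moeb g (z : ℂ) = ((g • z : ℍ) : ℂ) := by
  simp [moeb, ofComplex_apply]

theorem moeb_mem (g : SL(2, ℤ)) (w : ℂ) : moeb g w ∈ upperHalfPlaneSet :=
  (g • ofComplex w : ℍ).2

theorem comp_smul_eq (u : ℍ → ℝ) (g : SL(2, ℤ)) :
    (fun z : ℍ => u (g • z)) ∘ ofComplex = (u ∘ ofComplex) ∘ moeb g := by
  funext w
  simp [moeb, ofComplex_apply]

theorem hasDerivAt_moeb (g : SL(2, ℤ)) (z : ℍ) :
    HasDerivAt (moeb g) (1 / denom g z ^ 2) (z : ℂ) := by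
  have h := (hasStrictDerivAt_smul (g := (g : GL (Fin 2) ℝ)) (det_pos g) z).hasDerivAt
  rw [det_eq_one g] at h
  show HasDerivAt (fun w : ℂ => ((g • ofComplex w : ℍ) : ℂ)) (1 / denom g z ^ 2) (z : ℂ)
  simpa using h

theorem contDiffOn_moeb (g : SL(2, ℤ)) : ContDiffOn ℝ ∞ (moeb g) upperHalfPlaneSet := by
  intro w hw
  have h : AnalyticAt ℂ (moeb g) w := by
    have := analyticAt_smul (g := (g : GL (Fin 2) ℝ)) (det_pos g) ⟨w, hw⟩
    exact this
  exact (h.contDiffAt.restrict_scalars ℝ).contDiffWithinAt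

theorem differentiableAt_of_smoothH {u : ℍ → ℝ} (hu : SmoothH u) (z : ℍ) :
    DifferentiableAt ℝ (u ∘ ofComplex) (z : ℂ) :=
  (hu.differentiableOn (by simp)).differentiableAt (isOpen_upperHalfPlaneSet.mem_nhds z.2)

theorem clm_apply (d : ℂ →L[ℝ] ℝ) (w : ℂ) : d w = w.re * d 1 + w.im * d Complex.I := by
  have hw : w = w.re • (1 : ℂ) + w.im • Complex.I := by
    apply Complex.ext <;> simp
  conv_lhs => rw [hw]
  rw [map_add, map_smul, map_smul]
  simp

theorem clm_identity (d : ℂ →L[ℝ] ℝ) (m : ℂ) :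
    ((d m : ℝ) : ℂ) - Complex.I * ((d (Complex.I * m) : ℝ) : ℂ)
      = (((d 1 : ℝ) : ℂ) - Complex.I * ((d Complex.I : ℝ) : ℂ)) * m := by
  rw [clm_apply d m, clm_apply d (Complex.I * m)]
  apply Complex.ext <;> simp <;> ring

end GradC

open GradC

theorem SmoothH.add {u v : ℍ → ℝ} (hu : SmoothH u) (hv : SmoothH v) :
    SmoothH (fun z => u z + v z) := by
  have := ContDiffOn.add hu hv
  exact this

theorem SmoothH.sub {u v : ℍ → ℝ} (hu : SmoothH u) (hv : SmoothH v) :
    SmoothH (fun z => u z - v z) := by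
  have := ContDiffOn.sub hu hv
  exact this

theorem SmoothH.const_mul {u : ℍ → ℝ} (hu : SmoothH u) (c : ℝ) :
    SmoothH (fun z => c * u z) := by
  have := ContDiffOn.mul (contDiffOn_const (c := c)) hu
  exact this

theorem SmoothH.comp_smul {u : ℍ → ℝ} (hu : SmoothH u) (g : SL(2, ℤ)) :
    SmoothH (fun z => u (g • z)) := by
  unfold SmoothH
  rw [comp_smul_eq u g]
  exact ContDiffOn.comp hu (contDiffOn_moeb g) (fun w _ => moeb_mem g w)

theorem SmoothH.continuous {u : ℍ → ℝ} (hu : SmoothH u) : Continuous u := by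
  have h1 : Continuous ((u ∘ ofComplex) ∘ (UpperHalfPlane.coe : ℍ → ℂ)) :=
    ContDiffOn.continuousOn hu |>.comp_continuous continuous_coe (fun z => z.2)
  have h2 : (u ∘ ofComplex) ∘ (UpperHalfPlane.coe : ℍ → ℂ) = u := by
    funext z
    simp [ofComplex_apply]
  rwa [h2] at h1

theorem continuous_gradC {u : ℍ → ℝ} (hu : SmoothH u) : Continuous (gradC u) := by
  have hf : ContinuousOn (fun w : ℂ => fderiv ℝ (u ∘ ofComplex) w) upperHalfPlaneSet :=
    ContDiffOn.continuousOn_fderiv_of_isOpen hu isOpen_upperHalfPlaneSet (by simp)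
  have h1 : Continuous (fun z : ℍ => fderiv ℝ (u ∘ ofComplex) (z : ℂ)) :=
    hf.comp_continuous continuous_coe (fun z => z.2)
  unfold gradC
  have h2 : Continuous (fun z : ℍ => fderiv ℝ (u ∘ ofComplex) (z : ℂ) 1) :=
    h1.clm_apply continuous_const
  have h3 : Continuous (fun z : ℍ => fderiv ℝ (u ∘ ofComplex) (z : ℂ) Complex.I) :=
    h1.clm_apply continuous_const
  exact (Complex.continuous_ofReal.comp h2).sub
    (continuous_const.mul (Complex.continuous_ofReal.comp h3))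

theorem gradC_add {u v : ℍ → ℝ} (hu : SmoothH u) (hv : SmoothH v) (z : ℍ) :
    gradC (fun z => u z + v z) z = gradC u z + gradC v z := by
  have h : (fun z : ℍ => u z + v z) ∘ ofComplex = (u ∘ ofComplex) + (v ∘ ofComplex) := rfl
  unfold gradC
  rw [h, fderiv_add (differentiableAt_of_smoothH hu z) (differentiableAt_of_smoothH hv z)]
  simp only [_root_.add_apply, Complex.ofReal_add]
  ring

theorem gradC_sub {u v : ℍ → ℝ} (hu : SmoothH u) (hv : SmoothH v) (z : ℍ) :
    gradC (fun z => u z - v z) z = gradC u z - gradC v z := by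
  have h : (fun z : ℍ => u z - v z) ∘ ofComplex = (u ∘ ofComplex) - (v ∘ ofComplex) := rfl
  unfold gradC
  rw [h, fderiv_sub (differentiableAt_of_smoothH hu z) (differentiableAt_of_smoothH hv z)]
  simp only [_root_.sub_apply, Complex.ofReal_sub]
  ring

theorem gradC_const_mul {u : ℍ → ℝ} (hu : SmoothH u) (c : ℝ) (z : ℍ) :
    gradC (fun z => c * u z) z = (c : ℂ) * gradC u z := by
  have h : (fun z : ℍ => c * u z) ∘ ofComplex = c • (u ∘ ofComplex) := rfl
  unfold gradC
  rw [h, fderiv_const_smul (differentiableAt_of_smoothH hu z)]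
  simp only [_root_.smul_apply, smul_eq_mul, Complex.ofReal_mul]
  ring

theorem gradC_add_const (u : ℍ → ℝ) (c : ℝ) (z : ℍ) :
    gradC (fun z => u z + c) z = gradC u z := by
  have h : (fun z : ℍ => u z + c) ∘ ofComplex = fun w => (u ∘ ofComplex) w + c := rfl
  unfold gradC
  rw [h, fderiv_add_const]

/-- chain rule for Möbius transformations -/
theorem gradC_comp_smul {u : ℍ → ℝ} (hu : SmoothH u) (g : SL(2, ℤ)) (z : ℍ) :
    gradC (fun w => u (g • w)) z = gradC u (g • z) / denom g z ^ 2 := by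
  have hm : HasFDerivAt (moeb g)
      ((ContinuousLinearMap.smulRight (1 : ℂ →L[ℂ] ℂ) (1 / denom g z ^ 2)).restrictScalars ℝ)
      (z : ℂ) := (hasDerivAt_moeb g z).hasFDerivAt.restrictScalars ℝ
  have hU : DifferentiableAt ℝ (u ∘ ofComplex) (moeb g (z : ℂ)) := by
    rw [moeb_coe]
    exact differentiableAt_of_smoothH hu (g • z)
  have hcomp : fderiv ℝ ((u ∘ ofComplex) ∘ moeb g) (z : ℂ)
      = (fderiv ℝ (u ∘ ofComplex) (moeb g (z : ℂ))).comp
        ((ContinuousLinearMap.smulRight (1 : ℂ →L[ℂ] ℂ) (1 / denom g z ^ 2)).restrictScalars ℝ) :=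
    (hU.hasFDerivAt.comp (z : ℂ) hm).fderiv
  unfold gradC
  rw [comp_smul_eq u g, hcomp, moeb_coe]
  simp only [ContinuousLinearMap.comp_apply, ContinuousLinearMap.coe_restrictScalars',
    ContinuousLinearMap.smulRight_apply, smul_eq_mul]
  rw [show ((1 : ℂ →L[ℂ] ℂ) 1 : ℂ) = 1 from rfl,
    show ((1 : ℂ →L[ℂ] ℂ) Complex.I : ℂ) = Complex.I from rfl, one_mul]
  have key := clm_identity (fderiv ℝ (u ∘ ofComplex) ((g • z : ℍ) : ℂ)) (1 / denom g z ^ 2)
  rw [key]
  field_simp

/-- `gradC u` vanishes on an open set where `u` is constant -/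
theorem gradC_eq_zero_of_eventually_const {u : ℍ → ℝ} {c : ℝ} {z : ℍ}
    (h : ∀ᶠ w in 𝓝 z, u w = c) : gradC u z = 0 := by
  have h1 : (u ∘ ofComplex) =ᶠ[𝓝 (z : ℂ)] fun _ => c := by
    rw [← isOpenEmbedding_coe.map_nhds_eq z]
    rw [Filter.EventuallyEq, Filter.eventually_map]
    filter_upwards [h] with w hw
    simpa [ofComplex_apply] using hw
  unfold gradC
  rw [h1.fderiv_eq]
  simp

/-- real part of a holomorphic primitive -/
theorem smoothH_re_of_hasDerivAt {F f : ℍ → ℂ}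
    (hF : ∀ z : ℍ, HasDerivAt (F ∘ ofComplex) (f z) (z : ℂ)) :
    SmoothH (fun z => (F z).re) ∧ ∀ z : ℍ, gradC (fun z => (F z).re) z = f z := by
  have hdiff : DifferentiableOn ℂ (F ∘ ofComplex) upperHalfPlaneSet := fun w hw =>
    (hF ⟨w, hw⟩).differentiableAt.differentiableWithinAt
  have hcd : ContDiffOn ℂ ∞ (F ∘ ofComplex) upperHalfPlaneSet :=
    hdiff.contDiffOn isOpen_upperHalfPlaneSet
  have hcdR : ContDiffOn ℝ ∞ (F ∘ ofComplex) upperHalfPlaneSet := hcd.restrict_scalars ℝ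
  have hre : (fun z : ℍ => (F z).re) ∘ ofComplex = Complex.reCLM ∘ (F ∘ ofComplex) := rfl
  refine ⟨?_, fun z => ?_⟩
  · unfold SmoothH
    rw [hre]
    exact Complex.reCLM.contDiff.comp_contDiffOn hcdR
  · have hFz : HasFDerivAt (F ∘ ofComplex)
        ((ContinuousLinearMap.smulRight (1 : ℂ →L[ℂ] ℂ) (f z)).restrictScalars ℝ) (z : ℂ) :=
      (hF z).hasFDerivAt.restrictScalars ℝ
    have hcomp : fderiv ℝ (Complex.reCLM ∘ (F ∘ ofComplex)) (z : ℂ)
        = Complex.reCLM.comp
          ((ContinuousLinearMap.smulRight (1 : ℂ →L[ℂ] ℂ) (f z)).restrictScalars ℝ) :=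
      (Complex.reCLM.hasFDerivAt.comp (z : ℂ) hFz).fderiv
    unfold gradC
    rw [hre, hcomp]
    apply Complex.ext <;> simp

/-- weight-2 invariance of the gradient of a function with constant periods -/
theorem isWeightTwoInv_gradC {N : ℕ} {u : ℍ → ℝ} (hu : SmoothH u)
    (hper : ∀ γ : Gamma0 N, ∃ c : ℝ, ∀ z : ℍ, u ((γ : SL(2, ℤ)) • z) = u z + c) :
    IsWeightTwoInv N (gradC u) := by
  intro γ z
  obtain ⟨c, hc⟩ := hper γ
  have h1 := gradC_comp_smul hu (γ : SL(2, ℤ)) z
  have h2 : (fun w : ℍ => u ((γ : SL(2, ℤ)) • w)) = fun w => u w + c := funext hc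
  rw [h2, gradC_add_const] at h1
  have hd : denom ((γ : SL(2, ℤ)) : GL (Fin 2) ℝ) z ^ 2 ≠ 0 :=
    pow_ne_zero _ (denom_ne_zero _ z)
  rw [h1]
  field_simp

end Fermat.Agent.S21
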