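import Fermat.Agent.S21.Defs
import Fermat.Agent.S21.GradC

/-!
# S21 leaf module `Closed`

FROZEN STATEMENTS: prove the theorem(s) below exactly as stated (replace each `sorry`).
Put every auxiliary declaration inside `namespace Fermat.Agent.S21.Closed` (to avoid name
clashes with other leaf files).  Do not edit `Defs.lean`.  You may add imports of other
S21 leaf modules listed in PLAN v1 (respect the dependency order, no cycles).
-/

set_option autoImplicit false

open ModularCurve ModularCurve.Period CongruenceSubgroup UpperHalfPlane MeasureTheory Filter Topology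
open scoped MatrixGroups ComplexConjugate ContDiff ENNReal

namespace Fermat.Agent.S21

namespace Closed

/-- A product of a function continuous on an open set `U` and a continuous function whose
topological support lies in `U` is continuous. -/
theorem continuous_mul_of_tsupport_subset {U : Set ℂ} (hU : IsOpen U) {a b : ℂ → ℝ}
    (ha : ContinuousOn a U) (hb : Continuous b) (hbU : tsupport b ⊆ U) :
    Continuous (fun z => a z * b z) := by
  rw [continuous_iff_continuousAt]
  intro x
  by_cases hx : x ∈ tsupport b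
  · exact (ha.continuousAt (hU.mem_nhds (hbU hx))).mul hb.continuousAt
  · have h0 : b =ᶠ[𝓝 x] 0 := notMem_tsupport_iff_eventuallyEq.mp hx
    have h1 : (fun z => a z * b z) =ᶠ[𝓝 x] fun _ => 0 := by
      filter_upwards [h0] with z hz
      rw [hz]
      simp
    exact continuousAt_const.congr h1.symm

theorem integrable_mul_of_tsupport_subset {U : Set ℂ} (hU : IsOpen U) {a b : ℂ → ℝ}
    (ha : ContinuousOn a U) (hb : Continuous b) (hbc : HasCompactSupport b)
    (hbU : tsupport b ⊆ U) :
    Integrable (fun z => a z * b z) := by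
  have hc : Continuous (fun z => a z * b z) := continuous_mul_of_tsupport_subset hU ha hb hbU
  have hcs : HasCompactSupport (fun z => a z * b z) := by
    have := hbc.mul_left (f := a)
    exact this
  exact hc.integrable_of_hasCompactSupport hcs

/-- Stokes on `ℂ` for a function which is smooth on an open set containing the support of the
test function: `∫ (w_x η_y - w_y η_x) = 0`. -/
theorem integral_cross_eq_zero {U : Set ℂ} (hU : IsOpen U) {w η : ℂ → ℝ}
    (hw : ContDiffOn ℝ ∞ w U) (hη : ContDiff ℝ ∞ η) (hηc : HasCompactSupport η)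
    (hηU : tsupport η ⊆ U) :
    ∫ z : ℂ, (fderiv ℝ w z 1 * fderiv ℝ η z Complex.I
          - fderiv ℝ w z Complex.I * fderiv ℝ η z 1) = 0 := by
  have hne : (∞ : WithTop ℕ∞) ≠ 0 := by simp
  have h1le : (1 : WithTop ℕ∞) ≤ (∞ : WithTop ℕ∞) := by simp
  -- derivatives of `η`
  have hη1 : ∀ v : ℂ, ContDiff ℝ ∞ (fun x => fderiv ℝ η x v) := fun v =>
    (hη.fderiv_right (m := ∞) (by simp)).clm_apply contDiff_const
  have hη1c : ∀ v : ℂ, Continuous (fun x => fderiv ℝ η x v) := fun v => (hη1 v).continuous
  have hη1cs : ∀ v : ℂ, HasCompactSupport (fun x => fderiv ℝ η x v) := fun v =>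
    hηc.fderiv_apply ℝ v
  have hη1U : ∀ v : ℂ, tsupport (fun x => fderiv ℝ η x v) ⊆ U := fun v =>
    (tsupport_fderiv_apply_subset ℝ v).trans hηU
  have hη2c : ∀ v v' : ℂ, Continuous (fun x => fderiv ℝ (fun y => fderiv ℝ η y v) x v') :=
    fun v v' => (hη1 v).continuous_fderiv_apply hne |>.comp
      (Continuous.prodMk continuous_id continuous_const)
  have hη2cs : ∀ v v' : ℂ, HasCompactSupport (fun x => fderiv ℝ (fun y => fderiv ℝ η y v) x v') :=
    fun v v' => (hη1cs v).fderiv_apply ℝ v'
  have hη2U : ∀ v v' : ℂ, tsupport (fun x => fderiv ℝ (fun y => fderiv ℝ η y v) x v') ⊆ U :=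
    fun v v' => (tsupport_fderiv_apply_subset ℝ v').trans (hη1U v)
  -- `w`
  have hwc : ContinuousOn w U := hw.continuousOn
  have hwd : ∀ x ∈ U, DifferentiableAt ℝ w x := fun x hx =>
    (hw.differentiableOn hne).differentiableAt (hU.mem_nhds hx)
  have hw1c : ∀ v : ℂ, ContinuousOn (fun x => fderiv ℝ w x v) U := fun v =>
    (hw.continuousOn_fderiv_of_isOpen hU h1le).clm_apply continuousOn_const
  -- integration by parts in the two directions
  have ibp : ∀ v v' : ℂ,
      ∫ x, w x * fderiv ℝ (fun y => fderiv ℝ η y v') x v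
        = - ∫ x, fderiv ℝ w x v * fderiv ℝ η x v' := by
    intro v v'
    refine integral_mul_fderiv_eq_neg_fderiv_mul_of_integrable
      (f := w) (g := fun y => fderiv ℝ η y v') (v := v)
      (integrable_mul_of_tsupport_subset hU (hw1c v) (hη1c v') (hη1cs v') (hη1U v'))
      (integrable_mul_of_tsupport_subset hU hwc (hη2c v' v) (hη2cs v' v) (hη2U v' v))
      (integrable_mul_of_tsupport_subset hU hwc (hη1c v') (hη1cs v') (hη1U v'))
      (fun x hx => hwd x (hη1U v' hx))
      (fun x _ => ((hη1 v').differentiable hne) x)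
  -- symmetry of the second derivative
  have hsymm : ∀ x : ℂ, fderiv ℝ (fun y => fderiv ℝ η y Complex.I) x 1
      = fderiv ℝ (fun y => fderiv ℝ η y 1) x Complex.I := by
    intro x
    have hs : IsSymmSndFDerivAt ℝ η x :=
      (hη.contDiffAt (x := x)).isSymmSndFDerivAt (by simp; decide)
    have hd : DifferentiableAt ℝ (fderiv ℝ η) x :=
      ((hη.fderiv_right (m := ∞) (by simp)).differentiable hne) x
    have e : ∀ v v' : ℂ, fderiv ℝ (fun y => fderiv ℝ η y v) x v'
        = fderiv ℝ (fderiv ℝ η) x v' v := by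
      intro v v'
      rw [fderiv_clm_apply hd (differentiableAt_const v)]
      simp
    rw [e, e]
    exact hs.eq _ _
  have hint1 : Integrable (fun z => fderiv ℝ w z 1 * fderiv ℝ η z Complex.I) :=
    integrable_mul_of_tsupport_subset hU (hw1c 1) (hη1c _) (hη1cs _) (hη1U _)
  have hint2 : Integrable (fun z => fderiv ℝ w z Complex.I * fderiv ℝ η z 1) :=
    integrable_mul_of_tsupport_subset hU (hw1c _) (hη1c _) (hη1cs _) (hη1U _)
  rw [integral_sub hint1 hint2]
  have h1 := ibp 1 Complex.I
  have h2 := ibp Complex.I 1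
  have h3 : ∫ x, w x * fderiv ℝ (fun y => fderiv ℝ η y Complex.I) x 1
      = ∫ x, w x * fderiv ℝ (fun y => fderiv ℝ η y 1) x Complex.I := by
    refine integral_congr_ae (Eventually.of_forall fun x => ?_)
    simp only [hsymm x]
  rw [h3, h2] at h1
  have h4 := neg_injective h1
  rw [h4, sub_self]

/-- Extension by zero of a function on `ℍ` to `ℂ`. -/
noncomputable def ext0 (φ : ℍ → ℝ) : ℂ → ℝ := fun z =>
  if h : 0 < z.im then φ ⟨z, h⟩ else 0

theorem ext0_eventuallyEq (φ : ℍ → ℝ) {z : ℂ} (hz : 0 < z.im) :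
    ext0 φ =ᶠ[𝓝 z] φ ∘ ofComplex := by
  filter_upwards [isOpen_upperHalfPlaneSet.mem_nhds hz] with x hx
  have hx' : 0 < x.im := hx
  simp only [ext0, dif_pos hx', Function.comp_apply, ofComplex_apply_of_im_pos hx']

theorem support_ext0_subset (φ : ℍ → ℝ) :
    Function.support (ext0 φ) ⊆ UpperHalfPlane.coe '' tsupport φ := by
  intro z hz
  rw [Function.mem_support] at hz
  by_cases h : 0 < z.im
  · simp only [ext0, dif_pos h] at hz
    exact ⟨⟨z, h⟩, subset_tsupport φ hz, rfl⟩
  · simp [ext0, dif_neg h] at hz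

theorem tsupport_ext0_subset {φ : ℍ → ℝ} (hc : HasCompactSupport φ) :
    tsupport (ext0 φ) ⊆ UpperHalfPlane.coe '' tsupport φ :=
  closure_minimal (support_ext0_subset φ)
    (IsCompact.image hc UpperHalfPlane.continuous_coe).isClosed

theorem tsupport_ext0_subset' {φ : ℍ → ℝ} (hc : HasCompactSupport φ) :
    tsupport (ext0 φ) ⊆ upperHalfPlaneSet := by
  refine (tsupport_ext0_subset hc).trans ?_
  rintro _ ⟨w, -, rfl⟩
  exact w.2

theorem hasCompactSupport_ext0 {φ : ℍ → ℝ} (hc : HasCompactSupport φ) :
    HasCompactSupport (ext0 φ) :=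
  IsCompact.of_isClosed_subset (IsCompact.image hc UpperHalfPlane.continuous_coe)
    (isClosed_tsupport _) (tsupport_ext0_subset hc)

theorem contDiff_ext0 {φ : ℍ → ℝ} (hφ : SmoothH φ) (hc : HasCompactSupport φ) :
    ContDiff ℝ ∞ (ext0 φ) := by
  rw [contDiff_iff_contDiffAt]
  intro z
  by_cases hz : 0 < z.im
  · have h1 : ContDiffAt ℝ ∞ (φ ∘ ofComplex) z :=
      hφ.contDiffAt (isOpen_upperHalfPlaneSet.mem_nhds hz)
    exact h1.congr_of_eventuallyEq (ext0_eventuallyEq φ hz)
  · have hz' : z ∉ tsupport (ext0 φ) := fun h => hz (tsupport_ext0_subset' hc h)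
    have h0 : ext0 φ =ᶠ[𝓝 z] 0 := notMem_tsupport_iff_eventuallyEq.mp hz'
    exact (contDiffAt_const (c := (0 : ℝ))).congr_of_eventuallyEq h0

/-- Integrals against the hyperbolic measure with the weight `y²` are Lebesgue integrals. -/
theorem integral_volume_im_sq (F : ℍ → ℂ) :
    ∫ z : ℍ, ((z.im ^ 2 : ℝ) : ℂ) * F z
      = ∫ z : ℍ, F z ∂(Measure.comap UpperHalfPlane.coe (volume : Measure ℂ)) := by
  have hm : Measurable (fun z : ℍ => ((1 / NNReal.mk z.im z.im_pos.le : NNReal) ^ 2)) := by
    refine Continuous.measurable ?_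
    refine .pow (.div₀ continuous_const ?_ ?_) _
    · exact continuous_im.subtype_mk _
    · exact fun x ↦ NNReal.ne_iff.mp x.im_ne_zero
  rw [volume_def, integral_withDensity_eq_integral_smul hm]
  refine integral_congr_ae (Eventually.of_forall fun z => ?_)
  have hz : (z.im : ℂ) ≠ 0 := by
    exact_mod_cast z.im_ne_zero
  simp only [NNReal.smul_def, NNReal.coe_pow, NNReal.coe_div, NNReal.coe_one, NNReal.coe_mk,
    Complex.real_smul]
  push_cast
  field_simp

theorem integral_comap_coe (G : ℂ → ℝ) :
    ∫ z : ℍ, G (z : ℂ) ∂(Measure.comap UpperHalfPlane.coe (volume : Measure ℂ))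
      = ∫ z in upperHalfPlaneSet, G z := by
  have hm : (Measure.comap UpperHalfPlane.coe (volume : Measure ℂ)).map UpperHalfPlane.coe
      = volume.restrict (Set.range UpperHalfPlane.coe) :=
    measurableEmbedding_coe.map_comap volume
  rw [← UpperHalfPlane.range_coe, ← hm, measurableEmbedding_coe.integral_map]

end Closed

open Closed in
/-- K: closedness (`d(dU) = 0` tested against `φ`). -/
theorem pairing_gradC_im_eq_zero (U φ : ℍ → ℝ) (hU : SmoothH U) (hφ : SmoothH φ)
    (hc : HasCompactSupport φ) :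
    (pairing (fun _ => 1) (gradC U) (gradC φ)).im = 0 := by
  have hpair : pairing (fun _ => 1) (gradC U) (gradC φ)
      = ∫ z : ℍ, gradC U z * conj (gradC φ z)
          ∂(Measure.comap UpperHalfPlane.coe (volume : Measure ℂ)) := by
    rw [← integral_volume_im_sq]
    unfold pairing
    refine integral_congr_ae (Eventually.of_forall fun z => ?_)
    simp
  rw [hpair]
  by_cases hint : Integrable (fun z : ℍ => gradC U z * conj (gradC φ z))
      (Measure.comap UpperHalfPlane.coe (volume : Measure ℂ))
  swap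
  · rw [integral_undef hint]
    rfl
  have him := Complex.imCLM.integral_comp_comm hint
  simp only [Complex.imCLM_apply] at him
  rw [← him]
  -- the integrand in real coordinates
  set G : ℂ → ℝ := fun z => fderiv ℝ (U ∘ ofComplex) z 1 * fderiv ℝ (ext0 φ) z Complex.I
          - fderiv ℝ (U ∘ ofComplex) z Complex.I * fderiv ℝ (ext0 φ) z 1 with hG
  have hpt : ∀ z : ℍ, (gradC U z * conj (gradC φ z)).im = G (z : ℂ) := by
    intro z
    have hfd : fderiv ℝ (ext0 φ) (z : ℂ) = fderiv ℝ (φ ∘ ofComplex) (z : ℂ) :=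
      (ext0_eventuallyEq φ z.2).fderiv_eq
    simp only [hG, hfd, gradC, map_sub, map_mul, Complex.conj_ofReal, Complex.conj_I,
      Complex.mul_im, Complex.sub_im, Complex.sub_re, Complex.ofReal_re, Complex.ofReal_im,
      Complex.mul_re, Complex.I_re, Complex.I_im, Complex.neg_re, Complex.neg_im]
    ring
  rw [integral_congr_ae (Eventually.of_forall hpt), integral_comap_coe G]
  have hzero : ∫ z : ℂ, G z = 0 :=
    integral_cross_eq_zero isOpen_upperHalfPlaneSet hU (contDiff_ext0 hφ hc)
      (hasCompactSupport_ext0 hc) (tsupport_ext0_subset' hc)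
  rw [← hzero]
  refine setIntegral_eq_integral_of_forall_compl_eq_zero fun z hz => ?_
  have hz' : z ∉ tsupport (ext0 φ) := fun h => hz (tsupport_ext0_subset' hc h)
  have h0 : ext0 φ =ᶠ[𝓝 z] 0 := notMem_tsupport_iff_eventuallyEq.mp hz'
  have h1 : fderiv ℝ (ext0 φ) z = 0 := by
    rw [h0.fderiv_eq]
    simp
  simp only [hG, h1]
  simp

end Fermat.Agent.S21
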