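import Fermat.Agent.S21.Defs

/-!
# S21 leaf module `Unfold`

FROZEN STATEMENTS: prove the theorem(s) below exactly as stated (replace each `sorry`).
Put every auxiliary declaration inside `namespace Fermat.Agent.S21.Unfold` (to avoid name
clashes with other leaf files).  Do not edit `Defs.lean`.  You may add imports of other
S21 leaf modules listed in PLAN v1 (respect the dependency order, no cycles).
-/

set_option autoImplicit false

open ModularCurve ModularCurve.Period CongruenceSubgroup UpperHalfPlane MeasureTheory Filter Topology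
open scoped MatrixGroups ComplexConjugate ContDiff ENNReal

namespace Fermat.Agent.S21

namespace Unfold

theorem countable_SL2Z : Countable SL(2, ℤ) := by
  have hinj : Function.Injective
      (fun g : SL(2, ℤ) => fun i : Fin 2 => fun j : Fin 2 => (g : Matrix (Fin 2) (Fin 2) ℤ) i j) := by
    intro g h hgh
    apply Subtype.ext
    ext i j
    exact congrFun (congrFun hgh i) j
  exact hinj.countable

theorem countable_Gamma0 (N : ℕ) : Countable (Gamma0 N) := by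
  have := countable_SL2Z
  exact Subtype.val_injective.countable

theorem measurePreserving_smul_SL (g : SL(2, ℤ)) :
    MeasurePreserving (fun z : ℍ => g • z) volume volume :=
  measurePreserving_smul (Matrix.SpecialLinearGroup.mapGL ℝ g) volume

theorem measurableEmbedding_smul_SL (g : SL(2, ℤ)) :
    MeasurableEmbedding (fun z : ℍ => g • z) :=
  measurableEmbedding_const_smul (Matrix.SpecialLinearGroup.mapGL ℝ g)

theorem continuous_smul_SL (g : SL(2, ℤ)) : Continuous (fun z : ℍ => g • z) :=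
  continuous_const_smul (Matrix.SpecialLinearGroup.mapGL ℝ g)

theorem inv_smul_smul_SL (g : SL(2, ℤ)) (z : ℍ) : g⁻¹ • g • z = z := inv_smul_smul g z

variable {N : ℕ} {W : ℍ → ℝ}

theorem hasSum_inv (hW : IsPartitionWeight N W) (z : ℍ) :
    HasSum (fun γ : Gamma0 N => W (((γ⁻¹ : Gamma0 N) : SL(2, ℤ)) • z)) 1 :=
  (Equiv.inv (Gamma0 N)).hasSum_iff.mpr (hW.hasSum z)

theorem tsum_ofReal_inv (hW : IsPartitionWeight N W) (z : ℍ) :
    ∑' γ : Gamma0 N, ENNReal.ofReal (W (((γ⁻¹ : Gamma0 N) : SL(2, ℤ)) • z)) = 1 := by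
  rw [← ENNReal.ofReal_tsum_of_nonneg (fun γ => (hW.pos _).le) (hasSum_inv hW z).summable,
    (hasSum_inv hW z).tsum_eq, ENNReal.ofReal_one]

theorem tsum_ofReal_complex_inv (hW : IsPartitionWeight N W) (z : ℍ) :
    ∑' γ : Gamma0 N, ((W (((γ⁻¹ : Gamma0 N) : SL(2, ℤ)) • z) : ℝ) : ℂ) = 1 := by
  rw [← Complex.ofReal_tsum, (hasSum_inv hW z).tsum_eq, Complex.ofReal_one]

theorem le_one (hW : IsPartitionWeight N W) (z : ℍ) : W z ≤ 1 := by
  have h := hW.hasSum z
  have h1 := le_hasSum h (1 : Gamma0 N) (fun γ _ => (hW.pos _).le)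
  simpa using h1

/-- change of variables for one term -/
theorem lintegral_term (γ : Gamma0 N) (φ : ℍ → ℝ≥0∞) :
    ∫⁻ z : ℍ, ENNReal.ofReal (W z) * φ ((γ : SL(2, ℤ)) • z)
      = ∫⁻ z : ℍ, ENNReal.ofReal (W (((γ⁻¹ : Gamma0 N) : SL(2, ℤ)) • z)) * φ z := by
  have h := (measurePreserving_smul_SL (γ : SL(2, ℤ))).lintegral_comp_emb
    (measurableEmbedding_smul_SL (γ : SL(2, ℤ)))
    (fun z : ℍ => ENNReal.ofReal (W (((γ⁻¹ : Gamma0 N) : SL(2, ℤ)) • z)) * φ z)
  rw [← h]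
  refine lintegral_congr fun z => ?_
  have : ((γ⁻¹ : Gamma0 N) : SL(2, ℤ)) • (γ : SL(2, ℤ)) • z = z := by
    rw [Subgroup.coe_inv]; exact inv_smul_smul _ z
  rw [this]

/-- the unfolding identity, summed form, for a.e.-measurable `φ`. -/
theorem tsum_lintegral (hW : IsPartitionWeight N W) (φ : ℍ → ℝ≥0∞) (hφ : AEMeasurable φ volume) :
    ∑' γ : Gamma0 N, ∫⁻ z : ℍ, ENNReal.ofReal (W z) * φ ((γ : SL(2, ℤ)) • z) = ∫⁻ z : ℍ, φ z := by
  have := countable_Gamma0 N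
  have hWm : Measurable W := hW.continuous.measurable
  simp_rw [lintegral_term]
  rw [← lintegral_tsum]
  · refine lintegral_congr fun z => ?_
    rw [ENNReal.tsum_mul_right, tsum_ofReal_inv hW z, one_mul]
  · intro γ
    refine AEMeasurable.mul ?_ hφ
    exact (ENNReal.measurable_ofReal.comp
      (hWm.comp (continuous_smul_SL _).measurable)).aemeasurable

theorem lintegral_unfold_ae (hW : IsPartitionWeight N W) (φ : ℍ → ℝ≥0∞)
    (hφ : AEMeasurable φ volume) :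
    ∫⁻ z : ℍ, ENNReal.ofReal (W z) * ∑' γ : Gamma0 N, φ ((γ : SL(2, ℤ)) • z) = ∫⁻ z : ℍ, φ z := by
  have := countable_Gamma0 N
  have hWm : Measurable W := hW.continuous.measurable
  simp_rw [← ENNReal.tsum_mul_left]
  rw [lintegral_tsum, tsum_lintegral hW φ hφ]
  intro γ
  refine AEMeasurable.mul (ENNReal.measurable_ofReal.comp hWm).aemeasurable ?_
  exact hφ.comp_quasiMeasurePreserving
    (measurePreserving_smul_SL (γ : SL(2, ℤ))).quasiMeasurePreserving

end Unfold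

open Unfold in
/-- U1: unfolding, `ℝ≥0∞` version. -/
theorem lintegral_unfold {N : ℕ} {W : ℍ → ℝ} (hW : IsPartitionWeight N W)
    (φ : ℍ → ℝ≥0∞) (hφ : Measurable φ) :
    ∫⁻ z : ℍ, ENNReal.ofReal (W z) * ∑' γ : Gamma0 N, φ ((γ : SL(2, ℤ)) • z) = ∫⁻ z : ℍ, φ z :=
  lintegral_unfold_ae hW φ hφ.aemeasurable

/-- U2: unfolding, Bochner version. -/
theorem integral_unfold {N : ℕ} {W : ℍ → ℝ} (hW : IsPartitionWeight N W)
    (Θ : ℍ → ℂ) (hΘ : Integrable Θ) :
    Integrable (fun z : ℍ => (W z : ℂ) * ∑' γ : Gamma0 N, Θ ((γ : SL(2, ℤ)) • z)) ∧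
    ∫ z : ℍ, (W z : ℂ) * ∑' γ : Gamma0 N, Θ ((γ : SL(2, ℤ)) • z) = ∫ z : ℍ, Θ z := by
  have hcount := Unfold.countable_Gamma0 N
  have hWm : Measurable W := hW.continuous.measurable
  set F : Gamma0 N → ℍ → ℂ := fun γ z => (W z : ℂ) * Θ ((γ : SL(2, ℤ)) • z) with hF
  have hFm : ∀ γ, AEStronglyMeasurable (F γ) volume := fun γ =>
    (Complex.measurable_ofReal.comp hWm).aestronglyMeasurable.mul
      (hΘ.1.comp_measurePreserving (Unfold.measurePreserving_smul_SL _))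
  have hnormW : ∀ z : ℍ, ‖(W z : ℂ)‖ₑ = ENNReal.ofReal (W z) := by
    intro z
    rw [← ofReal_norm, Complex.norm_real, Real.norm_of_nonneg (hW.pos z).le]
  have hFnorm : ∀ γ z, ‖F γ z‖ₑ = ENNReal.ofReal (W z) * ‖Θ ((γ : SL(2, ℤ)) • z)‖ₑ := by
    intro γ z
    simp only [hF, enorm_mul, hnormW]
  have hsum : ∑' γ, ∫⁻ z, ‖F γ z‖ₑ = ∫⁻ z, ‖Θ z‖ₑ := by
    simp_rw [hFnorm]
    exact Unfold.tsum_lintegral hW _ hΘ.1.enorm
  have hfin : ∑' γ, ∫⁻ z, ‖F γ z‖ₑ ≠ (⊤ : ℝ≥0∞) := by rw [hsum]; exact hΘ.2.ne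
  have hrew : (fun z : ℍ => (W z : ℂ) * ∑' γ : Gamma0 N, Θ ((γ : SL(2, ℤ)) • z))
      = fun z => ∑' γ, F γ z := by
    funext z; rw [tsum_mul_left]
  rw [hrew]
  have hlin : ∫⁻ z, ∑' γ, ‖F γ z‖ₑ = ∑' γ, ∫⁻ z, ‖F γ z‖ₑ :=
    lintegral_tsum (fun γ => (hFm γ).enorm)
  have hsummable : ∀ᵐ z ∂(volume : Measure ℍ), Summable (fun γ => F γ z) := by
    have h1 : ∫⁻ z, ∑' γ, ‖F γ z‖ₑ ≠ (⊤ : ℝ≥0∞) := by rw [hlin]; exact hfin
    have h2 := ae_lt_top' (AEMeasurable.tsum (fun γ => (hFm γ).enorm)) h1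
    filter_upwards [h2] with z hz
    have h3 : Summable (fun γ => (‖F γ z‖₊ : ℝ)) := by
      rw [← ENNReal.tsum_coe_ne_top_iff_summable_coe]; exact hz.ne
    exact h3.of_norm
  constructor
  · refine ⟨?_, ?_⟩
    · refine aestronglyMeasurable_of_tendsto_ae (atTop : Filter (Finset (Gamma0 N)))
        (f := fun s z => ∑ γ ∈ s, F γ z) ?_ ?_
      · intro s
        exact Finset.aestronglyMeasurable_fun_sum s (fun γ _ => hFm γ)
      · filter_upwards [hsummable] with z hz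
        exact hz.hasSum
    · calc ∫⁻ z, ‖∑' γ, F γ z‖ₑ ≤ ∫⁻ z, ∑' γ, ‖F γ z‖ₑ :=
            lintegral_mono fun z => enorm_tsum_le_tsum_enorm
        _ = ∑' γ, ∫⁻ z, ‖F γ z‖ₑ := hlin
        _ < (⊤ : ℝ≥0∞) := hfin.lt_top
  · rw [integral_tsum hFm hfin]
    have hterm : ∀ γ : Gamma0 N, ∫ z, F γ z
        = ∫ z, ((W (((γ⁻¹ : Gamma0 N) : SL(2, ℤ)) • z) : ℝ) : ℂ) * Θ z := by
      intro γ
      have h := (Unfold.measurePreserving_smul_SL (γ : SL(2, ℤ))).integral_comp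
        (Unfold.measurableEmbedding_smul_SL (γ : SL(2, ℤ)))
        (fun z : ℍ => ((W (((γ⁻¹ : Gamma0 N) : SL(2, ℤ)) • z) : ℝ) : ℂ) * Θ z)
      rw [← h]
      refine integral_congr_ae (Eventually.of_forall fun z => ?_)
      have : ((γ⁻¹ : Gamma0 N) : SL(2, ℤ)) • (γ : SL(2, ℤ)) • z = z := by
        rw [Subgroup.coe_inv]; exact inv_smul_smul _ z
      simp only [hF, this]
    simp_rw [hterm]
    rw [← integral_tsum]
    · refine integral_congr_ae (Eventually.of_forall fun z => ?_)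
      simp only
      rw [tsum_mul_right, Unfold.tsum_ofReal_complex_inv hW z, one_mul]
    · intro γ
      exact (Complex.measurable_ofReal.comp
        (hWm.comp (Unfold.continuous_smul_SL _).measurable)).aestronglyMeasurable.mul hΘ.1
    · have hnorm2 : ∀ (γ : Gamma0 N) (z : ℍ),
          ‖((W (((γ⁻¹ : Gamma0 N) : SL(2, ℤ)) • z) : ℝ) : ℂ) * Θ z‖ₑ
            = ENNReal.ofReal (W (((γ⁻¹ : Gamma0 N) : SL(2, ℤ)) • z)) * ‖Θ z‖ₑ := by
        intro γ z
        rw [enorm_mul, hnormW]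
      simp_rw [hnorm2, ← Unfold.lintegral_term (W := W) _ (fun z => ‖Θ z‖ₑ)]
      rw [Unfold.tsum_lintegral hW _ hΘ.1.enorm]
      exact hΘ.2.ne

end Fermat.Agent.S21
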