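import Fermat.Agent.S21.Defs
import Fermat.Agent.S21.Unfold

/-!
# S21 leaf module `CuspFormOfL2`

FROZEN STATEMENTS: prove the theorem(s) below exactly as stated (replace each `sorry`).
Put every auxiliary declaration inside `namespace Fermat.Agent.S21.CuspFormOfL2` (to avoid name
clashes with other leaf files).  Do not edit `Defs.lean`.  You may add imports of other
S21 leaf modules listed in PLAN v1 (respect the dependency order, no cycles).
-/

set_option autoImplicit false

open ModularCurve ModularCurve.Period CongruenceSubgroup UpperHalfPlane MeasureTheory Filter Topology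
open scoped MatrixGroups ComplexConjugate ContDiff ENNReal

namespace Fermat.Agent.S21.CuspFormOfL2

section Analytic

open Complex Metric Set
open scoped Real


/-- Inner angular integral: the mean value property on a circle of radius `ρ`. -/
theorem integral_angle_eq {h : ℂ → ℂ} {w : ℂ} {r ρ : ℝ} (hρ : 0 < ρ) (hρr : ρ < r)
    (hh : DifferentiableOn ℂ h (ball w r)) :
    ∫ θ in Ioo (-π) π, h (w + ρ * (Real.cos θ + Real.sin θ * Complex.I)) = (2 * π) • h w := by
  have hdc : DiffContOnCl ℂ h (ball w |ρ|) := by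
    apply hh.diffContOnCl_ball
    rw [abs_of_pos hρ]
    exact closedBall_subset_ball hρr
  have h2 := hdc.circleAverage
  rw [Real.circleAverage_eq_integral_add (-π)] at h2
  have h3 : ∀ θ : ℝ, circleMap w ρ θ = w + ρ * (Real.cos θ + Real.sin θ * Complex.I) := by
    intro θ
    rw [circleMap, Complex.exp_mul_I]
    push_cast
    ring
  have hper : (fun θ : ℝ => h (w + ρ * (Real.cos θ + Real.sin θ * Complex.I))).Periodic (2 * π) := by
    intro θ
    simp [Real.cos_add_two_pi, Real.sin_add_two_pi]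
  have h4 : ∫ θ in Ioo (-π) π, h (w + ρ * (Real.cos θ + Real.sin θ * Complex.I))
      = ∫ θ in (-π)..π, h (w + ρ * (Real.cos θ + Real.sin θ * Complex.I)) := by
    rw [intervalIntegral.integral_of_le (by linarith [Real.pi_pos]),
      integral_Ioc_eq_integral_Ioo]
  rw [h4]
  have h5 := intervalIntegral.integral_comp_add_right
    (fun θ : ℝ => h (circleMap w ρ θ)) (a := 0) (b := 2 * π) (-π)
  rw [h5] at h2
  simp only [h3] at h2
  have e1 : (0 : ℝ) + -π = -π := by ring
  have e2 : 2 * π + -π = π := by ring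
  rw [e1, e2] at h2
  rw [← h2, smul_smul, mul_inv_cancel₀ (by positivity), one_smul]

/-- Mean value property over a disc. -/
theorem integral_ball_eq {h : ℂ → ℂ} {w : ℂ} {r R : ℝ} (hr : 0 < r) (hrR : r < R)
    (hh : DifferentiableOn ℂ h (ball w R)) :
    ∫ z in ball w r, h z = (π * r ^ 2) • h w := by
  have hcont : ContinuousOn h (closedBall w r) :=
    hh.continuousOn.mono (closedBall_subset_ball hrR)
  -- step 1-2: translate
  have s1 : ∫ z in ball w r, h z = ∫ z, (ball (0 : ℂ) r).indicator (fun t => h (w + t)) z := by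
    rw [← integral_indicator measurableSet_ball]
    rw [← integral_add_left_eq_self (μ := (volume : Measure ℂ)) _ w]
    congr 1
    ext z
    by_cases hz : z ∈ ball (0 : ℂ) r
    · have : w + z ∈ ball w r := by
        rw [mem_ball, dist_eq_norm] at *
        simpa using hz
      rw [indicator_of_mem this, indicator_of_mem hz]
    · have : w + z ∉ ball w r := by
        rw [mem_ball, dist_eq_norm] at *
        simpa using hz
      rw [indicator_of_notMem this, indicator_of_notMem hz]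
  rw [s1, ← Complex.integral_comp_polarCoord_symm]
  -- step 4: rewrite integrand
  have s2 : ∫ p in polarCoord.target,
        p.1 • (ball (0 : ℂ) r).indicator (fun t => h (w + t)) (Complex.polarCoord.symm p)
      = ∫ p in Ioo (0 : ℝ) r ×ˢ Ioo (-π) π,
        p.1 • h (w + p.1 * (Real.cos p.2 + Real.sin p.2 * Complex.I)) := by
    rw [polarCoord_target]
    have hsub : Ioo (0 : ℝ) r ×ˢ Ioo (-π) π ⊆ Ioi (0 : ℝ) ×ˢ Ioo (-π) π :=
      prod_mono Ioo_subset_Ioi_self subset_rfl
    rw [← integral_indicator (measurableSet_Ioi.prod measurableSet_Ioo),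
      ← integral_indicator (measurableSet_Ioo.prod measurableSet_Ioo)]
    congr 1
    ext p
    by_cases hp : p ∈ Ioo (0 : ℝ) r ×ˢ Ioo (-π) π
    · rw [indicator_of_mem hp, indicator_of_mem (hsub hp)]
      have hp1 : 0 < p.1 ∧ p.1 < r := hp.1
      have : Complex.polarCoord.symm p ∈ ball (0 : ℂ) r := by
        rw [mem_ball, dist_zero_right, norm_polarCoord_symm, abs_of_pos hp1.1]
        exact hp1.2
      rw [indicator_of_mem this, Complex.polarCoord_symm_apply]
    · rw [indicator_of_notMem hp]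
      by_cases hp' : p ∈ Ioi (0 : ℝ) ×ˢ Ioo (-π) π
      · rw [indicator_of_mem hp']
        have hp1 : 0 < p.1 := hp'.1
        have : Complex.polarCoord.symm p ∉ ball (0 : ℂ) r := by
          rw [mem_ball, dist_zero_right, norm_polarCoord_symm, abs_of_pos hp1]
          intro hlt
          exact hp ⟨⟨hp1, hlt⟩, hp'.2⟩
        rw [indicator_of_notMem this, smul_zero]
      · rw [indicator_of_notMem hp']
  rw [s2]
  -- step 5: Fubini
  have hcontF : ContinuousOn (fun p : ℝ × ℝ => p.1 • h (w + p.1 * (Real.cos p.2 + Real.sin p.2 * Complex.I)))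
      (Icc (0 : ℝ) r ×ˢ Icc (-π) π) := by
    apply ContinuousOn.smul continuousOn_fst
    apply hcont.comp
    · fun_prop
    · intro p hp
      have hp1 : 0 ≤ p.1 ∧ p.1 ≤ r := hp.1
      rw [mem_closedBall, dist_eq_norm]
      have e : w + (p.1 : ℂ) * (Real.cos p.2 + Real.sin p.2 * Complex.I) - w
          = Complex.polarCoord.symm p := by
        rw [Complex.polarCoord_symm_apply]; ring
      rw [e, norm_polarCoord_symm, abs_of_nonneg hp1.1]
      exact hp1.2
  have hintF : IntegrableOn (fun p : ℝ × ℝ => p.1 • h (w + p.1 * (Real.cos p.2 + Real.sin p.2 * Complex.I)))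
      (Ioo (0 : ℝ) r ×ˢ Ioo (-π) π) (volume.prod volume) := by
    have hK : IsCompact (Icc (0 : ℝ) r ×ˢ Icc (-π) π) := isCompact_Icc.prod isCompact_Icc
    exact (hcontF.integrableOn_compact hK).mono_set
      (prod_mono Ioo_subset_Icc_self Ioo_subset_Icc_self)
  have s3 := setIntegral_prod
    (fun p : ℝ × ℝ => p.1 • h (w + p.1 * (Real.cos p.2 + Real.sin p.2 * Complex.I))) hintF
  rw [show (volume : Measure (ℝ × ℝ)) = (volume : Measure ℝ).prod volume from rfl, s3]
  -- step 6: inner integral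
  have s4 : ∫ ρ in Ioo (0 : ℝ) r, ∫ θ in Ioo (-π) π,
        ρ • h (w + ρ * (Real.cos θ + Real.sin θ * Complex.I))
      = ∫ ρ in Ioo (0 : ℝ) r, ρ • ((2 * π) • h w) := by
    apply setIntegral_congr_fun measurableSet_Ioo
    intro ρ hρ
    have := integral_angle_eq (h := h) (w := w) hρ.1 (hρ.2.trans hrR) hh
    simp only
    rw [integral_smul, this]
  rw [s4, integral_smul_const]
  have s5 : ∫ ρ in Ioo (0 : ℝ) r, ρ = r ^ 2 / 2 := by
    rw [← integral_Ioc_eq_integral_Ioo, ← intervalIntegral.integral_of_le hr.le, integral_id]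
    ring
  rw [s5, smul_smul]
  congr 1
  ring

/-- Sub-mean-value inequality for `‖g‖²`. -/
theorem norm_sq_le_integral_ball {g : ℂ → ℂ} {w : ℂ} {r R : ℝ} (hr : 0 < r) (hrR : r < R)
    (hg : DifferentiableOn ℂ g (ball w R)) :
    ‖g w‖ ^ 2 ≤ (π * r ^ 2)⁻¹ * ∫ z in ball w r, ‖g z‖ ^ 2 := by
  have h1 := integral_ball_eq (h := fun z => g z ^ 2) hr hrR (hg.pow 2)
  have hpos : 0 < π * r ^ 2 := by positivity
  have h2 : ‖(π * r ^ 2) • (g w ^ 2)‖ = (π * r ^ 2) * ‖g w‖ ^ 2 := by
    rw [norm_smul, Real.norm_of_nonneg hpos.le, norm_pow]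
  have h3 : ‖∫ z in ball w r, g z ^ 2‖ ≤ ∫ z in ball w r, ‖g z‖ ^ 2 := by
    refine (norm_integral_le_integral_norm _).trans (le_of_eq ?_)
    congr 1
    ext z
    rw [norm_pow]
  rw [h1, h2] at h3
  rw [inv_mul_eq_div, le_div_iff₀ hpos]
  linarith

/-- The half-strip `{0 ≤ re < h, A < im}`. -/
def strip (h A : ℝ) : Set ℂ := {z : ℂ | 0 ≤ z.re ∧ z.re < h ∧ A < z.im}

theorem measurableSet_strip (h A : ℝ) : MeasurableSet (strip h A) := by
  have h1 : MeasurableSet {z : ℂ | 0 ≤ z.re} := measurableSet_le measurable_const Complex.measurable_re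
  have h2 : MeasurableSet {z : ℂ | z.re < h} := measurableSet_lt Complex.measurable_re measurable_const
  have h3 : MeasurableSet {z : ℂ | A < z.im} := measurableSet_lt measurable_const Complex.measurable_im
  exact h1.inter (h2.inter h3)

theorem periodic_int {g : ℂ → ℂ} {h Y : ℝ}
    (hper : ∀ z : ℂ, Y < z.im → g (z + h) = g z) (n : ℤ) (z : ℂ) (hz : Y < z.im) :
    g (z + n * h) = g z := by
  have hnat : ∀ (k : ℕ) (z : ℂ), Y < z.im → g (z + k * h) = g z := by
    intro k
    induction k with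
    | zero => intro z _; simp
    | succ k ih =>
      intro z hz
      have e : z + ((k + 1 : ℕ) : ℂ) * h = (z + k * h) + h := by push_cast; ring
      rw [e, hper _ (by simpa using hz), ih z hz]
  obtain ⟨k, rfl | rfl⟩ := Int.eq_nat_or_neg n
  · simpa using hnat k z hz
  · have hz' : Y < (z + ((-(k : ℤ) : ℤ) : ℂ) * h).im := by simpa using hz
    have := hnat k _ hz'
    rw [← this]
    congr 1
    push_cast
    ring

/-- A holomorphic `h`-periodic function with finite `L²` energy on a half-strip tends to `0`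
uniformly as `im z → ∞`. -/
theorem exists_bound_of_integrableOn_strip {g : ℂ → ℂ} {h Y : ℝ} (hh : 0 < h)
    (hg : DifferentiableOn ℂ g {z : ℂ | Y < z.im})
    (hper : ∀ z : ℂ, Y < z.im → g (z + h) = g z)
    (hint : IntegrableOn (fun z => ‖g z‖ ^ 2) (strip h Y)) :
    ∀ ε > 0, ∃ A : ℝ, ∀ z : ℂ, A ≤ z.im → ‖g z‖ ≤ ε := by
  intro ε hε
  -- tail of the integral tends to zero
  have hanti : Antitone (fun n : ℕ => strip h (max Y n)) := by
    intro m n hmn z hz
    refine ⟨hz.1, hz.2.1, lt_of_le_of_lt ?_ hz.2.2⟩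
    exact max_le_max le_rfl (by exact_mod_cast hmn)
  have hsub : ∀ n : ℕ, strip h (max Y n) ⊆ strip h Y := fun n z hz =>
    ⟨hz.1, hz.2.1, lt_of_le_of_lt (le_max_left _ _) hz.2.2⟩
  have hlim := tendsto_setIntegral_of_antitone (μ := (volume : Measure ℂ))
    (f := fun z => ‖g z‖ ^ 2) (fun n : ℕ => measurableSet_strip h (max Y n)) hanti
    ⟨0, hint.mono_set (hsub 0)⟩
  have hempty : ⋂ n : ℕ, strip h (max Y n) = ∅ := by
    ext z
    simp only [mem_iInter, mem_empty_iff_false, iff_false, not_forall]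
    obtain ⟨n, hn⟩ := exists_nat_ge z.im
    exact ⟨n, fun hz => absurd hz.2.2 (not_lt.mpr (hn.trans (le_max_right _ _)))⟩
  rw [hempty, Measure.restrict_empty, integral_zero_measure] at hlim
  have hc : 0 < ε ^ 2 * (π * (h / 2) ^ 2) / 2 := by positivity
  obtain ⟨n, hn⟩ := ((tendsto_order.1 hlim).2 _ hc).exists
  set Y' : ℝ := max Y n with hY'
  have hYY' : Y ≤ Y' := le_max_left _ _
  set F : ℂ → ℝ := (strip h Y').indicator (fun z => ‖g z‖ ^ 2) with hF
  have hFint : Integrable F := by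
    rw [hF, integrable_indicator_iff (measurableSet_strip h Y')]
    exact hint.mono_set (hsub n)
  have hFnn : ∀ z, 0 ≤ F z := fun z => indicator_nonneg (fun _ _ => by positivity) z
  have hFval : ∫ z, F z < ε ^ 2 * (π * (h / 2) ^ 2) / 2 := by
    rw [hF, integral_indicator (measurableSet_strip h Y')]
    exact hn
  refine ⟨Y' + h, fun z hz => ?_⟩
  have himball : ∀ w ∈ ball z h, Y' < w.im := by
    intro w hw
    rw [mem_ball, dist_eq_norm] at hw
    have h1 : |(w - z).im| ≤ ‖w - z‖ := Complex.abs_im_le_norm _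
    have h2 : (w - z).im = w.im - z.im := by simp
    rw [h2] at h1
    have := abs_lt.mp (lt_of_le_of_lt h1 hw)
    linarith
  have hdiff : DifferentiableOn ℂ g (ball z h) :=
    hg.mono fun w hw => lt_of_le_of_lt hYY' (himball w hw)
  have hmv := norm_sq_le_integral_ball (g := g) (w := z) (r := h / 2) (R := h)
    (by positivity) (by linarith) hdiff
  -- cover the small ball by two translates of the strip
  set n₀ : ℤ := ⌊(z.re - h / 2) / h⌋ with hn₀
  have ha1 : (n₀ : ℝ) * h ≤ z.re - h / 2 := by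
    have := Int.floor_le ((z.re - h / 2) / h)
    rw [← hn₀] at this
    exact (le_div_iff₀ hh).mp this
  have ha2 : z.re - h / 2 < ((n₀ : ℝ) + 1) * h := by
    have := Int.lt_floor_add_one ((z.re - h / 2) / h)
    rw [← hn₀] at this
    exact (div_lt_iff₀ hh).mp this
  have hpt : ∀ w : ℂ, (ball z (h / 2)).indicator (fun w => ‖g w‖ ^ 2) w
      ≤ F (w - n₀ * h) + F (w - (n₀ + 1 : ℤ) * h) := by
    intro w
    by_cases hw : w ∈ ball z (h / 2)
    · rw [indicator_of_mem hw]
      have hwim : Y' < w.im := himball w (ball_subset_ball (by linarith) hw)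
      have hwre : |w.re - z.re| < h / 2 := by
        rw [mem_ball, dist_eq_norm] at hw
        have h1 : |(w - z).re| ≤ ‖w - z‖ := Complex.abs_re_le_norm _
        have h2 : (w - z).re = w.re - z.re := by simp
        rw [h2] at h1
        exact lt_of_le_of_lt h1 hw
      have hwre' := abs_lt.mp hwre
      by_cases hcase : w.re < ((n₀ : ℝ) + 1) * h
      · have hmem : w - n₀ * h ∈ strip h Y' := by
          refine ⟨?_, ?_, ?_⟩
          · simp; linarith
          · simp; linarith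
          · simpa using hwim
        have hval : F (w - n₀ * h) = ‖g w‖ ^ 2 := by
          rw [hF, indicator_of_mem hmem]
          have := periodic_int hper (-n₀) w (lt_of_le_of_lt hYY' hwim)
          have e : w + ((-n₀ : ℤ) : ℂ) * h = w - n₀ * h := by push_cast; ring
          rw [e] at this
          rw [this]
        linarith [hFnn (w - (n₀ + 1 : ℤ) * h)]
      · have hmem : w - (n₀ + 1 : ℤ) * h ∈ strip h Y' := by
          refine ⟨?_, ?_, ?_⟩
          · simp; linarith
          · simp; linarith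
          · simpa using hwim
        have hval : F (w - (n₀ + 1 : ℤ) * h) = ‖g w‖ ^ 2 := by
          rw [hF, indicator_of_mem hmem]
          have := periodic_int hper (-(n₀ + 1)) w (lt_of_le_of_lt hYY' hwim)
          have e : w + ((-(n₀ + 1) : ℤ) : ℂ) * h = w - (n₀ + 1 : ℤ) * h := by push_cast; ring
          rw [e] at this
          rw [this]
        linarith [hFnn (w - n₀ * h)]
    · rw [indicator_of_notMem hw]
      linarith [hFnn (w - n₀ * h), hFnn (w - (n₀ + 1 : ℤ) * h)]
  have hI1 : Integrable (fun w : ℂ => F (w - n₀ * h)) := hFint.comp_sub_right _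
  have hI2 : Integrable (fun w : ℂ => F (w - (n₀ + 1 : ℤ) * h)) := hFint.comp_sub_right _
  have hle : ∫ w in ball z (h / 2), ‖g w‖ ^ 2 ≤ 2 * ∫ w, F w := by
    rw [← integral_indicator measurableSet_ball]
    calc ∫ w, (ball z (h / 2)).indicator (fun w => ‖g w‖ ^ 2) w
        ≤ ∫ w, (F (w - n₀ * h) + F (w - (n₀ + 1 : ℤ) * h)) := by
          apply integral_mono_of_nonneg
          · exact Filter.Eventually.of_forall fun w =>
              indicator_nonneg (fun _ _ => by positivity) w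
          · exact hI1.add hI2
          · exact Filter.Eventually.of_forall hpt
      _ = 2 * ∫ w, F w := by
          rw [integral_add hI1 hI2, integral_sub_right_eq_self, integral_sub_right_eq_self]
          ring
  have hpos : 0 < π * (h / 2) ^ 2 := by positivity
  have hfin : ‖g z‖ ^ 2 < ε ^ 2 := by
    calc ‖g z‖ ^ 2 ≤ (π * (h / 2) ^ 2)⁻¹ * ∫ w in ball z (h / 2), ‖g w‖ ^ 2 := hmv
      _ ≤ (π * (h / 2) ^ 2)⁻¹ * (2 * ∫ w, F w) :=
          mul_le_mul_of_nonneg_left hle (inv_nonneg.mpr hpos.le)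
      _ < (π * (h / 2) ^ 2)⁻¹ * (2 * (ε ^ 2 * (π * (h / 2) ^ 2) / 2)) := by
          apply mul_lt_mul_of_pos_left _ (inv_pos.mpr hpos)
          linarith
      _ = ε ^ 2 := by field_simp
  exact le_of_lt (lt_of_pow_lt_pow_left₀ 2 hε.le hfin)

open UpperHalfPlane in
/-- Version on the upper half plane: a holomorphic function on `ℍ`, periodic of period `h > 0`,
whose squared norm is integrable (for Lebesgue measure) on a half-strip `{0 ≤ re < h, Y < im}`,
is zero at `i∞`. -/
theorem isZeroAtImInfty_of_integrableOn_strip {g : ℍ → ℂ} {h Y : ℝ} (hh : 0 < h) (hY : 0 ≤ Y)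
    (hg : DifferentiableOn ℂ (g ∘ ofComplex) upperHalfPlaneSet)
    (hper : ∀ z : ℍ, g (h +ᵥ z) = g z)
    (hint : IntegrableOn (fun z : ℂ => ‖g (ofComplex z)‖ ^ 2) (strip h Y)) :
    IsZeroAtImInfty g := by
  rw [isZeroAtImInfty_iff]
  intro ε hε
  have hsub : {z : ℂ | Y < z.im} ⊆ upperHalfPlaneSet := fun z hz => lt_of_le_of_lt hY hz
  have hper' : ∀ z : ℂ, Y < z.im → (g ∘ ofComplex) (z + h) = (g ∘ ofComplex) z := by
    intro z hz
    have hz0 : 0 < z.im := lt_of_le_of_lt hY hz
    have hz1 : 0 < (z + h).im := by simpa using hz0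
    have e : ofComplex (z + h) = h +ᵥ ofComplex z := by
      apply UpperHalfPlane.ext
      rw [coe_vadd, ofComplex_apply_of_im_pos hz1, ofComplex_apply_of_im_pos hz0]
      simp [add_comm]
    simp only [Function.comp_apply]
    rw [e, hper]
  obtain ⟨A, hA⟩ := exists_bound_of_integrableOn_strip (g := g ∘ ofComplex) hh (hg.mono hsub)
    hper' hint ε hε
  refine ⟨A, fun z hz => ?_⟩
  have := hA (z : ℂ) (by simpa using hz)
  simpa using this


end Analytic

section Unfolding

open scoped ModularForm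


/-- Lebesgue area on the upper half plane is `y² dμ` (`μ` hyperbolic). -/
theorem lintegral_mul_im_sq (G : ℍ → ℝ≥0∞) (hG : Measurable G) :
    ∫⁻ z : ℍ, G z * ENNReal.ofReal (z.im ^ 2) = ∫⁻ w in upperHalfPlaneSet, G (ofComplex w) := by
  have hmp : MeasurePreserving UpperHalfPlane.coe (volume.comap UpperHalfPlane.coe)
      (volume.restrict (Set.range UpperHalfPlane.coe)) :=
    ⟨measurable_coe, by rw [measurableEmbedding_coe.map_comap]⟩
  have hdens : Measurable (fun z : ℍ => (((1 / NNReal.mk z.im z.im_pos.le : NNReal) ^ 2 : NNReal) : ℝ≥0∞)) := by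
    have h1 : Measurable (fun z : ℍ => NNReal.mk z.im z.im_pos.le) :=
      (UpperHalfPlane.continuous_im.measurable).subtype_mk
    fun_prop
  have hG2 : Measurable (fun z : ℍ => G z * ENNReal.ofReal (z.im ^ 2)) := by
    have h1 : Measurable (fun z : ℍ => z.im) := UpperHalfPlane.continuous_im.measurable
    fun_prop
  rw [volume_def, lintegral_withDensity_eq_lintegral_mul _ hdens hG2]
  have e : ∀ z : ℍ, ((fun z : ℍ => (((1 / NNReal.mk z.im z.im_pos.le : NNReal) ^ 2 : NNReal) : ℝ≥0∞))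
      * (fun z : ℍ => G z * ENNReal.ofReal (z.im ^ 2))) z = G (ofComplex (z : ℂ)) := by
    intro z
    simp only [Pi.mul_apply, ofComplex_apply]
    have h1 : ENNReal.ofReal (z.im ^ 2) = ((NNReal.mk z.im z.im_pos.le ^ 2 : NNReal) : ℝ≥0∞) := by
      rw [ENNReal.ofReal_eq_coe_nnreal (by positivity)]
      rfl
    rw [h1, mul_comm (G z), ← mul_assoc, ← ENNReal.coe_mul]
    have h2 : (1 / NNReal.mk z.im z.im_pos.le : NNReal) ^ 2 * NNReal.mk z.im z.im_pos.le ^ 2 = 1 := by
      have : NNReal.mk z.im z.im_pos.le ≠ 0 := by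
        intro h0
        have := congrArg NNReal.toReal h0
        simp at this
        exact z.im_ne_zero this
      field_simp
    rw [h2, ENNReal.coe_one, one_mul]
  simp_rw [e]
  rw [hmp.lintegral_comp_emb measurableEmbedding_coe (fun w => G (ofComplex w)), range_coe]



open ModularGroup in
/-- Two points of height `> 1` can only be `SL(2,ℤ)`-equivalent via an upper triangular matrix. -/
theorem c_eq_zero_of_im (g : SL(2, ℤ)) (z : ℍ) (hz : 1 < z.im) (hgz : 1 < (g • z).im) :
    g 1 0 = 0 := by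
  by_contra hc
  have h1 : (1 : ℝ) ≤ ((g 1 0 : ℤ) : ℝ) ^ 2 := by
    have : (1 : ℤ) ≤ (g 1 0) ^ 2 := by
      have := sq_nonneg (g 1 0)
      have h0 : (g 1 0) ^ 2 ≠ 0 := pow_ne_zero 2 hc
      omega
    exact_mod_cast this
  have h2 := z.c_mul_im_sq_le_normSq_denom g
  have h3 : (g • z).im = z.im / Complex.normSq (denom g z) := ModularGroup.im_smul_eq_div_normSq g z
  have h4 : z.im ^ 2 ≤ Complex.normSq (denom g z) := by
    refine le_trans ?_ h2
    have : (((g : GL (Fin 2) ℝ) 1 0 : ℝ) * z.im) ^ 2 = ((g 1 0 : ℤ) : ℝ) ^ 2 * z.im ^ 2 := by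
      simp [mul_pow]
    rw [this]
    nlinarith [sq_nonneg z.im]
  have hpos : 0 < Complex.normSq (denom g z) := lt_of_lt_of_le (by positivity) h4
  rw [h3, lt_div_iff₀ hpos] at hgz
  nlinarith

open ModularGroup in
/-- An upper triangular element of `SL(2,ℤ)` is `± T ^ n`. -/
theorem eq_T_zpow_of_c_eq_zero (g : SL(2, ℤ)) (hc : g 1 0 = 0) :
    ∃ n : ℤ, g = T ^ n ∨ g = -T ^ n := by
  have hdet := g.det_coe
  rw [Matrix.det_fin_two, hc, mul_zero, sub_zero] at hdet
  have hd' : g 1 1 = 1 ∨ g 1 1 = -1 := by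
    rcases Int.isUnit_iff.mp (IsUnit.of_mul_eq_one _ (by rw [mul_comm]; exact hdet)) with h | h
    · exact Or.inl h
    · exact Or.inr h
  rcases hd' with hd | hd
  · have ha : g 0 0 = 1 := by rw [hd, mul_one] at hdet; exact hdet
    refine ⟨g 0 1, Or.inl ?_⟩
    ext i j
    rw [coe_T_zpow]
    fin_cases i <;> fin_cases j <;> simp [ha, hd, hc]
  · have ha : g 0 0 = -1 := by rw [hd] at hdet; linarith
    refine ⟨-g 0 1, Or.inr ?_⟩
    ext i j
    rw [Matrix.SpecialLinearGroup.coe_neg, coe_T_zpow]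
    fin_cases i <;> fin_cases j <;> simp [ha, hd, hc]

/-- The unit piece `{a ≤ re < a + 1, 1 < im}` of the upper half plane. -/
def piece (a : ℝ) : Set ℍ := {z : ℍ | a ≤ z.re ∧ z.re < a + 1 ∧ 1 < z.im}

open ModularGroup in
theorem eq_one_or_neg_one_of_piece (g : SL(2, ℤ)) (z : ℍ) (a : ℝ) (hz : z ∈ piece a)
    (hgz : g • z ∈ piece a) : g = 1 ∨ g = -1 := by
  have hc := c_eq_zero_of_im g z hz.2.2 hgz.2.2
  obtain ⟨n, hn⟩ := eq_T_zpow_of_c_eq_zero g hc
  have hre : (g • z).re = z.re + n := by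
    rcases hn with h | h
    · rw [h, ← coe_re, coe_T_zpow_smul_eq]; simp
    · rw [h, SL_neg_smul, ← coe_re, coe_T_zpow_smul_eq]; simp
  have h1 := hz.1
  have h2 := hz.2.1
  have h3 := hgz.1
  have h4 := hgz.2.1
  rw [hre] at h3 h4
  have hn0 : n = 0 := by
    have hlt : ((n : ℤ) : ℝ) < 1 := by linarith
    have hgt : (-1 : ℝ) < ((n : ℤ) : ℝ) := by linarith
    have hlt' : n < 1 := by exact_mod_cast hlt
    have hgt' : -1 < n := by exact_mod_cast hgt
    omega
  subst hn0
  simpa using hn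

theorem measurableSet_piece (a : ℝ) : MeasurableSet (piece a) := by
  have h1 : MeasurableSet {z : ℍ | a ≤ z.re} :=
    measurableSet_le measurable_const UpperHalfPlane.continuous_re.measurable
  have h2 : MeasurableSet {z : ℍ | z.re < a + 1} :=
    measurableSet_lt UpperHalfPlane.continuous_re.measurable measurable_const
  have h3 : MeasurableSet {z : ℍ | 1 < z.im} :=
    measurableSet_lt measurable_const UpperHalfPlane.continuous_im.measurable
  exact h1.inter (h2.inter h3)

/-- The (real) energy density `y² ‖h z‖²`. -/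
noncomputable def dens (h : ℍ → ℂ) (z : ℍ) : ℝ := z.im ^ 2 * ‖h z‖ ^ 2

theorem dens_nonneg (h : ℍ → ℂ) (z : ℍ) : 0 ≤ dens h z := by
  unfold dens; positivity

theorem ofReal_dens (h : ℍ → ℂ) (z : ℍ) :
    ENNReal.ofReal (dens h z) = ENNReal.ofReal (z.im ^ 2) * ‖h z‖ₑ ^ 2 := by
  unfold dens
  rw [ENNReal.ofReal_mul (by positivity), ENNReal.ofReal_pow (norm_nonneg _), ofReal_norm]

theorem continuous_SL_smul (g : SL(2, ℤ)) : Continuous (fun z : ℍ => g • z) :=
  continuous_const_smul (Matrix.SpecialLinearGroup.mapGL ℝ g)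

/-- Invariance of the density under the slash action. -/
theorem dens_slash (h : ℍ → ℂ) (δ : SL(2, ℤ)) (z : ℍ) :
    dens (h ∣[(2 : ℤ)] δ) z = dens h (δ • z) := by
  unfold dens
  rw [ModularForm.SL_slash_apply, ModularGroup.im_smul_eq_div_normSq, norm_mul,
    Complex.normSq_eq_norm_sq]
  have hd : ‖denom δ z‖ ≠ 0 := norm_ne_zero_iff.mpr (denom_ne_zero δ z)
  rw [norm_zpow]
  have : ‖denom δ z‖ ^ (-(2 : ℤ)) = (‖denom δ z‖ ^ 2)⁻¹ := by
    rw [zpow_neg]; norm_cast
  rw [this]
  field_simp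

theorem dens_smul_of_inv {N : ℕ} {h : ℍ → ℂ} (hinv : IsWeightTwoInv N h) (γ : Gamma0 N) (z : ℍ) :
    dens h ((γ : SL(2, ℤ)) • z) = dens h z := by
  unfold dens
  rw [hinv γ z, ModularGroup.im_smul_eq_div_normSq, norm_mul, Complex.normSq_eq_norm_sq, norm_pow]
  have hd : ‖denom (γ : SL(2, ℤ)) z‖ ≠ 0 := norm_ne_zero_iff.mpr (denom_ne_zero _ z)
  field_simp

/-- the test function used in the unfolding -/
noncomputable def phi (h : ℍ → ℂ) (δ : SL(2, ℤ)) (a : ℝ) (w : ℍ) : ℝ≥0∞ :=
  Set.indicator {w : ℍ | δ⁻¹ • w ∈ piece a} (fun w => ENNReal.ofReal (dens h w)) w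

theorem measurable_phi {h : ℍ → ℂ} (hh : Continuous h) (δ : SL(2, ℤ)) (a : ℝ) :
    Measurable (phi h δ a) := by
  unfold phi
  apply Measurable.indicator
  · have : Continuous (dens h) := by
      unfold dens
      exact (UpperHalfPlane.continuous_im.pow 2).mul (hh.norm.pow 2)
    exact ENNReal.measurable_ofReal.comp this.measurable
  · exact (continuous_SL_smul δ⁻¹).measurable (measurableSet_piece a)

theorem neg_mem_Gamma0 {N : ℕ} (γ : Gamma0 N) : -(γ : SL(2, ℤ)) ∈ Gamma0 N := by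
  have h := Gamma0_mem.mp γ.2
  rw [Gamma0_mem]
  simp only [Matrix.SpecialLinearGroup.coe_neg, Matrix.neg_apply, Int.cast_neg, neg_eq_zero]
  exact h

theorem tsum_phi_le {N : ℕ} {h : ℍ → ℂ} (hinv : IsWeightTwoInv N h) (δ : SL(2, ℤ)) (a : ℝ)
    (z : ℍ) :
    ∑' γ : Gamma0 N, phi h δ a ((γ : SL(2, ℤ)) • z) ≤ 2 * ENNReal.ofReal (dens h z) := by
  have hval : ∀ γ : Gamma0 N, phi h δ a ((γ : SL(2, ℤ)) • z)
      = Set.indicator {γ : Gamma0 N | δ⁻¹ • (γ : SL(2, ℤ)) • z ∈ piece a}
          (fun _ => ENNReal.ofReal (dens h z)) γ := by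
    intro γ
    unfold phi
    by_cases hγ : δ⁻¹ • (γ : SL(2, ℤ)) • z ∈ piece a
    · rw [Set.indicator_of_mem (by exact hγ), Set.indicator_of_mem (by exact hγ),
        dens_smul_of_inv hinv]
    · rw [Set.indicator_of_notMem (by exact hγ), Set.indicator_of_notMem (by exact hγ)]
  simp_rw [hval]
  by_cases hne : ∃ γ₁ : Gamma0 N, δ⁻¹ • (γ₁ : SL(2, ℤ)) • z ∈ piece a
  · obtain ⟨γ₁, hγ₁⟩ := hne
    set γ₁' : Gamma0 N := ⟨-(γ₁ : SL(2, ℤ)), neg_mem_Gamma0 γ₁⟩ with hγ₁'
    set c := ENNReal.ofReal (dens h z) with hc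
    have hle : ∀ γ : Gamma0 N,
        Set.indicator {γ : Gamma0 N | δ⁻¹ • (γ : SL(2, ℤ)) • z ∈ piece a} (fun _ => c) γ
          ≤ (if γ = γ₁ then c else 0) + (if γ = γ₁' then c else 0) := by
      intro γ
      by_cases hγ : δ⁻¹ • (γ : SL(2, ℤ)) • z ∈ piece a
      · rw [Set.indicator_of_mem (by exact hγ)]
        have hg : (δ⁻¹ * (γ : SL(2, ℤ)) * (γ₁ : SL(2, ℤ))⁻¹ * δ) • (δ⁻¹ • (γ₁ : SL(2, ℤ)) • z)
            = δ⁻¹ • (γ : SL(2, ℤ)) • z := by
          simp only [← mul_smul]
          congr 1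
          group
        have hcase := eq_one_or_neg_one_of_piece _ _ a hγ₁ (hg ▸ hγ)
        rcases hcase with h1 | h1
        · have : (γ : SL(2, ℤ)) = γ₁ := by
            have h2 : (γ : SL(2, ℤ)) * (γ₁ : SL(2, ℤ))⁻¹ = 1 := by
              have := congrArg (fun x => δ * x * δ⁻¹) h1
              simpa [mul_assoc] using this
            exact mul_inv_eq_one.mp h2
          have : γ = γ₁ := Subtype.ext this
          simp [this]
        · have : (γ : SL(2, ℤ)) = -(γ₁ : SL(2, ℤ)) := by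
            have h2 : (γ : SL(2, ℤ)) * (γ₁ : SL(2, ℤ))⁻¹ = -1 := by
              have := congrArg (fun x => δ * x * δ⁻¹) h1
              simpa [mul_assoc] using this
            have h3 := mul_inv_eq_iff_eq_mul.mp h2
            rw [h3]; simp
          have : γ = γ₁' := Subtype.ext this
          simp [this]
      · rw [Set.indicator_of_notMem (by exact hγ)]
        exact zero_le
    calc ∑' γ : Gamma0 N,
          Set.indicator {γ : Gamma0 N | δ⁻¹ • (γ : SL(2, ℤ)) • z ∈ piece a} (fun _ => c) γ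
        ≤ ∑' γ : Gamma0 N, ((if γ = γ₁ then c else 0) + (if γ = γ₁' then c else 0)) :=
          ENNReal.tsum_le_tsum hle
      _ = c + c := by rw [ENNReal.tsum_add, tsum_ite_eq, tsum_ite_eq]
      _ = 2 * c := by ring
  · push Not at hne
    have : ∀ γ : Gamma0 N,
        Set.indicator {γ : Gamma0 N | δ⁻¹ • (γ : SL(2, ℤ)) • z ∈ piece a}
          (fun _ => ENNReal.ofReal (dens h z)) γ = 0 := fun γ =>
      Set.indicator_of_notMem (by exact hne γ) _
    simp_rw [this]
    simp


/-- the half strip in `ℍ` -/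
def stripH (N : ℕ) : Set ℍ := {z : ℍ | 0 ≤ z.re ∧ z.re < N ∧ 1 < z.im}

theorem measurableSet_stripH (N : ℕ) : MeasurableSet (stripH N) := by
  have h1 : MeasurableSet {z : ℍ | 0 ≤ z.re} :=
    measurableSet_le measurable_const UpperHalfPlane.continuous_re.measurable
  have h2 : MeasurableSet {z : ℍ | z.re < N} :=
    measurableSet_lt UpperHalfPlane.continuous_re.measurable measurable_const
  have h3 : MeasurableSet {z : ℍ | 1 < z.im} :=
    measurableSet_lt measurable_const UpperHalfPlane.continuous_im.measurable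
  exact h1.inter (h2.inter h3)

theorem stripH_subset (N : ℕ) : stripH N ⊆ ⋃ j : Fin N, piece (j : ℕ) := by
  intro z hz
  have h0 : 0 ≤ z.re := hz.1
  have hlt : ⌊z.re⌋₊ < N := (Nat.floor_lt h0).mpr hz.2.1
  refine Set.mem_iUnion.mpr ⟨⟨⌊z.re⌋₊, hlt⟩, ?_, ?_, hz.2.2⟩
  · exact Nat.floor_le h0
  · exact Nat.lt_floor_add_one _

/-- Main unfolding estimate on a unit piece. -/
theorem setLIntegral_piece_le {N : ℕ} {W : ℍ → ℝ} (hW : IsPartitionWeight N W) {h : ℍ → ℂ}
    (hh : Continuous h) (hinv : IsWeightTwoInv N h) (δ : SL(2, ℤ)) (a : ℝ) :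
    ∫⁻ z in piece a, ENNReal.ofReal (dens h (δ • z)) ≤ 2 * energy W h := by
  have e1 : ∫⁻ z in piece a, ENNReal.ofReal (dens h (δ • z)) = ∫⁻ z, phi h δ a (δ • z) := by
    rw [← lintegral_indicator (measurableSet_piece a)]
    congr 1
    ext z
    unfold phi
    by_cases hz : z ∈ piece a
    · have hz' : δ • z ∈ {w : ℍ | δ⁻¹ • w ∈ piece a} := by
        show δ⁻¹ • δ • z ∈ piece a
        rw [inv_smul_smul]; exact hz
      rw [Set.indicator_of_mem hz, Set.indicator_of_mem hz']
    · have hz' : δ • z ∉ {w : ℍ | δ⁻¹ • w ∈ piece a} := by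
        show ¬ (δ⁻¹ • δ • z ∈ piece a)
        rw [inv_smul_smul]; exact hz
      rw [Set.indicator_of_notMem hz, Set.indicator_of_notMem hz']
  have e2 : ∫⁻ z, phi h δ a (δ • z) = ∫⁻ w, phi h δ a w :=
    (measurePreserving_smul (Matrix.SpecialLinearGroup.mapGL ℝ δ)
      (volume : Measure ℍ)).lintegral_comp (measurable_phi hh δ a)
  rw [e1, e2, ← lintegral_unfold hW _ (measurable_phi hh δ a)]
  calc ∫⁻ z : ℍ, ENNReal.ofReal (W z) * ∑' γ : Gamma0 N, phi h δ a ((γ : SL(2, ℤ)) • z)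
      ≤ ∫⁻ z : ℍ, ENNReal.ofReal (W z) * (2 * ENNReal.ofReal (dens h z)) :=
        lintegral_mono fun z => by gcongr; exact tsum_phi_le hinv δ a z
    _ = 2 * energy W h := by
        unfold energy
        rw [← lintegral_const_mul' 2 _ (by simp)]
        congr 1
        ext z
        rw [ENNReal.ofReal_mul (hW.pos z).le, ofReal_dens]
        ring

theorem setLIntegral_stripH_le {N : ℕ} {W : ℍ → ℝ} (hW : IsPartitionWeight N W) {h : ℍ → ℂ}
    (hh : Continuous h) (hinv : IsWeightTwoInv N h) (δ : SL(2, ℤ)) :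
    ∫⁻ z in stripH N, ENNReal.ofReal (dens h (δ • z)) ≤ N * (2 * energy W h) := by
  calc ∫⁻ z in stripH N, ENNReal.ofReal (dens h (δ • z))
      ≤ ∫⁻ z in ⋃ j : Fin N, piece (j : ℕ), ENNReal.ofReal (dens h (δ • z)) :=
        lintegral_mono_set (stripH_subset N)
    _ ≤ ∑' j : Fin N, ∫⁻ z in piece (j : ℕ), ENNReal.ofReal (dens h (δ • z)) :=
        lintegral_iUnion_le _ _
    _ = ∑ j : Fin N, ∫⁻ z in piece (j : ℕ), ENNReal.ofReal (dens h (δ • z)) := tsum_fintype _
    _ ≤ ∑ _j : Fin N, 2 * energy W h :=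
        Finset.sum_le_sum fun j _ => setLIntegral_piece_le hW hh hinv δ _
    _ = N * (2 * energy W h) := by simp

/-- Transfer to Lebesgue measure on `ℂ`. -/
theorem lintegral_strip_eq (N : ℕ) (k : ℍ → ℂ) (hk : Continuous k) :
    ∫⁻ w in strip N 1, ‖k (ofComplex w)‖ₑ ^ 2 = ∫⁻ z in stripH N, ENNReal.ofReal (dens k z) := by
  have hsub : strip N 1 ⊆ upperHalfPlaneSet := fun w hw => lt_trans zero_lt_one hw.2.2
  set G : ℍ → ℝ≥0∞ := (stripH N).indicator (fun z => ‖k z‖ₑ ^ 2) with hG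
  have hGm : Measurable G := by
    rw [hG]
    exact (hk.enorm.measurable.pow_const 2).indicator (measurableSet_stripH N)
  have e1 : ∫⁻ w in strip N 1, ‖k (ofComplex w)‖ₑ ^ 2
      = ∫⁻ w in upperHalfPlaneSet, (strip N 1).indicator (fun w => ‖k (ofComplex w)‖ₑ ^ 2) w := by
    rw [setLIntegral_indicator (measurableSet_strip _ _), Set.inter_eq_left.mpr hsub]
  have e2 : ∫⁻ w in upperHalfPlaneSet, (strip N 1).indicator (fun w => ‖k (ofComplex w)‖ₑ ^ 2) w
      = ∫⁻ w in upperHalfPlaneSet, G (ofComplex w) := by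
    apply setLIntegral_congr_fun isOpen_upperHalfPlaneSet.measurableSet
    intro w hw
    have hw' : 0 < w.im := hw
    have hco : ((ofComplex w : ℍ) : ℂ) = w := by rw [ofComplex_apply_of_im_pos hw']
    have hre : (ofComplex w).re = w.re := by rw [← coe_re, hco]
    have him : (ofComplex w).im = w.im := by rw [← coe_im, hco]
    have hiff : w ∈ strip N 1 ↔ ofComplex w ∈ stripH N := by
      show (0 ≤ w.re ∧ w.re < N ∧ 1 < w.im)
        ↔ (0 ≤ (ofComplex w).re ∧ (ofComplex w).re < N ∧ 1 < (ofComplex w).im)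
      rw [hre, him]
    show (strip N 1).indicator (fun w => ‖k (ofComplex w)‖ₑ ^ 2) w = G (ofComplex w)
    rw [hG]
    by_cases hmem : w ∈ strip N 1
    · rw [Set.indicator_of_mem hmem, Set.indicator_of_mem (hiff.mp hmem)]
    · rw [Set.indicator_of_notMem hmem, Set.indicator_of_notMem (fun h => hmem (hiff.mpr h))]
  rw [e1, e2, ← lintegral_mul_im_sq G hGm, ← lintegral_indicator (measurableSet_stripH N)]
  congr 1
  ext z
  rw [hG]
  by_cases hz : z ∈ stripH N
  · rw [Set.indicator_of_mem hz, Set.indicator_of_mem hz, ofReal_dens, mul_comm]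
  · rw [Set.indicator_of_notMem hz, Set.indicator_of_notMem hz, zero_mul]

end Unfolding

section Final

open scoped ModularForm Manifold

theorem slash_eq_of_inv {N : ℕ} {h : ℍ → ℂ} (hinv : IsWeightTwoInv N h) (γ : SL(2, ℤ))
    (hγ : γ ∈ Gamma0 N) : h ∣[(2 : ℤ)] γ = h := by
  ext z
  rw [ModularForm.SL_slash_apply, hinv ⟨γ, hγ⟩ z]
  have hd : denom γ z ≠ 0 := denom_ne_zero γ z
  have : denom γ z ^ (-(2 : ℤ)) = (denom γ z ^ 2)⁻¹ := by
    rw [zpow_neg]; norm_cast
  rw [this]
  field_simp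

theorem conj_T_pow_mem (N : ℕ) (δ : SL(2, ℤ)) :
    δ * ModularGroup.T ^ (N : ℤ) * δ⁻¹ ∈ Gamma0 N := by
  have h1 : ModularGroup.T ^ (N : ℤ) ∈ Gamma N := ModularGroup_T_pow_mem_Gamma N N dvd_rfl
  have h2 : δ * ModularGroup.T ^ (N : ℤ) * δ⁻¹ ∈ Gamma N := (Gamma_normal N).conj_mem _ h1 δ
  rw [Gamma_mem] at h2
  rw [Gamma0_mem]
  exact h2.2.2.1

theorem slash_periodic {N : ℕ} {h : ℍ → ℂ} (hinv : IsWeightTwoInv N h) (δ : SL(2, ℤ)) (z : ℍ) :
    (h ∣[(2 : ℤ)] δ) ((N : ℝ) +ᵥ z) = (h ∣[(2 : ℤ)] δ) z := by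
  obtain ⟨g, hg⟩ : ∃ g : SL(2, ℤ), g = ModularGroup.T ^ (N : ℤ) := ⟨_, rfl⟩
  have hT : g • z = (N : ℝ) +ᵥ z := by
    apply UpperHalfPlane.ext
    rw [hg, ModularGroup.coe_T_zpow_smul_eq, coe_vadd]
    push_cast
    ring
  have h1 : (h ∣[(2 : ℤ)] δ) ∣[(2 : ℤ)] g = h ∣[(2 : ℤ)] δ := by
    rw [← SlashAction.slash_mul]
    have : δ * g = (δ * g * δ⁻¹) * δ := by group
    rw [this, SlashAction.slash_mul, slash_eq_of_inv hinv _ (hg ▸ conj_T_pow_mem N δ)]
  have h2 := congrFun h1 z
  rw [ModularForm.SL_slash_apply] at h2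
  have hden : denom g z = 1 := by
    rw [ModularGroup.denom_apply, hg, ModularGroup.coe_T_zpow]
    simp
  rw [hden, one_zpow, mul_one, hT] at h2
  exact h2

theorem isZeroAtImInfty_slash {N : ℕ} [NeZero N] {W : ℍ → ℝ}
    (hW : IsPartitionWeight N W) (h' : ℍ → ℂ)
    (hol : DifferentiableOn ℂ (h' ∘ ofComplex) upperHalfPlaneSet)
    (hinv : IsWeightTwoInv N h') (hE : energy W h' < ⊤) (δ : SL(2, ℤ)) :
    IsZeroAtImInfty (h' ∣[(2 : ℤ)] δ) := by
  have hmd : MDiff h' := UpperHalfPlane.mdifferentiable_iff.mpr hol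
  have hcont : Continuous h' := hmd.continuous
  have hkmd : MDiff (h' ∣[(2 : ℤ)] δ) := hmd.slash 2 (Matrix.SpecialLinearGroup.mapGL ℝ δ)
  have hkc : Continuous (h' ∣[(2 : ℤ)] δ) := hkmd.continuous
  have hkd : DifferentiableOn ℂ ((h' ∣[(2 : ℤ)] δ) ∘ ofComplex) upperHalfPlaneSet :=
    UpperHalfPlane.mdifferentiable_iff.mp hkmd
  have hN : (0 : ℝ) < (N : ℝ) := by exact_mod_cast Nat.pos_of_ne_zero (NeZero.ne N)
  apply isZeroAtImInfty_of_integrableOn_strip hN zero_le_one hkd (slash_periodic hinv δ)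
  refine ⟨?_, ?_⟩
  · have hco : ContinuousOn (fun z : ℂ => ‖(h' ∣[(2 : ℤ)] δ) (ofComplex z)‖ ^ 2)
        upperHalfPlaneSet := (hkd.continuousOn.norm).pow 2
    exact (hco.mono fun w hw => lt_trans zero_lt_one hw.2.2).aestronglyMeasurable
      (measurableSet_strip _ _)
  · rw [hasFiniteIntegral_iff_enorm]
    have e : ∀ w : ℂ, ‖‖(h' ∣[(2 : ℤ)] δ) (ofComplex w)‖ ^ 2‖ₑ
        = ‖(h' ∣[(2 : ℤ)] δ) (ofComplex w)‖ₑ ^ 2 := by
      intro w
      rw [enorm_pow, enorm_norm]
    simp_rw [e]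
    rw [lintegral_strip_eq N _ hkc]
    simp_rw [dens_slash]
    refine lt_of_le_of_lt (setLIntegral_stripH_le hW hcont hinv δ) ?_
    exact ENNReal.mul_lt_top (by simp) (ENNReal.mul_lt_top (by simp) hE)

end Final

end Fermat.Agent.S21.CuspFormOfL2

namespace Fermat.Agent.S21

open scoped ModularForm Manifold in
/-- Q: a holomorphic weight-2 invariant function of finite energy is a cusp form. -/
theorem exists_cuspForm_of_energy_lt_top {N : ℕ} [NeZero N] {W : ℍ → ℝ}
    (hW : IsPartitionWeight N W) (h' : ℍ → ℂ)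
    (hol : DifferentiableOn ℂ (h' ∘ ofComplex) upperHalfPlaneSet)
    (hinv : IsWeightTwoInv N h') (hE : energy W h' < ⊤) :
    ∃ f : CuspForm (Gamma0 N) 2, ∀ z : ℍ, f z = h' z := by
  have hmd : MDiff h' := UpperHalfPlane.mdifferentiable_iff.mpr hol
  refine ⟨{ toFun := h'
            slash_action_eq' := ?_
            holo' := hmd
            zero_at_cusps' := ?_ }, fun z => rfl⟩
  · intro γ hγ
    obtain ⟨γ₀, hγ₀, rfl⟩ := Subgroup.mem_map.mp hγ
    exact CuspFormOfL2.slash_eq_of_inv hinv γ₀ hγ₀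
  · intro c hc
    have hc' : IsCusp c 𝒮ℒ := (Subgroup.IsArithmetic.isCusp_iff_isCusp_SL2Z _).mp hc
    rw [OnePoint.isZeroAt_iff_forall_SL2Z hc']
    intro δ _
    exact CuspFormOfL2.isZeroAtImInfty_slash hW h' hol hinv hE δ

end Fermat.Agent.S21
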