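import Fermat.Agent.S21.Defs

/-!
# S21 leaf module `Energy`

FROZEN STATEMENTS: prove the theorem(s) below exactly as stated (replace each `sorry`).
Put every auxiliary declaration inside `namespace Fermat.Agent.S21.Energy` (to avoid name
clashes with other leaf files).  Do not edit `Defs.lean`.  You may add imports of other
S21 leaf modules listed in PLAN v1 (respect the dependency order, no cycles).
-/

set_option autoImplicit false

open ModularCurve ModularCurve.Period CongruenceSubgroup UpperHalfPlane MeasureTheory Filter Topology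
open scoped MatrixGroups ComplexConjugate ContDiff ENNReal

namespace Fermat.Agent.S21

namespace Energy

/-- the integrand of the pairing -/
noncomputable def integrand (W : ℍ → ℝ) (a k : ℍ → ℂ) (z : ℍ) : ℂ :=
  ((W z * z.im ^ 2 : ℝ) : ℂ) * (a z * conj (k z))

/-- the `L²` half-density `√(W y²) |a|` -/
noncomputable def half (W : ℍ → ℝ) (a : ℍ → ℂ) (z : ℍ) : ℝ≥0∞ :=
  ENNReal.ofReal (Real.sqrt (W z * z.im ^ 2)) * ‖a z‖ₑ

theorem measurable_im : Measurable (fun z : ℍ => z.im) :=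
  UpperHalfPlane.continuous_im.measurable

theorem measurable_wt {W : ℍ → ℝ} (hWm : Measurable W) :
    Measurable (fun z : ℍ => W z * z.im ^ 2) :=
  hWm.mul (measurable_im.pow_const 2)

theorem measurable_half {W : ℍ → ℝ} (hWm : Measurable W) {a : ℍ → ℂ} (ha : Measurable a) :
    Measurable (half W a) := by
  unfold half
  exact ((measurable_wt hWm).sqrt.ennreal_ofReal).mul ha.enorm

theorem half_sq {W : ℍ → ℝ} (hW0 : ∀ z, 0 ≤ W z) (a : ℍ → ℂ) (z : ℍ) :
    half W a z ^ 2 = ENNReal.ofReal (W z * z.im ^ 2) * ‖a z‖ₑ ^ 2 := by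
  unfold half
  rw [mul_pow, ← ENNReal.ofReal_pow (Real.sqrt_nonneg _),
    Real.sq_sqrt (mul_nonneg (hW0 z) (sq_nonneg _))]

theorem lintegral_half_sq {W : ℍ → ℝ} (hW0 : ∀ z, 0 ≤ W z) (a : ℍ → ℂ) :
    ∫⁻ z, half W a z ^ (2 : ℝ) = energy W a := by
  unfold energy
  refine lintegral_congr fun z => ?_
  rw [ENNReal.rpow_two, half_sq hW0]

theorem enorm_integrand {W : ℍ → ℝ} (hW0 : ∀ z, 0 ≤ W z) (a k : ℍ → ℂ) (z : ℍ) :
    ‖integrand W a k z‖ₑ = half W a z * half W k z := by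
  have h0 : 0 ≤ W z * z.im ^ 2 := mul_nonneg (hW0 z) (sq_nonneg _)
  have hc : ‖((W z * z.im ^ 2 : ℝ) : ℂ)‖ₑ
      = ENNReal.ofReal (Real.sqrt (W z * z.im ^ 2)) * ENNReal.ofReal (Real.sqrt (W z * z.im ^ 2)) := by
    rw [← ofReal_norm, Complex.norm_real, Real.norm_of_nonneg h0,
      ← ENNReal.ofReal_mul (Real.sqrt_nonneg _), Real.mul_self_sqrt h0]
  unfold integrand half
  rw [enorm_mul, enorm_mul, RCLike.enorm_conj, hc]
  ring

theorem measurable_integrand {W : ℍ → ℝ} (hWm : Measurable W) {a k : ℍ → ℂ}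
    (ha : Measurable a) (hk : Measurable k) : Measurable (integrand W a k) := by
  unfold integrand
  exact (Complex.measurable_ofReal.comp (measurable_wt hWm)).mul
    (ha.mul (Complex.continuous_conj.measurable.comp hk))

theorem lintegral_enorm_integrand_le {W : ℍ → ℝ} (hWm : Measurable W) (hW0 : ∀ z, 0 ≤ W z)
    {a k : ℍ → ℂ} (ha : Measurable a) (hk : Measurable k) :
    ∫⁻ z, ‖integrand W a k z‖ₑ ≤ energy W a ^ (1 / (2 : ℝ)) * energy W k ^ (1 / (2 : ℝ)) := by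
  have h := ENNReal.lintegral_mul_le_Lp_mul_Lq (volume : Measure ℍ)
    Real.HolderConjugate.two_two (measurable_half hWm ha).aemeasurable
    (measurable_half hWm hk).aemeasurable
  rw [lintegral_half_sq hW0, lintegral_half_sq hW0] at h
  refine le_trans (le_of_eq ?_) h
  refine lintegral_congr fun z => ?_
  rw [enorm_integrand hW0]
  rfl

theorem integrable_integrand {W : ℍ → ℝ} (hWm : Measurable W) (hW0 : ∀ z, 0 ≤ W z)
    {a k : ℍ → ℂ} (ha : Measurable a) (hk : Measurable k)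
    (haE : energy W a < ⊤) (hkE : energy W k < ⊤) : Integrable (integrand W a k) := by
  refine ⟨(measurable_integrand hWm ha hk).aestronglyMeasurable, ?_⟩
  refine lt_of_le_of_lt (lintegral_enorm_integrand_le hWm hW0 ha hk) ?_
  exact ENNReal.mul_lt_top (ENNReal.rpow_lt_top_of_nonneg (by norm_num) haE.ne)
    (ENNReal.rpow_lt_top_of_nonneg (by norm_num) hkE.ne)

theorem enorm_sub_sq_le (x y : ℂ) : ‖x - y‖ₑ ^ 2 ≤ 2 * ‖x‖ₑ ^ 2 + 2 * ‖y‖ₑ ^ 2 := by
  have h1 : ‖x - y‖ₑ ≤ ‖x‖ₑ + ‖y‖ₑ := by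
    rw [enorm_eq_nnnorm, enorm_eq_nnnorm, enorm_eq_nnnorm]
    exact_mod_cast nnnorm_sub_le x y
  have h2 : (‖x‖ₑ + ‖y‖ₑ) ^ 2 ≤ 2 * ‖x‖ₑ ^ 2 + 2 * ‖y‖ₑ ^ 2 := by
    have h3 : 2 * (‖x‖ₑ * ‖y‖ₑ) ≤ ‖x‖ₑ ^ 2 + ‖y‖ₑ ^ 2 := by
      rw [enorm_eq_nnnorm, enorm_eq_nnnorm]
      have h4 := two_mul_le_add_sq (‖x‖₊) (‖y‖₊)
      rw [mul_assoc] at h4
      exact_mod_cast h4
    calc (‖x‖ₑ + ‖y‖ₑ) ^ 2 = ‖x‖ₑ ^ 2 + ‖y‖ₑ ^ 2 + 2 * (‖x‖ₑ * ‖y‖ₑ) := by ring
      _ ≤ ‖x‖ₑ ^ 2 + ‖y‖ₑ ^ 2 + (‖x‖ₑ ^ 2 + ‖y‖ₑ ^ 2) := by gcongr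
      _ = 2 * ‖x‖ₑ ^ 2 + 2 * ‖y‖ₑ ^ 2 := by ring
  exact le_trans (pow_le_pow_left' h1 2) h2

end Energy

/-- L: local `L²` control by the energy. -/
theorem setLIntegral_le_energy {N : ℕ} {W : ℍ → ℝ} (hW : IsPartitionWeight N W)
    (K : Set ℍ) (hK : IsCompact K) :
    ∃ C : ℝ≥0∞, C < ⊤ ∧ ∀ g : ℍ → ℂ, ∫⁻ z in K, ‖g z‖ₑ ^ 2 ≤ C * energy W g := by
  have hcont : ContinuousOn (fun z : ℍ => (W z * z.im ^ 2)⁻¹) K := by
    refine ContinuousOn.inv₀ ?_ ?_
    · exact (hW.continuous.mul (UpperHalfPlane.continuous_im.pow 2)).continuousOn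
    · intro z _
      exact (mul_pos (hW.pos z) (pow_pos z.im_pos 2)).ne'
  obtain ⟨C, hC⟩ := hK.exists_bound_of_continuousOn hcont
  refine ⟨ENNReal.ofReal C, ENNReal.ofReal_lt_top, fun g => ?_⟩
  unfold energy
  rw [← lintegral_const_mul' _ _ ENNReal.ofReal_ne_top]
  refine le_trans ?_ (setLIntegral_le_lintegral K _)
  refine lintegral_mono_ae ?_
  refine (ae_restrict_iff' hK.measurableSet).mpr (Filter.Eventually.of_forall fun z hz => ?_)
  have hpos : 0 < W z * z.im ^ 2 := mul_pos (hW.pos z) (pow_pos z.im_pos 2)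
  have h1 : (W z * z.im ^ 2)⁻¹ ≤ C := by
    have := hC z hz
    rwa [Real.norm_of_nonneg (inv_nonneg.mpr hpos.le)] at this
  have h2 : 1 ≤ C * (W z * z.im ^ 2) := by
    have := mul_le_mul_of_nonneg_right h1 hpos.le
    rwa [inv_mul_cancel₀ hpos.ne'] at this
  have hC0 : 0 ≤ C := le_trans (inv_nonneg.mpr hpos.le) h1
  calc ‖g z‖ₑ ^ 2 = 1 * ‖g z‖ₑ ^ 2 := (one_mul _).symm
    _ ≤ ENNReal.ofReal (C * (W z * z.im ^ 2)) * ‖g z‖ₑ ^ 2 := by
        gcongr
        rw [← ENNReal.ofReal_one]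
        exact ENNReal.ofReal_le_ofReal h2
    _ = ENNReal.ofReal C * (ENNReal.ofReal (W z * z.im ^ 2) * ‖g z‖ₑ ^ 2) := by
        rw [ENNReal.ofReal_mul hC0, mul_assoc]

/-- PL: continuity of the pairing under energy convergence (general measurable weight). -/
theorem tendsto_pairing {W : ℍ → ℝ} (hWm : Measurable W) (hW0 : ∀ z, 0 ≤ W z)
    (g : ℕ → ℍ → ℂ) (h k : ℍ → ℂ) (hg : ∀ n, Measurable (g n)) (hh : Measurable h)
    (hk : Measurable k) (hgE : ∀ n, energy W (g n) < ⊤) (hhE : energy W h < ⊤)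
    (hkE : energy W k < ⊤)
    (hlim : Tendsto (fun n => energy W (fun z => g n z - h z)) atTop (𝓝 0)) :
    Tendsto (fun n => pairing W (g n) k) atTop (𝓝 (pairing W h k)) := by
  rw [tendsto_iff_edist_tendsto_0]
  have hbound : ∀ n, edist (pairing W (g n) k) (pairing W h k) ≤
      energy W (fun z => g n z - h z) ^ (1 / (2 : ℝ)) * energy W k ^ (1 / (2 : ℝ)) := by
    intro n
    have hsub : pairing W (g n) k - pairing W h k
        = ∫ z, Energy.integrand W (fun z => g n z - h z) k z := by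
      have e1 : pairing W (g n) k = ∫ z, Energy.integrand W (g n) k z := rfl
      have e2 : pairing W h k = ∫ z, Energy.integrand W h k z := rfl
      rw [e1, e2, ← integral_sub (Energy.integrable_integrand hWm hW0 (hg n) hk (hgE n) hkE)
        (Energy.integrable_integrand hWm hW0 hh hk hhE hkE)]
      refine integral_congr_ae (Filter.Eventually.of_forall fun z => ?_)
      simp only [Energy.integrand]
      ring
    rw [edist_eq_enorm_sub, hsub]
    exact le_trans (enorm_integral_le_lintegral_enorm _)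
      (Energy.lintegral_enorm_integrand_le hWm hW0 ((hg n).sub hh) hk)
  have hlim2 : Tendsto (fun n => energy W (fun z => g n z - h z) ^ (1 / (2 : ℝ))
      * energy W k ^ (1 / (2 : ℝ))) atTop (𝓝 0) := by
    have h1 : Tendsto (fun n => energy W (fun z => g n z - h z) ^ (1 / (2 : ℝ))) atTop (𝓝 0) := by
      have := ((ENNReal.continuous_rpow_const (y := 1 / (2 : ℝ))).tendsto 0).comp hlim
      rwa [ENNReal.zero_rpow_of_pos (by norm_num)] at this
    have h2 := ENNReal.Tendsto.mul_const h1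
      (Or.inr (ENNReal.rpow_lt_top_of_nonneg (by norm_num) hkE.ne).ne :
        (0 : ℝ≥0∞) ≠ 0 ∨ energy W k ^ (1 / (2 : ℝ)) ≠ ⊤)
    rwa [zero_mul] at h2
  exact tendsto_of_tendsto_of_tendsto_of_le_of_le tendsto_const_nhds hlim2
    (fun _ => zero_le) hbound

/-- the energy of a difference of two finite-energy functions is finite -/
theorem energy_sub_lt_top {W : ℍ → ℝ} (hWm : Measurable W) {a b : ℍ → ℂ}
    (ha : Measurable a) (hb : Measurable b)
    (haE : energy W a < ⊤) (hbE : energy W b < ⊤) :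
    energy W (fun z => a z - b z) < ⊤ := by
  have hm : ∀ c : ℍ → ℂ, Measurable c →
      Measurable (fun z : ℍ => ENNReal.ofReal (W z * z.im ^ 2) * ‖c z‖ₑ ^ 2) := fun c hc =>
    (Energy.measurable_wt hWm).ennreal_ofReal.mul (hc.enorm.pow_const 2)
  have hle : energy W (fun z => a z - b z) ≤ 2 * energy W a + 2 * energy W b := by
    unfold energy
    rw [← lintegral_const_mul _ (hm a ha), ← lintegral_const_mul _ (hm b hb),
      ← lintegral_add_left ((hm a ha).const_mul 2)]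
    refine lintegral_mono fun z => ?_
    calc ENNReal.ofReal (W z * z.im ^ 2) * ‖a z - b z‖ₑ ^ 2
        ≤ ENNReal.ofReal (W z * z.im ^ 2) * (2 * ‖a z‖ₑ ^ 2 + 2 * ‖b z‖ₑ ^ 2) := by
          gcongr
          exact Energy.enorm_sub_sq_le _ _
      _ = _ := by ring
  refine lt_of_le_of_lt hle ?_
  exact ENNReal.add_lt_top.mpr ⟨ENNReal.mul_lt_top (by simp) haE, ENNReal.mul_lt_top (by simp) hbE⟩

end Fermat.Agent.S21
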