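import Mathlib
import Fermat.Prelude.Def_ModularCurve_PeriodHomPair

/-!
# S21, L²-Hodge route: the smooth equivariant potential `u₀`

Self-contained geometric module (helper5601).

* `siegel`: the Siegel set `{|Re z| ≤ 1, Im z ≥ 1/2}`.
* `finite_smul_mem_siegel`: for compact `K ⊆ ℍ` only finitely many `g ∈ SL(2,ℤ)` move a point
  of `K` into the Siegel set.
* `rho`: a smooth `SL(2,ℤ)`-partition of unity on `ℍ` supported in the Siegel set.
* `exists_smooth_equivariant`: for a parabolic homomorphism `ψ : Γ₀(N) → ℝ` there is a smooth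
  `u : ℍ → ℝ` with `u (γ z) = u z + ψ γ`, constant on every horoball `δ • {Im ≥ 2}`.
-/

set_option autoImplicit false

open UpperHalfPlane ModularGroup CongruenceSubgroup
open scoped MatrixGroups ContDiff

namespace Fermat.Agent.S21.EquivPotential

/-- The Siegel set `{|Re z| ≤ 1, Im z ≥ 1/2}`. -/
def siegel : Set ℍ := {z | |z.re| ≤ 1 ∧ 1 / 2 ≤ z.im}

/-- If the lower-left entry of `g` is nonzero then `Im (g z) ≤ 1 / Im z`. -/
theorem im_smul_le_inv_im (g : SL(2, ℤ)) (hc : g 1 0 ≠ 0) (z : ℍ) :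
    (g • z).im ≤ 1 / z.im := by
  rw [ModularGroup.im_smul_eq_div_normSq]
  have hz := z.im_pos
  have h1 := UpperHalfPlane.c_mul_im_sq_le_normSq_denom
    (Matrix.SpecialLinearGroup.toGL ((Matrix.SpecialLinearGroup.map (Int.castRingHom ℝ)) g)) z
  have hc' : (1 : ℝ) ≤ ((g 1 0 : ℤ) : ℝ) ^ 2 := by
    have : (1 : ℤ) ≤ (g 1 0) ^ 2 := by
      have := sq_nonneg (g 1 0)
      have h0 : (g 1 0) ^ 2 ≠ 0 := pow_ne_zero 2 hc
      omega
    exact_mod_cast this
  have h2 : z.im ^ 2 ≤ Complex.normSq (denom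
      (Matrix.SpecialLinearGroup.toGL ((Matrix.SpecialLinearGroup.map (Int.castRingHom ℝ)) g)) z) := by
    refine le_trans ?_ h1
    have : (((Matrix.SpecialLinearGroup.toGL
        ((Matrix.SpecialLinearGroup.map (Int.castRingHom ℝ)) g) : GL (Fin 2) ℝ) 1 0 : ℝ))
        = ((g 1 0 : ℤ) : ℝ) := by simp
    rw [this, mul_pow]
    nlinarith [sq_nonneg z.im]
  rw [div_le_div_iff₀ (lt_of_lt_of_le (by positivity) h2) hz]
  nlinarith

/-- Proper discontinuity of `SL(2,ℤ)` on `ℍ`, in set form. -/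
theorem finite_smul_inter {K L : Set ℍ} (hK : IsCompact K) (hL : IsCompact L) :
    {g : SL(2, ℤ) | ∃ z ∈ K, g • z ∈ L}.Finite := by
  have h := (Subgroup.properlyDiscontinuousSMul_iff
    (Matrix.SpecialLinearGroup.mapGL ℝ (R := ℤ)).range).mp properlyDiscontinuousSL2ZRange hK hL
  have hinj : Function.Injective (Matrix.SpecialLinearGroup.mapGL ℝ (R := ℤ) (n := Fin 2)) :=
    Matrix.SpecialLinearGroup.mapGL_injective
  refine (h.preimage (hinj.injOn)).subset ?_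
  rintro g ⟨z, hz, hgz⟩
  refine ⟨⟨g, rfl⟩, ⟨g • z, ?_, hgz⟩⟩
  exact ⟨z, hz, rfl⟩

/-- The truncated Siegel set is compact. -/
theorem isCompact_siegel_trunc (Y : ℝ) :
    IsCompact {w : ℍ | |w.re| ≤ 1 ∧ 1 / 2 ≤ w.im ∧ w.im ≤ Y} := by
  rw [isEmbedding_coe.isCompact_iff]
  have : UpperHalfPlane.coe '' {w : ℍ | |w.re| ≤ 1 ∧ 1 / 2 ≤ w.im ∧ w.im ≤ Y}
      = (Set.Icc (-1 : ℝ) 1) ×ℂ (Set.Icc (1 / 2 : ℝ) Y) := by
    ext z
    constructor
    · rintro ⟨w, ⟨h1, h2, h3⟩, rfl⟩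
      exact ⟨abs_le.mp h1, h2, h3⟩
    · rintro ⟨h1, h2, h3⟩
      have hz : 0 < z.im := lt_of_lt_of_le (by norm_num) h2
      exact ⟨⟨z, hz⟩, ⟨abs_le.mpr h1, h2, h3⟩, rfl⟩
  rw [this]
  exact isCompact_Icc.reProdIm isCompact_Icc

/-- **Siegel finiteness**: only finitely many `g ∈ SL(2,ℤ)` move a point of a compact set into
the Siegel set. -/
theorem finite_smul_mem_siegel {K : Set ℍ} (hK : IsCompact K) :
    {g : SL(2, ℤ) | ∃ z ∈ K, g • z ∈ siegel}.Finite := by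
  rcases K.eq_empty_or_nonempty with rfl | hKne
  · simp
  obtain ⟨za, hza, hmin⟩ := hK.exists_isMinOn hKne UpperHalfPlane.continuous_im.continuousOn
  obtain ⟨zb, hzb, hmax⟩ := hK.exists_isMaxOn hKne UpperHalfPlane.continuous_im.continuousOn
  set Y : ℝ := max zb.im (1 / za.im) with hY
  refine (finite_smul_inter hK (isCompact_siegel_trunc Y)).subset ?_
  rintro g ⟨z, hz, h1, h2⟩
  refine ⟨z, hz, h1, h2, ?_⟩
  by_cases hc : g 1 0 = 0
  · obtain ⟨n, hn⟩ := ModularGroup.exists_eq_T_zpow_of_c_eq_zero hc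
    rw [hn z, ModularGroup.im_T_zpow_smul]
    exact le_trans (hmax hz) (le_max_left _ _)
  · refine le_trans (im_smul_le_inv_im g hc z) (le_trans ?_ (le_max_right _ _))
    have h3 : za.im ≤ z.im := hmin hz
    exact one_div_le_one_div_of_le za.im_pos h3

/-! ### Möbius maps in the coordinate `ℂ` and smoothness transfer -/

/-- Möbius transformation in the coordinate `ℂ`. -/
noncomputable def moeb (g : SL(2, ℤ)) (w : ℂ) : ℂ :=
  (((g 0 0 : ℤ) : ℂ) * w + ((g 0 1 : ℤ) : ℂ)) / (((g 1 0 : ℤ) : ℂ) * w + ((g 1 1 : ℤ) : ℂ))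

theorem coe_smul_eq_moeb (g : SL(2, ℤ)) (z : ℍ) : ((g • z : ℍ) : ℂ) = moeb g z := by
  rw [coe_specialLinearGroup_apply]
  simp [moeb]

theorem moeb_denom_ne_zero (g : SL(2, ℤ)) (z : ℍ) :
    ((g 1 0 : ℤ) : ℂ) * z + ((g 1 1 : ℤ) : ℂ) ≠ 0 := by
  have := UpperHalfPlane.denom_ne_zero
    (Matrix.SpecialLinearGroup.toGL ((Matrix.SpecialLinearGroup.map (Int.castRingHom ℝ)) g)) z
  simpa [denom] using this

theorem contDiffAt_moeb (g : SL(2, ℤ)) (z : ℍ) : ContDiffAt ℝ ∞ (moeb g) (z : ℂ) := by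
  have h := moeb_denom_ne_zero g z
  have : ContDiffAt ℂ ∞ (fun w : ℂ => (((g 0 0 : ℤ) : ℂ) * w + ((g 0 1 : ℤ) : ℂ))
      / (((g 1 0 : ℤ) : ℂ) * w + ((g 1 1 : ℤ) : ℂ))) (z : ℂ) := by
    fun_prop (disch := exact h)
  exact this.restrict_scalars ℝ

theorem ofComplex_moeb (g : SL(2, ℤ)) {w : ℂ} (hw : 0 < w.im) :
    ofComplex (moeb g w) = g • ofComplex w := by
  have h1 : ofComplex w = (⟨w, hw⟩ : ℍ) := ofComplex_apply_of_im_pos hw
  rw [h1]
  have h2 : moeb g w = ((g • (⟨w, hw⟩ : ℍ) : ℍ) : ℂ) := (coe_smul_eq_moeb g ⟨w, hw⟩).symm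
  rw [h2, ofComplex_apply]

theorem upperHalfPlaneSet_mem_nhds (z : ℍ) : {w : ℂ | 0 < w.im} ∈ nhds (z : ℂ) :=
  (isOpen_lt continuous_const Complex.continuous_im).mem_nhds z.im_pos

/-- Smoothness of `f ∘ (g • ·)` in the coordinate `ℂ`. -/
theorem contDiffAt_comp_smul {f : ℍ → ℝ}
    (hf : ∀ z : ℍ, ContDiffAt ℝ ∞ (fun w : ℂ => f (ofComplex w)) z)
    (g : SL(2, ℤ)) (z : ℍ) : ContDiffAt ℝ ∞ (fun w : ℂ => f (g • ofComplex w)) z := by
  have h1 : ContDiffAt ℝ ∞ ((fun w : ℂ => f (ofComplex w)) ∘ moeb g) (z : ℂ) := by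
    refine ContDiffAt.comp (z : ℂ) ?_ (contDiffAt_moeb g z)
    rw [← coe_smul_eq_moeb]
    exact hf (g • z)
  refine h1.congr_of_eventuallyEq ?_
  filter_upwards [upperHalfPlaneSet_mem_nhds z] with w hw
  simp only [Function.comp]
  rw [ofComplex_moeb g hw]

/-- A sum over `SL(2,ℤ)`-translates of a smooth function supported in the Siegel set is smooth
(it is locally a finite sum). -/
theorem contDiffAt_finsum_smul (c : SL(2, ℤ) → ℝ) {f : ℍ → ℝ}
    (hf : ∀ z : ℍ, ContDiffAt ℝ ∞ (fun w : ℂ => f (ofComplex w)) z)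
    (hsupp : ∀ z, f z ≠ 0 → z ∈ siegel) (z₀ : ℍ) :
    ContDiffAt ℝ ∞ (fun w : ℂ => ∑ᶠ g : SL(2, ℤ), c g * f (g • ofComplex w)) z₀ := by
  obtain ⟨K, hK, hKn⟩ := exists_compact_mem_nhds z₀
  have hfin := finite_smul_mem_siegel hK
  have h1 : ContDiffAt ℝ ∞ (fun w : ℂ => ∑ g ∈ hfin.toFinset, c g * f (g • ofComplex w)) z₀ := by
    refine ContDiffAt.sum (fun g _ => ?_)
    exact contDiffAt_const.mul (contDiffAt_comp_smul hf g z₀)
  refine h1.congr_of_eventuallyEq ?_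
  have hn : UpperHalfPlane.coe '' K ∈ nhds (z₀ : ℂ) :=
    isOpenEmbedding_coe.image_mem_nhds.mpr hKn
  filter_upwards [hn] with w hw
  obtain ⟨z, hz, rfl⟩ := hw
  rw [ofComplex_apply]
  refine finsum_eq_sum_of_support_subset _ ?_
  intro g hg
  rw [Function.mem_support] at hg
  have : f (g • z) ≠ 0 := fun h => hg (by rw [h, mul_zero])
  exact Finset.mem_coe.mpr (hfin.mem_toFinset.mpr ⟨z, hz, hsupp _ this⟩)

/-- Finite support of translates at a point. -/
theorem finite_support_smul {f : ℍ → ℝ} (hsupp : ∀ z, f z ≠ 0 → z ∈ siegel) (c : SL(2, ℤ) → ℝ)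
    (z : ℍ) : (Function.support fun g : SL(2, ℤ) => c g * f (g • z)).Finite := by
  refine (finite_smul_mem_siegel (isCompact_singleton (x := z))).subset ?_
  intro g hg
  rw [Function.mem_support] at hg
  have : f (g • z) ≠ 0 := fun h => hg (by rw [h, mul_zero])
  exact ⟨z, rfl, hsupp _ this⟩

/-! ### The bump function `eta` and the partition of unity `rho` -/

/-- Bump in the real direction: `1` on `[-1/2, 1/2]`, `0` outside `(-1, 1)`. -/
noncomputable def bumpRe (x : ℝ) : ℝ :=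
  Real.smoothTransition (2 * (1 - x)) * Real.smoothTransition (2 * (1 + x))

/-- Bump in the imaginary direction: `0` for `y ≤ 1/2`, `1` for `y ≥ 5/6`. -/
noncomputable def bumpIm (y : ℝ) : ℝ := Real.smoothTransition (3 * y - 3 / 2)

/-- The bump function on `ℂ`. -/
noncomputable def etaC (w : ℂ) : ℝ := bumpRe w.re * bumpIm w.im

/-- The bump function on `ℍ`: `1` on the standard fundamental domain, supported in `siegel`. -/
noncomputable def eta (z : ℍ) : ℝ := etaC z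

theorem contDiff_etaC : ContDiff ℝ ∞ etaC := by
  have h : ContDiff ℝ ∞ Real.smoothTransition := Real.smoothTransition.contDiff (n := ⊤)
  have hre : ContDiff ℝ ∞ (fun w : ℂ => w.re) := Complex.reCLM.contDiff
  have him : ContDiff ℝ ∞ (fun w : ℂ => w.im) := Complex.imCLM.contDiff
  exact ((h.comp (contDiff_const.mul (contDiff_const.sub hre))).mul
    (h.comp (contDiff_const.mul (contDiff_const.add hre)))).mul
    (h.comp ((contDiff_const.mul him).sub contDiff_const))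

theorem eta_nonneg (z : ℍ) : 0 ≤ eta z :=
  mul_nonneg (mul_nonneg (Real.smoothTransition.nonneg _) (Real.smoothTransition.nonneg _))
    (Real.smoothTransition.nonneg _)

theorem eta_le_one (z : ℍ) : eta z ≤ 1 := by
  have h1 := Real.smoothTransition.le_one (2 * (1 - (z : ℂ).re))
  have h2 := Real.smoothTransition.le_one (2 * (1 + (z : ℂ).re))
  have h3 := Real.smoothTransition.le_one (3 * (z : ℂ).im - 3 / 2)
  have n2 := Real.smoothTransition.nonneg (2 * (1 + (z : ℂ).re))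
  have n3 := Real.smoothTransition.nonneg (3 * (z : ℂ).im - 3 / 2)
  unfold eta etaC bumpRe bumpIm
  exact mul_le_one₀ (mul_le_one₀ h1 n2 h2) n3 h3

theorem mem_siegel_of_eta_ne_zero {z : ℍ} (h : eta z ≠ 0) : z ∈ siegel := by
  unfold eta etaC bumpRe bumpIm at h
  have h1 : Real.smoothTransition (2 * (1 - (z : ℂ).re)) ≠ 0 := fun h0 => h (by rw [h0]; ring)
  have h2 : Real.smoothTransition (2 * (1 + (z : ℂ).re)) ≠ 0 := fun h0 => h (by rw [h0]; ring)
  have h3 : Real.smoothTransition (3 * (z : ℂ).im - 3 / 2) ≠ 0 := fun h0 => h (by rw [h0]; ring)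
  rw [Ne, Real.smoothTransition.zero_iff_nonpos, not_le] at h1 h2 h3
  have e1 : (z : ℂ).re = z.re := rfl
  have e2 : (z : ℂ).im = z.im := rfl
  rw [e1] at h1 h2
  rw [e2] at h3
  refine ⟨abs_le.mpr ⟨by linarith, by linarith⟩, by linarith⟩

theorem half_lt_im_of_eta_ne_zero {z : ℍ} (h : eta z ≠ 0) : 1 / 2 < z.im := by
  unfold eta etaC bumpRe bumpIm at h
  have h3 : Real.smoothTransition (3 * (z : ℂ).im - 3 / 2) ≠ 0 := fun h0 => h (by rw [h0]; ring)
  rw [Ne, Real.smoothTransition.zero_iff_nonpos, not_le] at h3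
  have e2 : (z : ℂ).im = z.im := rfl
  rw [e2] at h3
  linarith

theorem eta_eq_one_of_mem_fd {z : ℍ} (h : z ∈ ModularGroup.fd) : eta z = 1 := by
  have h3 := ModularGroup.three_le_four_mul_im_sq_of_mem_fd h
  have hre : |z.re| ≤ 1 / 2 := h.2
  have hre' := abs_le.mp hre
  have him : 5 / 6 ≤ z.im := by
    by_contra hlt
    push Not at hlt
    nlinarith [z.im_pos]
  have e1 : (z : ℂ).re = z.re := rfl
  have e2 : (z : ℂ).im = z.im := rfl
  unfold eta etaC bumpRe bumpIm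
  rw [e1, e2, Real.smoothTransition.one_of_one_le (by linarith),
    Real.smoothTransition.one_of_one_le (by linarith),
    Real.smoothTransition.one_of_one_le (by linarith)]
  norm_num

theorem contDiffAt_eta (z : ℍ) : ContDiffAt ℝ ∞ (fun w : ℂ => eta (ofComplex w)) z := by
  refine contDiff_etaC.contDiffAt.congr_of_eventuallyEq ?_
  filter_upwards [upperHalfPlaneSet_mem_nhds z] with w hw
  rw [ofComplex_apply_of_im_pos hw]
  rfl

/-- The `SL(2,ℤ)`-invariant denominator. -/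
noncomputable def dsum (z : ℍ) : ℝ := ∑ᶠ g : SL(2, ℤ), eta (g • z)

theorem finite_support_eta (z : ℍ) : (Function.support fun g : SL(2, ℤ) => eta (g • z)).Finite := by
  have := finite_support_smul (f := eta) (fun z h => mem_siegel_of_eta_ne_zero h) (fun _ => 1) z
  simpa using this

theorem dsum_smul (g₀ : SL(2, ℤ)) (z : ℍ) : dsum (g₀ • z) = dsum z := by
  unfold dsum
  have := finsum_comp_equiv (Equiv.mulRight g₀) (f := fun g : SL(2, ℤ) => eta (g • z))
  rw [← this]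
  refine finsum_congr fun g => ?_
  simp [mul_smul]

theorem one_le_dsum (z : ℍ) : 1 ≤ dsum z := by
  obtain ⟨g, hg⟩ := ModularGroup.exists_smul_mem_fd z
  have h1 : eta (g • z) ≤ dsum z :=
    single_le_finsum g (f := fun g : SL(2, ℤ) => eta (g • z)) (finite_support_eta z)
      (fun j => eta_nonneg _)
  rwa [eta_eq_one_of_mem_fd hg] at h1

theorem contDiffAt_dsum (z : ℍ) : ContDiffAt ℝ ∞ (fun w : ℂ => dsum (ofComplex w)) z := by
  have := contDiffAt_finsum_smul (fun _ => 1) contDiffAt_eta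
    (fun _ h => mem_siegel_of_eta_ne_zero h) z
  simpa [dsum] using this

/-- A smooth `SL(2,ℤ)`-partition of unity on `ℍ`, supported in the Siegel set. -/
noncomputable def rho (z : ℍ) : ℝ := eta z / dsum z

theorem rho_nonneg (z : ℍ) : 0 ≤ rho z :=
  div_nonneg (eta_nonneg z) (le_trans zero_le_one (one_le_dsum z))

theorem rho_le_one (z : ℍ) : rho z ≤ 1 := by
  unfold rho
  rw [div_le_one (lt_of_lt_of_le zero_lt_one (one_le_dsum z))]
  exact le_trans (eta_le_one z) (one_le_dsum z)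

theorem mem_siegel_of_rho_ne_zero {z : ℍ} (h : rho z ≠ 0) : z ∈ siegel := by
  refine mem_siegel_of_eta_ne_zero fun h0 => h ?_
  unfold rho
  rw [h0, zero_div]

theorem half_lt_im_of_rho_ne_zero {z : ℍ} (h : rho z ≠ 0) : 1 / 2 < z.im := by
  refine half_lt_im_of_eta_ne_zero fun h0 => h ?_
  unfold rho
  rw [h0, zero_div]

theorem contDiffAt_rho (z : ℍ) : ContDiffAt ℝ ∞ (fun w : ℂ => rho (ofComplex w)) z := by
  have h := (contDiffAt_eta z).div (contDiffAt_dsum z) (by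
    rw [ofComplex_apply]
    exact (lt_of_lt_of_le zero_lt_one (one_le_dsum z)).ne')
  exact h

theorem finite_support_rho (c : SL(2, ℤ) → ℝ) (z : ℍ) :
    (Function.support fun g : SL(2, ℤ) => c g * rho (g • z)).Finite :=
  finite_support_smul (fun _ h => mem_siegel_of_rho_ne_zero h) c z

/-- `rho` is a partition of unity for the action of `SL(2,ℤ)`. -/
theorem finsum_rho_smul (z : ℍ) : ∑ᶠ g : SL(2, ℤ), rho (g • z) = 1 := by
  have h1 : ∀ g : SL(2, ℤ), rho (g • z) = eta (g • z) * (dsum z)⁻¹ := fun g => by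
    unfold rho
    rw [dsum_smul, div_eq_mul_inv]
  rw [finsum_congr h1, ← finsum_mul]
  exact mul_inv_cancel₀ (lt_of_lt_of_le zero_lt_one (one_le_dsum z)).ne'

/-! ### Upper triangular elements of `SL(2,ℤ)` -/

theorem eq_T_zpow_or_neg_of_c_eq_zero {g : SL(2, ℤ)} (hc : g 1 0 = 0) :
    ∃ n : ℤ, g = ModularGroup.T ^ n ∨ g = -ModularGroup.T ^ n := by
  have hdet : g 0 0 * g 1 1 - g 0 1 * g 1 0 = 1 := by
    have := g.det_coe
    rwa [Matrix.det_fin_two] at this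
  rw [hc, mul_zero, sub_zero] at hdet
  rcases Int.eq_one_or_neg_one_of_mul_eq_one' hdet with ⟨ha, hd⟩ | ⟨ha, hd⟩
  · refine ⟨g 0 1, Or.inl ?_⟩
    apply Matrix.SpecialLinearGroup.ext
    intro i j
    rw [ModularGroup.coe_T_zpow]
    fin_cases i <;> fin_cases j <;> simp [ha, hd, hc]
  · refine ⟨-(g 0 1), Or.inr ?_⟩
    apply Matrix.SpecialLinearGroup.ext
    intro i j
    rw [Matrix.SpecialLinearGroup.coe_neg, ModularGroup.coe_T_zpow]
    fin_cases i <;> fin_cases j <;> simp [ha, hd, hc]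

theorem trace_conj_zpowers_T {t : SL(2, ℤ)} (ht : t ∈ Subgroup.zpowers ModularGroup.T)
    (x : SL(2, ℤ)) :
    ((x⁻¹ * t * x : SL(2, ℤ)) : Matrix (Fin 2) (Fin 2) ℤ).trace ^ 2 = 4 := by
  obtain ⟨n, rfl⟩ := Subgroup.mem_zpowers_iff.mp ht
  have h1 : ((x⁻¹ * ModularGroup.T ^ n * x : SL(2, ℤ)) : Matrix (Fin 2) (Fin 2) ℤ).trace
      = ((ModularGroup.T ^ n : SL(2, ℤ)) : Matrix (Fin 2) (Fin 2) ℤ).trace := by
    rw [Matrix.SpecialLinearGroup.coe_mul, Matrix.SpecialLinearGroup.coe_mul,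
      Matrix.trace_mul_cycle, ← Matrix.SpecialLinearGroup.coe_mul, mul_inv_cancel,
      Matrix.SpecialLinearGroup.coe_one, one_mul]
  rw [h1, ModularGroup.coe_T_zpow, Matrix.trace_fin_two_of]
  norm_num

/-! ### The extension `phi` of a parabolic homomorphism to `SL(2,ℤ)` -/

section Phi

variable {N : ℕ} (ψ : Additive (Gamma0 N) →+ ℝ)

/-- `ψ` as a function on `SL(2,ℤ)` (zero outside `Γ₀(N)`). -/
noncomputable def psiFun (g : SL(2, ℤ)) : ℝ :=
  open scoped Classical in if h : g ∈ Gamma0 N then ψ (Additive.ofMul ⟨g, h⟩) else 0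

theorem psiFun_of_mem {g : SL(2, ℤ)} (h : g ∈ Gamma0 N) :
    psiFun ψ g = ψ (Additive.ofMul ⟨g, h⟩) := dif_pos h

theorem psiFun_mul {a b : SL(2, ℤ)} (ha : a ∈ Gamma0 N) (hb : b ∈ Gamma0 N) :
    psiFun ψ (a * b) = psiFun ψ a + psiFun ψ b := by
  rw [psiFun_of_mem ψ ha, psiFun_of_mem ψ hb, psiFun_of_mem ψ (mul_mem ha hb), ← map_add]
  rfl

theorem psiFun_one : psiFun ψ 1 = 0 := by
  rw [psiFun_of_mem ψ (one_mem _)]
  exact map_zero ψ

theorem psiFun_inv {a : SL(2, ℤ)} (ha : a ∈ Gamma0 N) : psiFun ψ a⁻¹ = -psiFun ψ a := by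
  have h := psiFun_mul ψ ha (inv_mem ha)
  rw [mul_inv_cancel, psiFun_one] at h
  linarith

theorem psiFun_parabolic (hψ : ModularCurve.Period.IsParabolicHom (Gamma0 N) ψ) {a : SL(2, ℤ)}
    (ha : a ∈ Gamma0 N) (htr : (a : Matrix (Fin 2) (Fin 2) ℤ).trace ^ 2 = 4) :
    psiFun ψ a = 0 := by
  rw [psiFun_of_mem ψ ha]
  exact hψ ⟨a, ha⟩ htr

theorem neg_one_mem_Gamma0 (N : ℕ) : (-1 : SL(2, ℤ)) ∈ Gamma0 N := by
  simp [Gamma0_mem]

theorem psiFun_neg_one (hψ : ModularCurve.Period.IsParabolicHom (Gamma0 N) ψ) :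
    psiFun ψ (-1) = 0 := by
  refine psiFun_parabolic ψ hψ (neg_one_mem_Gamma0 N) ?_
  rw [Matrix.SpecialLinearGroup.coe_neg, Matrix.SpecialLinearGroup.coe_one, Matrix.trace_neg,
    Matrix.trace_one]
  simp

/-- Chosen representative of the double coset `⟨T⟩ x Γ₀(N)`. -/
noncomputable def rep (N : ℕ) (x : SL(2, ℤ)) : SL(2, ℤ) :=
  (DoubleCoset.mk (Subgroup.zpowers ModularGroup.T) (Gamma0 N) x).out

theorem rep_spec (N : ℕ) (x : SL(2, ℤ)) :
    ∃ h ∈ Subgroup.zpowers ModularGroup.T, ∃ k ∈ Gamma0 N, rep N x = h * x * k := by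
  obtain ⟨h, k, hh, hk, e⟩ :=
    DoubleCoset.mk_out_eq_mul (Subgroup.zpowers ModularGroup.T) (Gamma0 N) x
  exact ⟨h, hh, k, hk, e⟩

theorem rep_eq (N : ℕ) {x y h k : SL(2, ℤ)} (hh : h ∈ Subgroup.zpowers ModularGroup.T)
    (hk : k ∈ Gamma0 N) (e : y = h * x * k) : rep N y = rep N x := by
  unfold rep
  have : DoubleCoset.mk (Subgroup.zpowers ModularGroup.T) (Gamma0 N) x
      = DoubleCoset.mk (Subgroup.zpowers ModularGroup.T) (Gamma0 N) y :=
    (DoubleCoset.eq _ _ x y).mpr ⟨h, hh, k, hk, e⟩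
  rw [this]

/-- The extension of `ψ` to `SL(2,ℤ)`: `phi (t * r * γ) = ψ γ⁻¹` on the double coset of the
chosen representative `r`. -/
noncomputable def phi (x : SL(2, ℤ)) : ℝ :=
  psiFun ψ (rep_spec N x).choose_spec.2.choose

theorem phi_eq (hψ : ModularCurve.Period.IsParabolicHom (Gamma0 N) ψ) {x h k : SL(2, ℤ)}
    (hh : h ∈ Subgroup.zpowers ModularGroup.T) (hk : k ∈ Gamma0 N) (e : rep N x = h * x * k) :
    phi ψ x = psiFun ψ k := by
  obtain ⟨hh₀, hrest⟩ := (rep_spec N x).choose_spec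
  obtain ⟨hk₀, e₀⟩ := hrest.choose_spec
  set h₀ := (rep_spec N x).choose
  set k₀ := hrest.choose
  show psiFun ψ k₀ = psiFun ψ k
  -- `k₀ * k⁻¹ = x⁻¹ * (h₀⁻¹ * h) * x`
  have hp : k₀ * k⁻¹ = x⁻¹ * (h₀⁻¹ * h) * x := by
    have h1 : h₀ * x * k₀ = h * x * k := e₀.symm.trans e
    have h2 : k₀ = x⁻¹ * h₀⁻¹ * (h * x * k) := by
      rw [← h1]; group
    rw [h2]; group
  have hpm : k₀ * k⁻¹ ∈ Gamma0 N := mul_mem hk₀ (inv_mem hk)
  have h0 : psiFun ψ (k₀ * k⁻¹) = 0 := by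
    refine psiFun_parabolic ψ hψ hpm ?_
    rw [hp]
    exact trace_conj_zpowers_T (mul_mem (inv_mem hh₀) hh) x
  have h3 : psiFun ψ (k₀ * k⁻¹ * k) = psiFun ψ (k₀ * k⁻¹) + psiFun ψ k := psiFun_mul ψ hpm hk
  rw [inv_mul_cancel_right, h0, zero_add] at h3
  exact h3

theorem phi_mul_right (hψ : ModularCurve.Period.IsParabolicHom (Gamma0 N) ψ) (x : SL(2, ℤ))
    {γ : SL(2, ℤ)} (hγ : γ ∈ Gamma0 N) : phi ψ (x * γ) = phi ψ x - psiFun ψ γ := by
  obtain ⟨h, hh, k, hk, e⟩ := rep_spec N x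
  have e1 : rep N (x * γ) = rep N x :=
    rep_eq N (one_mem _) hγ (by rw [one_mul])
  have e2 : rep N (x * γ) = h * (x * γ) * (γ⁻¹ * k) := by
    rw [e1, e]; group
  rw [phi_eq ψ hψ hh (mul_mem (inv_mem hγ) hk) e2, phi_eq ψ hψ hh hk e,
    psiFun_mul ψ (inv_mem hγ) hk, psiFun_inv ψ hγ]
  ring

theorem phi_mul_left (hψ : ModularCurve.Period.IsParabolicHom (Gamma0 N) ψ) {t : SL(2, ℤ)}
    (ht : t ∈ Subgroup.zpowers ModularGroup.T) (x : SL(2, ℤ)) : phi ψ (t * x) = phi ψ x := by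
  obtain ⟨h, hh, k, hk, e⟩ := rep_spec N x
  have e1 : rep N (t * x) = rep N x :=
    rep_eq N ht (one_mem _) (by rw [mul_one])
  have e2 : rep N (t * x) = (h * t⁻¹) * (t * x) * k := by
    rw [e1, e]; group
  rw [phi_eq ψ hψ (mul_mem hh (inv_mem ht)) hk e2, phi_eq ψ hψ hh hk e]

theorem phi_neg (hψ : ModularCurve.Period.IsParabolicHom (Gamma0 N) ψ) (x : SL(2, ℤ)) :
    phi ψ (-x) = phi ψ x := by
  have h : -x = x * -1 := by simp
  rw [h, phi_mul_right ψ hψ x (neg_one_mem_Gamma0 N), psiFun_neg_one ψ hψ, sub_zero]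

/-! ### The smooth equivariant potential -/

/-- The potential `u(z) = ∑_g phi(g) rho(g z)`. -/
noncomputable def potential (z : ℍ) : ℝ := ∑ᶠ g : SL(2, ℤ), phi ψ g * rho (g • z)

theorem contDiffAt_potential (z : ℍ) :
    ContDiffAt ℝ ∞ (fun w : ℂ => potential ψ (ofComplex w)) z :=
  contDiffAt_finsum_smul (phi ψ) contDiffAt_rho (fun _ h => mem_siegel_of_rho_ne_zero h) z

/-- Reindexed form of the potential at a translated point. -/
theorem potential_smul_eq (δ : SL(2, ℤ)) (z : ℍ) :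
    potential ψ (δ • z) = ∑ᶠ g : SL(2, ℤ), phi ψ (g * δ⁻¹) * rho (g • z) := by
  unfold potential
  have := finsum_comp_equiv (Equiv.mulRight δ⁻¹)
    (f := fun g : SL(2, ℤ) => phi ψ g * rho (g • δ • z))
  rw [← this]
  refine finsum_congr fun g => ?_
  simp only [Equiv.coe_mulRight]
  rw [← mul_smul, inv_mul_cancel_right]

/-- Equivariance: `u(γ z) = u(z) + ψ(γ)` for `γ ∈ Γ₀(N)`. -/
theorem potential_smul (hψ : ModularCurve.Period.IsParabolicHom (Gamma0 N) ψ) {γ : SL(2, ℤ)}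
    (hγ : γ ∈ Gamma0 N) (z : ℍ) : potential ψ (γ • z) = potential ψ z + psiFun ψ γ := by
  rw [potential_smul_eq]
  have h1 : ∀ g : SL(2, ℤ), phi ψ (g * γ⁻¹) * rho (g • z)
      = phi ψ g * rho (g • z) + psiFun ψ γ * rho (g • z) := fun g => by
    rw [phi_mul_right ψ hψ g (inv_mem hγ), psiFun_inv ψ hγ]
    ring
  rw [finsum_congr h1, finsum_add_distrib (finite_support_rho _ z) (finite_support_rho _ z),
    ← mul_finsum, finsum_rho_smul, mul_one]
  rfl

/-- On the horoball `{Im z ≥ 2}` only `g = ± T ^ n` contribute. -/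
theorem rho_smul_eq_zero_of_c_ne_zero {g : SL(2, ℤ)} (hc : g 1 0 ≠ 0) {z : ℍ} (hz : 2 ≤ z.im) :
    rho (g • z) = 0 := by
  by_contra h
  have h1 := half_lt_im_of_rho_ne_zero h
  have h2 := im_smul_le_inv_im g hc z
  have h3 : 1 / z.im ≤ 1 / 2 := one_div_le_one_div_of_le (by norm_num) hz
  linarith

/-- Constancy on horoballs: `u(δ z) = phi(δ⁻¹)` for `Im z ≥ 2`. -/
theorem potential_horoball (hψ : ModularCurve.Period.IsParabolicHom (Gamma0 N) ψ) (δ : SL(2, ℤ))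
    {z : ℍ} (hz : 2 ≤ z.im) : potential ψ (δ • z) = phi ψ δ⁻¹ := by
  rw [potential_smul_eq]
  have h1 : ∀ g : SL(2, ℤ), phi ψ (g * δ⁻¹) * rho (g • z) = phi ψ δ⁻¹ * rho (g • z) := fun g => by
    by_cases hc : g 1 0 = 0
    · obtain ⟨n, hn | hn⟩ := eq_T_zpow_or_neg_of_c_eq_zero hc
      · rw [hn, phi_mul_left ψ hψ (Subgroup.zpow_mem_zpowers _ n)]
      · rw [hn, neg_mul, phi_neg ψ hψ, phi_mul_left ψ hψ (Subgroup.zpow_mem_zpowers _ n)]
    · rw [rho_smul_eq_zero_of_c_ne_zero hc hz, mul_zero, mul_zero]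
  rw [finsum_congr h1, ← mul_finsum, finsum_rho_smul, mul_one]

end Phi

/-- **Main theorem (smooth equivariant potential).**  For every parabolic homomorphism
`ψ : Γ₀(N) → ℝ` there is a real function `u` on `ℍ` which is smooth (in the coordinate `ℂ`),
satisfies `u (γ • z) = u z + ψ γ` for `γ ∈ Γ₀(N)`, and is constant on every horoball
`δ • {Im z ≥ 2}`, `δ ∈ SL(2,ℤ)`. -/
theorem exists_smooth_equivariant (N : ℕ) (ψ : Additive (Gamma0 N) →+ ℝ)
    (hψ : ModularCurve.Period.IsParabolicHom (Gamma0 N) ψ) :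
    ∃ u : ℍ → ℝ,
      (∀ z : ℍ, ContDiffAt ℝ ∞ (fun w : ℂ => u (ofComplex w)) z) ∧
      (∀ (γ : Gamma0 N) (z : ℍ), u ((γ : SL(2, ℤ)) • z) = u z + ψ (Additive.ofMul γ)) ∧
      (∀ δ : SL(2, ℤ), ∃ c : ℝ, ∀ z : ℍ, 2 ≤ z.im → u (δ • z) = c) := by
  refine ⟨potential ψ, contDiffAt_potential ψ, ?_, ?_⟩
  · intro γ z
    rw [potential_smul ψ hψ γ.2 z, psiFun_of_mem ψ γ.2]
  · intro δ
    exact ⟨phi ψ δ⁻¹, fun z hz => potential_horoball ψ hψ δ hz⟩

end Fermat.Agent.S21.EquivPotential
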