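import Fermat.Agent.S21.Defs
import Fermat.Agent.S21.EquivPotential

/-!
# S21 leaf module `Finite`

FROZEN STATEMENTS: prove the theorem(s) below exactly as stated (replace each `sorry`).
Put every auxiliary declaration inside `namespace Fermat.Agent.S21.Finite` (to avoid name
clashes with other leaf files).  Do not edit `Defs.lean`.  You may add imports of other
S21 leaf modules listed in PLAN v1 (respect the dependency order, no cycles).
-/

set_option autoImplicit false

open ModularCurve ModularCurve.Period CongruenceSubgroup UpperHalfPlane MeasureTheory Filter Topology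
open scoped MatrixGroups ComplexConjugate ContDiff ENNReal

namespace Fermat.Agent.S21

/-- A0a: proper discontinuity of `SL(2,ℤ)` on `ℍ` in usable form. -/
theorem finite_smul_mem (K K' : Set ℍ) (hK : IsCompact K) (hK' : IsCompact K') :
    {g : SL(2, ℤ) | ∃ z ∈ K', g • z ∈ K}.Finite :=
  EquivPotential.finite_smul_inter hK' hK

/-- A0b: only finitely many translates of a compact set meet the Siegel set. -/
theorem finite_siegel (K : Set ℍ) (hK : IsCompact K) :
    {g : SL(2, ℤ) | ∃ z ∈ K, 1 / 2 < (g • z).im ∧ |(g • z).re| ≤ 1}.Finite := by
  refine (EquivPotential.finite_smul_mem_siegel hK).subset ?_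
  rintro g ⟨z, hz, h1, h2⟩
  exact ⟨z, hz, h2, h1.le⟩

end Fermat.Agent.S21
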