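import Fermat.Agent.S21.Defs
import Fermat.Agent.S21.GradC
import Fermat.Agent.S21.Unfold
import Fermat.Agent.S21.Finite

/-!
# S21 leaf module `FiniteEnergy`

FROZEN STATEMENTS: prove the theorem(s) below exactly as stated (replace each `sorry`).
Put every auxiliary declaration inside `namespace Fermat.Agent.S21.FiniteEnergy` (to avoid name
clashes with other leaf files).  Do not edit `Defs.lean`.  You may add imports of other
S21 leaf modules listed in PLAN v1 (respect the dependency order, no cycles).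
-/

set_option autoImplicit false

open ModularCurve ModularCurve.Period CongruenceSubgroup UpperHalfPlane MeasureTheory Filter Topology
open scoped MatrixGroups ComplexConjugate ContDiff ENNReal

namespace Fermat.Agent.S21

namespace FiniteEnergy

/-- a compact rectangle of `ℍ` containing the truncated standard fundamental domain -/
def rect : Set ℍ := {z : ℍ | |z.re| ≤ 1 / 2 ∧ 1 / 2 ≤ z.im ∧ z.im ≤ 2}

theorem isCompact_rect : IsCompact rect := by
  have h : UpperHalfPlane.coe '' rect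
      = (Set.Icc (-(1 / 2) : ℝ) (1 / 2)) ×ℂ (Set.Icc (1 / 2 : ℝ) 2) := by
    ext w
    constructor
    · rintro ⟨z, hz, rfl⟩
      exact ⟨abs_le.mp hz.1, hz.2⟩
    · intro hw
      have him : 0 < w.im := lt_of_lt_of_le (by norm_num) hw.2.1
      exact ⟨⟨w, him⟩, ⟨abs_le.mpr hw.1, hw.2⟩, rfl⟩
  rw [isEmbedding_coe.isCompact_iff, h]
  exact isCompact_Icc.reProdIm isCompact_Icc

theorem mem_rect_of_mem_fd (z : ℍ) (hz : z ∈ ModularGroup.fd) (h2 : z.im ≤ 2) : z ∈ rect := by
  obtain ⟨h1, h3⟩ := hz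
  refine ⟨h3, ?_, h2⟩
  have hn : Complex.normSq (z : ℂ) = z.re ^ 2 + z.im ^ 2 := by
    rw [Complex.normSq_apply]
    simp only [UpperHalfPlane.coe_re, UpperHalfPlane.coe_im]
    ring
  rw [hn] at h1
  have hre : z.re ^ 2 ≤ 1 / 4 := by
    have := abs_le.mp h3
    nlinarith [this.1, this.2]
  by_contra hcon
  rw [not_le] at hcon
  nlinarith [z.im_pos]

theorem density_smul {N : ℕ} {g : ℍ → ℂ} (hinv : IsWeightTwoInv N g) (γ : Gamma0 N) (z : ℍ) :
    ((γ : SL(2, ℤ)) • z).im ^ 2 * ‖g ((γ : SL(2, ℤ)) • z)‖ ^ 2 = z.im ^ 2 * ‖g z‖ ^ 2 := by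
  rw [hinv γ z, ModularGroup.im_smul_eq_div_normSq, norm_mul, norm_pow, Complex.normSq_eq_norm_sq]
  have hd : ‖denom (γ : SL(2, ℤ)) z‖ ≠ 0 := norm_ne_zero_iff.mpr (denom_ne_zero _ z)
  field_simp

theorem continuous_sl_smul (δ : SL(2, ℤ)) : Continuous (fun z : ℍ => δ • z) :=
  continuous_const_smul (δ : GL (Fin 2) ℝ)

end FiniteEnergy

/-- E: finite energy of the gradient of a function that is constant near all cusps. -/
theorem energy_gradC_lt_top {N : ℕ} [NeZero N] {W : ℍ → ℝ} (hW : IsPartitionWeight N W)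
    (u : ℍ → ℝ) (hu : SmoothH u) (hinv : IsWeightTwoInv N (gradC u))
    (hc : ∀ δ : SL(2, ℤ), ∃ c : ℝ, ∀ z : ℍ, 2 ≤ (δ • z).im → u z = c) :
    energy W (gradC u) < ⊤ := by
  classical
  have hgc : Continuous (gradC u) := continuous_gradC hu
  -- the invariant real density
  set ψ : ℍ → ℝ := fun z => z.im ^ 2 * ‖gradC u z‖ ^ 2 with hψ
  have hψc : Continuous ψ := (UpperHalfPlane.continuous_im.pow 2).mul (hgc.norm.pow 2)
  -- coset representatives
  let R : Set SL(2, ℤ) := Set.range (fun q : SL(2, ℤ) ⧸ Gamma0 N => q.out)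
  have hRfin : R.Finite := Set.finite_range _
  let D : Set ℍ := ⋃ δ ∈ R, (fun z : ℍ => δ⁻¹ • z) '' FiniteEnergy.rect
  have hDc : IsCompact D :=
    hRfin.isCompact_biUnion fun δ _ => FiniteEnergy.isCompact_rect.image (FiniteEnergy.continuous_sl_smul _)
  have hDm : MeasurableSet D := hDc.measurableSet
  let φ' : ℍ → ℝ≥0∞ := D.indicator (fun z => ENNReal.ofReal (ψ z))
  have hφ'm : Measurable φ' := (hψc.measurable.ennreal_ofReal).indicator hDm
  have key : ∀ z, ENNReal.ofReal (ψ z) ≤ ∑' γ : Gamma0 N, φ' ((γ : SL(2, ℤ)) • z) := by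
    intro z
    by_cases hz : gradC u z = 0
    · have : ψ z = 0 := by simp [hψ, hz]
      rw [this, ENNReal.ofReal_zero]
      exact zero_le
    obtain ⟨σ, hσ⟩ := ModularGroup.exists_smul_mem_fd z
    set δ := (QuotientGroup.mk σ : SL(2, ℤ) ⧸ Gamma0 N).out with hδ
    have hmem : δ⁻¹ * σ ∈ Gamma0 N := QuotientGroup.eq.mp (QuotientGroup.out_eq' _)
    let γ : Gamma0 N := ⟨δ⁻¹ * σ, hmem⟩
    have hδγ : δ • ((γ : SL(2, ℤ)) • z) = σ • z := by
      rw [← mul_smul]
      simp [γ]
    have hψγ : ψ ((γ : SL(2, ℤ)) • z) = ψ z := FiniteEnergy.density_smul hinv γ z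
    have hgγ : gradC u ((γ : SL(2, ℤ)) • z) ≠ 0 := by
      rw [hinv γ z]
      exact mul_ne_zero (pow_ne_zero _ (denom_ne_zero _ z)) hz
    have him : (δ • ((γ : SL(2, ℤ)) • z)).im ≤ 2 := by
      by_contra hcon
      rw [not_le] at hcon
      obtain ⟨c, hc'⟩ := hc δ
      apply hgγ
      apply gradC_eq_zero_of_eventually_const (c := c)
      have hopen : IsOpen {w : ℍ | 2 < (δ • w).im} :=
        isOpen_lt continuous_const (UpperHalfPlane.continuous_im.comp (FiniteEnergy.continuous_sl_smul δ))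
      filter_upwards [hopen.mem_nhds hcon] with w hw
      exact hc' w (le_of_lt hw)
    have hD : (γ : SL(2, ℤ)) • z ∈ D := by
      have hδR : δ ∈ R := ⟨(QuotientGroup.mk σ : SL(2, ℤ) ⧸ Gamma0 N), rfl⟩
      refine Set.mem_biUnion hδR ⟨δ • ((γ : SL(2, ℤ)) • z), ?_, ?_⟩
      · refine FiniteEnergy.mem_rect_of_mem_fd _ ?_ him
        rw [hδγ]
        exact hσ
      · simp
    calc ENNReal.ofReal (ψ z) = φ' ((γ : SL(2, ℤ)) • z) := by
          simp only [φ', Set.indicator_of_mem hD, hψγ]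
      _ ≤ ∑' γ : Gamma0 N, φ' ((γ : SL(2, ℤ)) • z) := ENNReal.le_tsum γ
  have hE : energy W (gradC u) ≤ ∫⁻ z, φ' z := by
    rw [← lintegral_unfold hW φ' hφ'm]
    unfold energy
    refine lintegral_mono fun z => ?_
    have e : ENNReal.ofReal (W z * z.im ^ 2) * ‖gradC u z‖ₑ ^ 2
        = ENNReal.ofReal (W z) * ENNReal.ofReal (ψ z) := by
      rw [ENNReal.ofReal_mul (hW.pos z).le, mul_assoc]
      congr 1
      simp only [hψ]
      rw [ENNReal.ofReal_mul (by positivity), ENNReal.ofReal_pow (norm_nonneg _), ofReal_norm]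
    rw [e]
    gcongr
    exact key z
  refine lt_of_le_of_lt hE ?_
  have hind : ∫⁻ z, φ' z = ∫⁻ z in D, ENNReal.ofReal (ψ z) := lintegral_indicator hDm _
  rw [hind]
  exact (hψc.continuousOn.integrableOn_compact hDc).lintegral_lt_top

end Fermat.Agent.S21
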