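import Fermat.Agent.S21.Defs

/-!
# S21 leaf module `Minimizer`

FROZEN STATEMENTS: prove the theorem(s) below exactly as stated (replace each `sorry`).
Put every auxiliary declaration inside `namespace Fermat.Agent.S21.Minimizer` (to avoid name
clashes with other leaf files).  Do not edit `Defs.lean`.  You may add imports of other
S21 leaf modules listed in PLAN v1 (respect the dependency order, no cycles).
-/

set_option autoImplicit false

open ModularCurve ModularCurve.Period CongruenceSubgroup UpperHalfPlane MeasureTheory Filter Topology
open scoped MatrixGroups ComplexConjugate ContDiff ENNReal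

namespace Fermat.Agent.S21

/-- V: abstract variational principle in a complex Hilbert space. -/
theorem exists_orthogonal_limit {E : Type*} [NormedAddCommGroup E] [InnerProductSpace ℂ E]
    [CompleteSpace E] (V : Submodule ℝ E) (g₀ : E) :
    ∃ h : E, (∃ e : ℕ → E, (∀ n, e n ∈ V) ∧ Tendsto (fun n => g₀ - e n) atTop (𝓝 h)) ∧
      ∀ e ∈ V, (inner ℂ e h).re = 0 := by
  let _ : InnerProductSpace ℝ E := InnerProductSpace.rclikeToReal ℂ E
  -- the closure of `V` is a complete real subspace
  have hKc : IsComplete (V.topologicalClosure : Set E) :=
    V.isClosed_topologicalClosure.isComplete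
  obtain ⟨p, hpK, hp⟩ := Submodule.exists_norm_eq_iInf_of_complete_subspace
    V.topologicalClosure hKc g₀
  have horth := (Submodule.norm_eq_iInf_iff_real_inner_eq_zero V.topologicalClosure hpK).mp hp
  refine ⟨g₀ - p, ?_, ?_⟩
  · have hp' : p ∈ closure (V : Set E) := by
      rw [← Submodule.topologicalClosure_coe]; exact hpK
    obtain ⟨e, he, hlim⟩ := mem_closure_iff_seq_limit.mp hp'
    exact ⟨e, he, tendsto_const_nhds.sub hlim⟩
  · intro e he
    have h1 := horth e (V.le_topologicalClosure he)
    rw [real_inner_comm] at h1
    have h2 := real_inner_eq_re_inner ℂ e (g₀ - p)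
    rw [h1] at h2
    exact h2.symm

end Fermat.Agent.S21
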