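import Fermat.Agent.S21.Defs
import Fermat.Agent.S21.Minimizer
import Fermat.Agent.S21.GradC

/-!
# S21 leaf module `HodgeLimit`

FROZEN STATEMENTS: prove the theorem(s) below exactly as stated (replace each `sorry`).
Put every auxiliary declaration inside `namespace Fermat.Agent.S21.HodgeLimit` (to avoid name
clashes with other leaf files).  Do not edit `Defs.lean`.  You may add imports of other
S21 leaf modules listed in PLAN v1 (respect the dependency order, no cycles).
-/

set_option autoImplicit false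

open ModularCurve ModularCurve.Period CongruenceSubgroup UpperHalfPlane MeasureTheory Filter Topology
open scoped MatrixGroups ComplexConjugate ContDiff ENNReal

namespace Fermat.Agent.S21

namespace HodgeLimit

/-- The density `W y²` of the weighted measure with respect to the hyperbolic measure. -/
noncomputable def dens (W : ℍ → ℝ) (z : ℍ) : ℝ≥0∞ := ENNReal.ofReal (W z * z.im ^ 2)

theorem measurable_dens {W : ℍ → ℝ} (hW : Continuous W) : Measurable (dens W) := by
  have : Continuous fun z : ℍ => W z * z.im ^ 2 := hW.mul (continuous_im.pow 2)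
  exact ENNReal.measurable_ofReal.comp this.measurable

theorem dens_lt_top (W : ℍ → ℝ) (z : ℍ) : dens W z < ⊤ := ENNReal.ofReal_lt_top

/-- The weighted measure `W y² dμ`. -/
noncomputable def nu (W : ℍ → ℝ) : Measure ℍ := (volume : Measure ℍ).withDensity (dens W)

theorem energy_eq_lintegral {W : ℍ → ℝ} (hW : Continuous W) (g : ℍ → ℂ) :
    energy W g = ∫⁻ z, ‖g z‖ₑ ^ 2 ∂(nu W) := by
  unfold energy nu
  rw [lintegral_withDensity_eq_lintegral_mul_non_measurable _ (measurable_dens hW)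
    (Eventually.of_forall fun z => dens_lt_top W z)]
  rfl

theorem energy_eq_eLpNorm_sq {W : ℍ → ℝ} (hW : Continuous W) (g : ℍ → ℂ) :
    energy W g = eLpNorm g 2 (nu W) ^ 2 := by
  rw [energy_eq_lintegral hW]
  have h := eLpNorm_nnreal_pow_eq_lintegral (μ := nu W) (f := g) (p := (2 : NNReal)) (by norm_num)
  simp only [NNReal.coe_ofNat, ENNReal.coe_ofNat, ENNReal.rpow_two] at h
  exact h.symm

theorem energy_lt_top_iff {W : ℍ → ℝ} (hW : Continuous W) (g : ℍ → ℂ) :
    energy W g < ⊤ ↔ eLpNorm g 2 (nu W) < ⊤ := by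
  rw [energy_eq_eLpNorm_sq hW]
  constructor
  · intro h
    by_contra hcon
    rw [not_lt, top_le_iff] at hcon
    rw [hcon] at h
    simp at h
  · intro h
    exact ENNReal.pow_lt_top h

theorem memLp_of_energy {W : ℍ → ℝ} (hW : Continuous W) {g : ℍ → ℂ}
    (hg : AEStronglyMeasurable g (nu W)) (hE : energy W g < ⊤) : MemLp g 2 (nu W) :=
  ⟨hg, (energy_lt_top_iff hW g).mp hE⟩

theorem energy_of_memLp {W : ℍ → ℝ} (hW : Continuous W) {g : ℍ → ℂ}
    (hg : MemLp g 2 (nu W)) : energy W g < ⊤ :=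
  (energy_lt_top_iff hW g).mpr hg.2

theorem pairing_eq_integral {W : ℍ → ℝ} (hW : Continuous W) (hpos : ∀ z, 0 ≤ W z)
    (g k : ℍ → ℂ) : pairing W g k = ∫ z, g z * conj (k z) ∂(nu W) := by
  unfold pairing nu
  rw [integral_withDensity_eq_integral_toReal_smul (measurable_dens hW)
    (Eventually.of_forall fun z => dens_lt_top W z)]
  refine integral_congr_ae (Eventually.of_forall fun z => ?_)
  simp only [dens]
  rw [ENNReal.toReal_ofReal (mul_nonneg (hpos z) (by positivity)), Complex.real_smul]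

/-- The real subspace of `L²(ν)` of gradients of smooth invariant functions. -/
noncomputable def admSub (N : ℕ) (W : ℍ → ℝ) : Submodule ℝ (Lp ℂ 2 (nu W)) where
  carrier := {x | ∃ v : ℍ → ℝ, SmoothH v ∧
    (∀ (γ : Gamma0 N) (z : ℍ), v ((γ : SL(2, ℤ)) • z) = v z) ∧
    (x : ℍ → ℂ) =ᵐ[nu W] gradC v}
  add_mem' := by
    rintro x y ⟨v, hv, hvi, hx⟩ ⟨w, hw, hwi, hy⟩
    refine ⟨fun z => v z + w z, hv.add hw, fun γ z => by simp only [hvi, hwi], ?_⟩
    filter_upwards [Lp.coeFn_add x y, hx, hy] with z h1 h2 h3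
    rw [h1, Pi.add_apply, h2, h3, gradC_add hv hw]
  zero_mem' := by
    refine ⟨fun _ => 0, contDiffOn_const, fun _ _ => rfl, ?_⟩
    filter_upwards [Lp.coeFn_zero ℂ 2 (nu W)] with z h1
    rw [h1, Pi.zero_apply]
    exact (gradC_eq_zero_of_eventually_const (u := fun _ => (0 : ℝ)) (c := 0)
      (Eventually.of_forall fun _ => rfl)).symm
  smul_mem' := by
    rintro c x ⟨v, hv, hvi, hx⟩
    refine ⟨fun z => c * v z, hv.const_mul c, fun γ z => by simp only [hvi], ?_⟩
    filter_upwards [Lp.coeFn_smul c x, hx] with z h1 h2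
    rw [h1, Pi.smul_apply, h2, gradC_const_mul hv, Complex.real_smul]

end HodgeLimit

open HodgeLimit in
/-- C: the Hodge limit in the concrete setting. -/
theorem exists_hodge_limit {N : ℕ} {W : ℍ → ℝ} (hW : IsPartitionWeight N W)
    (g₀ : ℍ → ℂ) (hg₀ : Continuous g₀) (hE : energy W g₀ < ⊤) :
    ∃ (h : ℍ → ℂ) (v : ℕ → ℍ → ℝ), Measurable h ∧ energy W h < ⊤ ∧
      (∀ n, IsAdmissible N W (v n)) ∧
      Tendsto (fun n => energy W (fun z => g₀ z - gradC (v n) z - h z)) atTop (𝓝 0) ∧
      ∀ w : ℍ → ℝ, IsAdmissible N W w → (pairing W h (gradC w)).re = 0 := by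
  have hWc := hW.continuous
  have hWpos : ∀ z, 0 ≤ W z := fun z => (hW.pos z).le
  have hg₀m : MemLp g₀ 2 (nu W) := memLp_of_energy hWc hg₀.aestronglyMeasurable hE
  obtain ⟨h', ⟨e, heV, hlim⟩, horth⟩ := exists_orthogonal_limit (admSub N W) (hg₀m.toLp g₀)
  choose v hv hvi hve using heV
  refine ⟨(h' : ℍ → ℂ), v, (Lp.stronglyMeasurable h').measurable,
    energy_of_memLp hWc (Lp.memLp h'), fun n => ⟨hv n, hvi n, ?_⟩, ?_, ?_⟩
  · exact energy_of_memLp hWc ((Lp.memLp (e n)).ae_eq (hve n))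
  · -- convergence of the energies
    have h1 : Tendsto (fun n => ‖hg₀m.toLp g₀ - e n - h'‖) atTop (𝓝 0) :=
      tendsto_iff_norm_sub_tendsto_zero.mp hlim
    have h2 : ∀ n, energy W (fun z => g₀ z - gradC (v n) z - h' z)
        = ENNReal.ofReal ‖hg₀m.toLp g₀ - e n - h'‖ ^ 2 := by
      intro n
      rw [energy_eq_eLpNorm_sq hWc, Lp.norm_def,
        ENNReal.ofReal_toReal (Lp.eLpNorm_ne_top _)]
      congr 1
      apply eLpNorm_congr_ae
      filter_upwards [Lp.coeFn_sub (hg₀m.toLp g₀ - e n) h', Lp.coeFn_sub (hg₀m.toLp g₀) (e n),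
        hg₀m.coeFn_toLp, hve n] with z h3 h4 h5 h6
      rw [h3, Pi.sub_apply, h4, Pi.sub_apply, h5, h6]
    simp only [h2]
    have h3 := (ENNReal.continuous_pow 2).tendsto (ENNReal.ofReal 0)
    have h4 := (ENNReal.tendsto_ofReal h1)
    have h5 := h3.comp h4
    simpa [Function.comp_def] using h5
  · intro w hw
    have hwm : MemLp (gradC w) 2 (nu W) :=
      memLp_of_energy hWc (continuous_gradC hw.smooth).aestronglyMeasurable hw.finite_energy
    have hmem : hwm.toLp (gradC w) ∈ admSub N W :=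
      ⟨w, hw.smooth, hw.invariant, hwm.coeFn_toLp⟩
    have h1 := horth _ hmem
    rw [pairing_eq_integral hWc hWpos]
    rw [L2.inner_def] at h1
    have h2 : ∫ z, inner ℂ ((hwm.toLp (gradC w) : ℍ → ℂ) z) ((h' : ℍ → ℂ) z) ∂(nu W)
        = ∫ z, (h' : ℍ → ℂ) z * conj (gradC w z) ∂(nu W) := by
      apply integral_congr_ae
      filter_upwards [hwm.coeFn_toLp] with z h3
      rw [h3, RCLike.inner_apply]
    rw [h2] at h1
    exact h1

end Fermat.Agent.S21
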