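import Fermat.Agent.S21.Defs

/-!
# S21 leaf module `LimitInvariant`

FROZEN STATEMENTS: prove the theorem(s) below exactly as stated (replace each `sorry`).
Put every auxiliary declaration inside `namespace Fermat.Agent.S21.LimitInvariant` (to avoid name
clashes with other leaf files).  Do not edit `Defs.lean`.  You may add imports of other
S21 leaf modules listed in PLAN v1 (respect the dependency order, no cycles).
-/

set_option autoImplicit false

open ModularCurve ModularCurve.Period CongruenceSubgroup UpperHalfPlane MeasureTheory Filter Topology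
open scoped MatrixGroups ComplexConjugate ContDiff ENNReal

namespace Fermat.Agent.S21.LimitInvariant

/-- Nonempty open subsets of `ℍ` have positive hyperbolic volume. -/
theorem volume_pos_of_isOpen {U : Set ℍ} (hU : IsOpen U) (hne : U.Nonempty) :
    0 < (volume : Measure ℍ) U := by
  rw [volume_eq_lintegral]
  have hS : IsOpen ((↑) '' U : Set ℂ) := isOpenEmbedding_coe.isOpenMap U hU
  have hSne : ((↑) '' U : Set ℂ).Nonempty := hne.image _
  have hpos : 0 < (volume : Measure ℂ) ((↑) '' U : Set ℂ) := hS.measure_pos volume hSne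
  have hmeas : Measurable (fun z : ℂ => ((↑((1 / ‖z.im‖₊) ^ 2 : NNReal)) : ℝ≥0∞)) := by
    fun_prop
  rw [setLIntegral_pos_iff hmeas]
  refine lt_of_lt_of_le hpos (measure_mono ?_)
  rintro _ ⟨z, hz, rfl⟩
  refine ⟨?_, ⟨z, hz, rfl⟩⟩
  simp only [Function.mem_support, ne_eq, ENNReal.coe_eq_zero]
  have h0 : ‖(z : ℂ).im‖₊ ≠ 0 := by
    simpa using z.im_ne_zero
  exact pow_ne_zero 2 (one_div_ne_zero h0)

/-- The action of `SL(2,ℤ)` preserves the hyperbolic volume. -/
theorem measurePreserving_smul_SL (γ : SL(2, ℤ)) :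
    MeasurePreserving (fun z : ℍ => γ • z) volume volume :=
  measurePreserving_smul (Matrix.SpecialLinearGroup.mapGL ℝ γ) (volume : Measure ℍ)

theorem continuous_smul_SL (γ : SL(2, ℤ)) : Continuous (fun z : ℍ => γ • z) :=
  continuous_const_smul (Matrix.SpecialLinearGroup.mapGL ℝ γ)

theorem measurableEmbedding_smul_SL (γ : SL(2, ℤ)) :
    MeasurableEmbedding (fun z : ℍ => γ • z) :=
  (Homeomorph.smul (Matrix.SpecialLinearGroup.mapGL ℝ γ) (α := ℍ)).measurableEmbedding

theorem setLIntegral_comp_smul_SL (γ : SL(2, ℤ)) (f : ℍ → ℝ≥0∞) (K : Set ℍ) :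
    ∫⁻ z in K, f (γ • z) = ∫⁻ w in (fun z : ℍ => γ • z) '' K, f w :=
  (measurePreserving_smul_SL γ).setLIntegral_comp_emb (measurableEmbedding_smul_SL γ) f K

theorem enorm_sq_eq (x : ℂ) : ‖x‖ₑ ^ 2 = ENNReal.ofReal (‖x‖ ^ 2) := by
  rw [← ofReal_norm, ENNReal.ofReal_pow (norm_nonneg _)]

end Fermat.Agent.S21.LimitInvariant

namespace Fermat.Agent.S21

open LimitInvariant in
/-- I: weight-2 invariance passes to continuous local-`L²` limits. -/
theorem isWeightTwoInv_of_tendsto {N : ℕ} (h' : ℍ → ℂ) (hh' : Continuous h')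
    (g : ℕ → ℍ → ℂ) (hg : ∀ n, Continuous (g n)) (hinv : ∀ n, IsWeightTwoInv N (g n))
    (hlim : ∀ K : Set ℍ, IsCompact K →
      Tendsto (fun n => ∫⁻ z in K, ‖g n z - h' z‖ₑ ^ 2) atTop (𝓝 0)) :
    IsWeightTwoInv N h' := by
  intro γ z₀
  set γ' : SL(2, ℤ) := (γ : SL(2, ℤ)) with hγ'
  set D : ℍ → ℂ := fun z => h' (γ' • z) - denom γ' z ^ 2 * h' z with hD
  have hdc : Continuous (fun z : ℍ => denom γ' z) := by fun_prop
  have hDc : Continuous D := by
    refine (hh'.comp (continuous_smul_SL γ')).sub ((hdc.pow 2).mul hh')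
  have key : ∀ K : Set ℍ, IsCompact K → ∫⁻ z in K, ‖D z‖ₑ ^ 2 = 0 := by
    intro K hK
    obtain ⟨C, hC⟩ := hK.exists_bound_of_continuousOn (f := fun z : ℍ => denom γ' z ^ 2)
      (hdc.pow 2).continuousOn
    -- pointwise bound
    have hpt : ∀ n, ∀ z ∈ K, ‖D z‖ₑ ^ 2 ≤ 2 * ‖g n (γ' • z) - h' (γ' • z)‖ₑ ^ 2
        + ENNReal.ofReal (2 * C ^ 2) * ‖g n z - h' z‖ₑ ^ 2 := by
      intro n z hz
      have hDz : D z = (h' (γ' • z) - g n (γ' • z)) + denom γ' z ^ 2 * (g n z - h' z) := by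
        simp only [hD]
        rw [hinv n γ z]
        ring
      rw [enorm_sq_eq, enorm_sq_eq, enorm_sq_eq]
      have hC0 : 0 ≤ C := (norm_nonneg _).trans (hC z hz)
      have h1 : ‖D z‖ ≤ ‖g n (γ' • z) - h' (γ' • z)‖ + C * ‖g n z - h' z‖ := by
        rw [hDz]
        refine (norm_add_le _ _).trans ?_
        rw [norm_mul, norm_sub_rev]
        gcongr
        exact hC z hz
      have h2 : ‖D z‖ ^ 2 ≤ 2 * ‖g n (γ' • z) - h' (γ' • z)‖ ^ 2
          + 2 * C ^ 2 * ‖g n z - h' z‖ ^ 2 := by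
        have := norm_nonneg (D z)
        nlinarith [sq_nonneg (‖g n (γ' • z) - h' (γ' • z)‖ - C * ‖g n z - h' z‖),
          norm_nonneg (g n (γ' • z) - h' (γ' • z)), norm_nonneg (g n z - h' z),
          mul_nonneg hC0 (norm_nonneg (g n z - h' z))]
      calc ENNReal.ofReal (‖D z‖ ^ 2)
          ≤ ENNReal.ofReal (2 * ‖g n (γ' • z) - h' (γ' • z)‖ ^ 2
              + 2 * C ^ 2 * ‖g n z - h' z‖ ^ 2) := ENNReal.ofReal_le_ofReal h2
        _ = _ := by
          rw [ENNReal.ofReal_add (by positivity) (by positivity),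
            ENNReal.ofReal_mul (by positivity), ENNReal.ofReal_mul (by positivity)]
          simp
    have hcomp : ∀ n, Continuous (fun z : ℍ => ‖g n (γ' • z) - h' (γ' • z)‖ₑ ^ 2) := by
      intro n
      have : Continuous (fun z : ℍ => g n (γ' • z) - h' (γ' • z)) :=
        ((hg n).comp (continuous_smul_SL γ')).sub (hh'.comp (continuous_smul_SL γ'))
      exact (ENNReal.continuous_pow 2).comp this.enorm
    have hint : ∀ n, ∫⁻ z in K, ‖D z‖ₑ ^ 2
        ≤ 2 * (∫⁻ w in (fun z : ℍ => γ' • z) '' K, ‖g n w - h' w‖ₑ ^ 2)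
          + ENNReal.ofReal (2 * C ^ 2) * (∫⁻ z in K, ‖g n z - h' z‖ₑ ^ 2) := by
      intro n
      calc ∫⁻ z in K, ‖D z‖ₑ ^ 2
          ≤ ∫⁻ z in K, (2 * ‖g n (γ' • z) - h' (γ' • z)‖ₑ ^ 2
              + ENNReal.ofReal (2 * C ^ 2) * ‖g n z - h' z‖ₑ ^ 2) :=
            setLIntegral_mono' hK.measurableSet (hpt n)
        _ = 2 * (∫⁻ z in K, ‖g n (γ' • z) - h' (γ' • z)‖ₑ ^ 2)
              + ENNReal.ofReal (2 * C ^ 2) * (∫⁻ z in K, ‖g n z - h' z‖ₑ ^ 2) := by
            rw [lintegral_add_left' ((hcomp n).measurable.const_mul 2).aemeasurable,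
              lintegral_const_mul' _ _ (by simp),
              lintegral_const_mul' _ _ ENNReal.ofReal_ne_top]
        _ = _ := by
            rw [setLIntegral_comp_smul_SL γ' (fun w => ‖g n w - h' w‖ₑ ^ 2) K]
    have hK' : IsCompact ((fun z : ℍ => γ' • z) '' K) := hK.image (continuous_smul_SL γ')
    have hlim' : Tendsto (fun n => 2 * (∫⁻ w in (fun z : ℍ => γ' • z) '' K, ‖g n w - h' w‖ₑ ^ 2)
          + ENNReal.ofReal (2 * C ^ 2) * (∫⁻ z in K, ‖g n z - h' z‖ₑ ^ 2)) atTop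
        (𝓝 (2 * 0 + ENNReal.ofReal (2 * C ^ 2) * 0)) :=
      (ENNReal.Tendsto.const_mul (hlim _ hK') (Or.inr (by simp))).add
        (ENNReal.Tendsto.const_mul (hlim _ hK) (Or.inr ENNReal.ofReal_ne_top))
    simp only [mul_zero, add_zero] at hlim'
    exact le_antisymm (ge_of_tendsto' hlim' hint) bot_le
  have hDz : D z₀ = 0 := by
    by_contra hne
    set U : Set ℍ := {z | D z ≠ 0} ∩ Metric.ball z₀ 1 with hU
    have hUo : IsOpen U := (isOpen_ne_fun hDc continuous_const).inter Metric.isOpen_ball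
    have hUne : U.Nonempty := ⟨z₀, hne, Metric.mem_ball_self one_pos⟩
    have hpos := volume_pos_of_isOpen hUo hUne
    have hK : IsCompact (Metric.closedBall z₀ 1) := isCompact_closedBall z₀ 1
    have h0 := key _ hK
    have hmeasD : Measurable (fun z : ℍ => ‖D z‖ₑ ^ 2) :=
      ((ENNReal.continuous_pow 2).comp hDc.enorm).measurable
    rw [lintegral_eq_zero_iff hmeasD] at h0
    have h1 : (volume : Measure ℍ) ({z | ‖D z‖ₑ ^ 2 ≠ 0} ∩ Metric.closedBall z₀ 1) = 0 := by
      have := h0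
      rw [Filter.EventuallyEq, ae_iff, Measure.restrict_apply' hK.measurableSet] at this
      exact this
    have h2 : U ⊆ {z | ‖D z‖ₑ ^ 2 ≠ 0} ∩ Metric.closedBall z₀ 1 := by
      rintro z ⟨hz1, hz2⟩
      refine ⟨?_, Metric.ball_subset_closedBall hz2⟩
      show ‖D z‖ₑ ^ 2 ≠ 0
      simp only [ne_eq, pow_eq_zero_iff, OfNat.ofNat_ne_zero, not_false_eq_true, enorm_eq_zero]
      exact hz1
    exact (lt_irrefl _) (lt_of_lt_of_le hpos ((measure_mono h2).trans h1.le))
  exact sub_eq_zero.mp hDz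

end Fermat.Agent.S21
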