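import Fermat.Agent.S21.Defs
import Fermat.Agent.S21.GradC

/-!
# S21 leaf module `PeriodLimit`

FROZEN STATEMENT (skeleton v1 of helper21, commit cf3c14c): `period_eq_zero_of_tendsto`, proved
below exactly as stated.  Auxiliary declarations live in `namespace Fermat.Agent.S21.PeriodLimit`.

Proof (helper3561): complete; no lemma of `GradC.lean` is used.  Core: `PeriodLimit.const_eq_zero_core`
(one-dimensional fundamental theorem of calculus along an L-shaped path inside a rectangle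
`R ⊆ ℍ`, Tonelli, invariance of the hyperbolic measure under `γ`, AM-GM absorption).
-/

set_option autoImplicit false

open ModularCurve ModularCurve.Period CongruenceSubgroup UpperHalfPlane MeasureTheory Filter Topology
open scoped MatrixGroups ComplexConjugate ContDiff ENNReal

namespace Fermat.Agent.S21.PeriodLimit

open Set

/-- Horizontal fundamental theorem of calculus estimate. -/
theorem enorm_sub_le_lintegral_horiz {W : ℂ → ℂ} {U : Set ℂ} (hU : IsOpen U)
    (hW : ContDiffOn ℝ 1 W U) {a b y : ℝ}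
    (hseg : ∀ s ∈ Icc a b, ((s : ℂ) + y * Complex.I) ∈ U) {x x' : ℝ}
    (hx : x ∈ Icc a b) (hx' : x' ∈ Icc a b) :
    ‖W (x + y * Complex.I) - W (x' + y * Complex.I)‖ₑ
      ≤ ∫⁻ s in Icc a b, ‖fderiv ℝ W (s + y * Complex.I) 1‖ₑ := by
  -- reduce to x' ≤ x
  wlog hle : x' ≤ x generalizing x x'
  · have := this hx' hx (le_of_not_ge hle)
    rwa [← enorm_neg, neg_sub] at this
  set φ : ℝ → ℂ := fun s => W (s + y * Complex.I) with hφ
  set φ' : ℝ → ℂ := fun s => fderiv ℝ W (s + y * Complex.I) 1 with hφ'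
  have hsub : uIcc x' x ⊆ Icc a b := by
    rw [uIcc_of_le hle]; exact Icc_subset_Icc hx'.1 hx.2
  have hderiv : ∀ s ∈ uIcc x' x, HasDerivAt φ (φ' s) s := by
    intro s hs
    have hmem := hseg s (hsub hs)
    have hdiff : DifferentiableAt ℝ W (s + y * Complex.I) :=
      (hW.differentiableOn (by norm_num)).differentiableAt (hU.mem_nhds hmem)
    have h1 : HasDerivAt (fun t : ℝ => ((t : ℂ) + y * Complex.I)) 1 s := by
      simpa using (Complex.ofRealCLM.hasDerivAt (x := s)).add_const (y * Complex.I)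
    exact hdiff.hasFDerivAt.comp_hasDerivAt s h1
  have hcont : ContinuousOn φ' (uIcc x' x) := by
    have hfd : ContinuousOn (fderiv ℝ W) U := hW.continuousOn_fderiv_of_isOpen hU (by norm_num)
    have h2 : ContinuousOn (fun s : ℝ => fderiv ℝ W (s + y * Complex.I)) (uIcc x' x) := by
      refine hfd.comp (by fun_prop) ?_
      intro s hs
      exact hseg s (hsub hs)
    exact h2.clm_apply continuousOn_const
  have hint : IntervalIntegrable φ' volume x' x := hcont.intervalIntegrable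
  have hftc := intervalIntegral.integral_eq_sub_of_hasDerivAt hderiv hint
  rw [show W (x + y * Complex.I) - W (x' + y * Complex.I) = φ x - φ x' from rfl, ← hftc,
    intervalIntegral.integral_of_le hle]
  calc ‖∫ s in Ioc x' x, φ' s‖ₑ ≤ ∫⁻ s in Ioc x' x, ‖φ' s‖ₑ := enorm_integral_le_lintegral_enorm _
    _ ≤ ∫⁻ s in Icc a b, ‖φ' s‖ₑ :=
        lintegral_mono_set (Ioc_subset_Icc_self.trans (Icc_subset_Icc hx'.1 hx.2))

/-- Vertical fundamental theorem of calculus estimate. -/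
theorem enorm_sub_le_lintegral_vert {W : ℂ → ℂ} {U : Set ℂ} (hU : IsOpen U)
    (hW : ContDiffOn ℝ 1 W U) {c d x : ℝ}
    (hseg : ∀ t ∈ Icc c d, ((x : ℂ) + t * Complex.I) ∈ U) {y y' : ℝ}
    (hy : y ∈ Icc c d) (hy' : y' ∈ Icc c d) :
    ‖W (x + y * Complex.I) - W (x + y' * Complex.I)‖ₑ
      ≤ ∫⁻ t in Icc c d, ‖fderiv ℝ W (x + t * Complex.I) Complex.I‖ₑ := by
  wlog hle : y' ≤ y generalizing y y'
  · have := this hy' hy (le_of_not_ge hle)
    rwa [← enorm_neg, neg_sub] at this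
  set φ : ℝ → ℂ := fun t => W (x + t * Complex.I) with hφ
  set φ' : ℝ → ℂ := fun t => fderiv ℝ W (x + t * Complex.I) Complex.I with hφ'
  have hsub : uIcc y' y ⊆ Icc c d := by
    rw [uIcc_of_le hle]; exact Icc_subset_Icc hy'.1 hy.2
  have hderiv : ∀ t ∈ uIcc y' y, HasDerivAt φ (φ' t) t := by
    intro t ht
    have hmem := hseg t (hsub ht)
    have hdiff : DifferentiableAt ℝ W (x + t * Complex.I) :=
      (hW.differentiableOn (by norm_num)).differentiableAt (hU.mem_nhds hmem)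
    have h1 : HasDerivAt (fun t : ℝ => ((x : ℂ) + t * Complex.I)) Complex.I t := by
      have h0 : HasDerivAt (fun t : ℝ => ((t : ℂ) * Complex.I)) Complex.I t := by
        simpa using (Complex.ofRealCLM.hasDerivAt (x := t)).mul_const Complex.I
      simpa using h0.const_add (x : ℂ)
    exact hdiff.hasFDerivAt.comp_hasDerivAt t h1
  have hcont : ContinuousOn φ' (uIcc y' y) := by
    have hfd : ContinuousOn (fderiv ℝ W) U := hW.continuousOn_fderiv_of_isOpen hU (by norm_num)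
    have h2 : ContinuousOn (fun t : ℝ => fderiv ℝ W (x + t * Complex.I)) (uIcc y' y) := by
      refine hfd.comp (by fun_prop) ?_
      intro t ht
      exact hseg t (hsub ht)
    exact h2.clm_apply continuousOn_const
  have hint : IntervalIntegrable φ' volume y' y := hcont.intervalIntegrable
  have hftc := intervalIntegral.integral_eq_sub_of_hasDerivAt hderiv hint
  rw [show W (x + y * Complex.I) - W (x + y' * Complex.I) = φ y - φ y' from rfl, ← hftc,
    intervalIntegral.integral_of_le hle]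
  calc ‖∫ t in Ioc y' y, φ' t‖ₑ ≤ ∫⁻ t in Ioc y' y, ‖φ' t‖ₑ := enorm_integral_le_lintegral_enorm _
    _ ≤ ∫⁻ t in Icc c d, ‖φ' t‖ₑ :=
        lintegral_mono_set (Ioc_subset_Icc_self.trans (Icc_subset_Icc hy'.1 hy.2))

/-- Tonelli on a rectangle of `ℂ`. -/
theorem lintegral_rect {H : ℂ → ℝ≥0∞} (hH : Measurable H) (a b c d : ℝ) :
    ∫⁻ z in (Icc a b ×ℂ Icc c d), H z
      = ∫⁻ x in Icc a b, ∫⁻ y in Icc c d, H (x + y * Complex.I) := by
  have hmp := Complex.volume_preserving_equiv_real_prod.symm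
  have h1 := hmp.setLIntegral_comp_preimage_emb
    Complex.measurableEquivRealProd.symm.measurableEmbedding H (Icc a b ×ℂ Icc c d)
  rw [← h1]
  have hpre : (Complex.measurableEquivRealProd.symm ⁻¹' (Icc a b ×ℂ Icc c d))
      = Icc a b ×ˢ Icc c d := by
    ext p
    simp only [mem_preimage, Complex.measurableEquivRealProd_symm_apply, Complex.mem_reProdIm,
      mem_prod]
  rw [hpre, Measure.volume_eq_prod, ← Measure.prod_restrict, lintegral_prod]
  · refine lintegral_congr fun x => lintegral_congr fun y => ?_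
    congr 1
    rw [Complex.measurableEquivRealProd_symm_apply]
    apply Complex.ext <;> simp
  · exact (hH.comp Complex.measurableEquivRealProd.symm.measurable).aemeasurable

/-- Comparison of the hyperbolic measure with Lebesgue measure on a set where `c ≤ im`. -/
theorem setLIntegral_hyp_le {F : ℂ → ℝ≥0∞} (hF : Measurable F) {S : Set ℂ}
    (hS : MeasurableSet S) {c : ℝ} (hc : 0 < c) (hSc : ∀ z ∈ S, c ≤ z.im) :
    ∫⁻ ζ in (UpperHalfPlane.coe ⁻¹' S), F ↑ζ ∂(volume : Measure ℍ)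
      ≤ ENNReal.ofReal (c⁻¹ ^ 2) * ∫⁻ z in S, F z := by
  have hS' : MeasurableSet (UpperHalfPlane.coe ⁻¹' S) := measurable_coe hS
  set ρ : ℍ → ℝ≥0∞ := fun z : ℍ => ((↑((1 / NNReal.mk z.im z.im_pos.le : NNReal) ^ 2)) : ℝ≥0∞)
    with hρdef
  have hρ : Measurable ρ := by
    have h1 : Continuous (fun z : ℍ => (NNReal.mk z.im z.im_pos.le : NNReal)) :=
      continuous_im.subtype_mk _
    have h2 : Continuous (fun z : ℍ => (1 / NNReal.mk z.im z.im_pos.le : NNReal) ^ 2) :=
      (continuous_const.div₀ h1 (fun x ↦ NNReal.ne_iff.mp x.im_ne_zero)).pow 2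
    exact (ENNReal.continuous_coe.comp h2).measurable
  have key : ∫⁻ ζ in (UpperHalfPlane.coe ⁻¹' S), F ↑ζ ∂(volume : Measure ℍ)
      = ∫⁻ ζ in (UpperHalfPlane.coe ⁻¹' S), (ρ * fun ζ : ℍ => F ↑ζ) ζ
          ∂(volume.comap UpperHalfPlane.coe) := by
    rw [UpperHalfPlane.volume_def]
    exact setLIntegral_withDensity_eq_setLIntegral_mul _ hρ (hF.comp measurable_coe) hS'
  rw [key]
  calc ∫⁻ ζ in (UpperHalfPlane.coe ⁻¹' S), (ρ * fun ζ : ℍ => F ↑ζ) ζ
          ∂(volume.comap UpperHalfPlane.coe)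
      ≤ ∫⁻ ζ in (UpperHalfPlane.coe ⁻¹' S), ENNReal.ofReal (c⁻¹ ^ 2) * F ↑ζ
          ∂(volume.comap UpperHalfPlane.coe) := by
        refine setLIntegral_mono' hS' fun ζ hζ => ?_
        simp only [Pi.mul_apply]
        gcongr
        have hcz : c ≤ ζ.im := hSc _ hζ
        rw [hρdef, ENNReal.ofReal, ENNReal.coe_le_coe, ← NNReal.coe_le_coe]
        rw [Real.coe_toNNReal _ (by positivity)]
        simp only [one_div, NNReal.coe_pow, NNReal.coe_inv, NNReal.coe_mk]
        gcongr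
    _ = ENNReal.ofReal (c⁻¹ ^ 2) * ∫⁻ ζ in (UpperHalfPlane.coe ⁻¹' S), F ↑ζ
          ∂(volume.comap UpperHalfPlane.coe) :=
        lintegral_const_mul _ (hF.comp measurable_coe)
    _ ≤ ENNReal.ofReal (c⁻¹ ^ 2) * ∫⁻ z in S, F z := by
        gcongr
        have hmp : MeasurePreserving UpperHalfPlane.coe (volume.comap UpperHalfPlane.coe)
            (volume.restrict (Set.range UpperHalfPlane.coe)) :=
          ⟨measurable_coe, by rw [measurableEmbedding_coe.map_comap]⟩
        rw [hmp.setLIntegral_comp_preimage_emb measurableEmbedding_coe F S]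
        exact lintegral_mono' (Measure.restrict_mono le_rfl Measure.restrict_le_self) le_rfl

theorem setLIntegral_smul_preimage (g : SL(2, ℤ)) (F : ℍ → ℝ≥0∞) (T : Set ℍ) :
    ∫⁻ z in (fun z : ℍ => g • z) ⁻¹' T, F (g • z) ∂(volume : Measure ℍ)
      = ∫⁻ ζ in T, F ζ ∂(volume : Measure ℍ) := by
  have hmp : MeasurePreserving (fun z : ℍ => (Matrix.SpecialLinearGroup.mapGL ℝ g) • z)
      (volume : Measure ℍ) volume := measurePreserving_smul _ _
  exact hmp.setLIntegral_comp_preimage_emb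
    (measurableEmbedding_const_smul (Matrix.SpecialLinearGroup.mapGL ℝ g)) F T

theorem hyp_volume_ne_zero_of_isOpen {O : Set ℍ} (hO : IsOpen O) (hne : O.Nonempty) :
    (volume : Measure ℍ) O ≠ 0 := by
  intro h0
  rw [UpperHalfPlane.volume_def] at h0
  have hρ : Measurable (fun z : ℍ => ((↑((1 / NNReal.mk z.im z.im_pos.le : NNReal) ^ 2)) : ℝ≥0∞)) := by
    have h1 : Continuous (fun z : ℍ => (NNReal.mk z.im z.im_pos.le : NNReal)) :=
      continuous_im.subtype_mk _
    have h2 : Continuous (fun z : ℍ => (1 / NNReal.mk z.im z.im_pos.le : NNReal) ^ 2) :=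
      (continuous_const.div₀ h1 (fun x ↦ NNReal.ne_iff.mp x.im_ne_zero)).pow 2
    exact (ENNReal.continuous_coe.comp h2).measurable
  rw [withDensity_apply_eq_zero' hρ.aemeasurable] at h0
  have hall : {x : ℍ | ((↑((1 / NNReal.mk x.im x.im_pos.le : NNReal) ^ 2)) : ℝ≥0∞) ≠ 0} ∩ O = O := by
    apply inter_eq_right.mpr
    intro z _
    simp only [Set.mem_ofPred_eq, ne_eq, ENNReal.coe_eq_zero]
    have : (0 : ℝ) < z.im := z.im_pos
    apply pow_ne_zero
    apply div_ne_zero one_ne_zero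
    exact NNReal.ne_iff.mp z.im_ne_zero
  rw [hall, measurableEmbedding_coe.comap_apply] at h0
  have hopen : IsOpen (UpperHalfPlane.coe '' O) := isOpenEmbedding_coe.isOpenMap _ hO
  exact (hopen.measure_pos volume (hne.image _)).ne' h0

theorem measurable_lintegral_horiz {H : ℂ → ℝ≥0∞} (hH : Measurable H) (a b : ℝ) :
    Measurable (fun y : ℝ => ∫⁻ s in Icc a b, H (s + y * Complex.I)) := by
  have h : Measurable (fun p : ℝ × ℝ => H ((p.2 : ℂ) + (p.1 : ℂ) * Complex.I)) := by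
    refine hH.comp ?_
    fun_prop
  exact h.lintegral_prod_right'

theorem measurable_lintegral_vert {H : ℂ → ℝ≥0∞} (hH : Measurable H) (c d : ℝ) :
    Measurable (fun x : ℝ => ∫⁻ t in Icc c d, H (x + t * Complex.I)) := by
  have h : Measurable (fun p : ℝ × ℝ => H ((p.1 : ℂ) + (p.2 : ℂ) * Complex.I)) := by
    refine hH.comp ?_
    fun_prop
  exact h.lintegral_prod_right'

/-- The key integrated inequality on a rectangle. -/
theorem rect_bound {W : ℂ → ℂ} (hW : ContDiffOn ℝ 1 W upperHalfPlaneSet)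
    (g : SL(2, ℤ)) (d : ℂ) (hd : ∀ z : ℍ, W ↑(g • z) - W ↑z = d)
    {a b c e : ℝ} (hc : 0 < c) {O : Set ℍ} (hO : MeasurableSet O)
    (hOR : ∀ z ∈ O, (↑z : ℂ) ∈ (Icc a b ×ℂ Icc c e) ∧ (↑(g • z) : ℂ) ∈ (Icc a b ×ℂ Icc c e)) :
    ‖d‖ₑ * (volume : Measure ℍ) O ≤ ENNReal.ofReal (c⁻¹ ^ 2) *
      (ENNReal.ofReal (b - a) * (∫⁻ z in (Icc a b ×ℂ Icc c e), ‖fderiv ℝ W z 1‖ₑ)
        + ENNReal.ofReal (e - c) * (∫⁻ z in (Icc a b ×ℂ Icc c e), ‖fderiv ℝ W z Complex.I‖ₑ)) := by
  set R : Set ℂ := Icc a b ×ℂ Icc c e with hR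
  have hRmeas : MeasurableSet R := (isClosed_Icc.reProdIm isClosed_Icc).measurableSet
  have hRc : ∀ z ∈ R, c ≤ z.im := fun z hz => hz.2.1
  set Fx : ℂ → ℝ≥0∞ := fun z => ‖fderiv ℝ W z 1‖ₑ with hFx
  set Fy : ℂ → ℝ≥0∞ := fun z => ‖fderiv ℝ W z Complex.I‖ₑ with hFy
  have hFxm : Measurable Fx := (measurable_fderiv_apply_const ℝ W 1).enorm
  have hFym : Measurable Fy := (measurable_fderiv_apply_const ℝ W Complex.I).enorm
  set A : ℝ → ℝ≥0∞ := fun y => ∫⁻ s in Icc a b, Fx (s + y * Complex.I) with hA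
  set B : ℝ → ℝ≥0∞ := fun x => ∫⁻ t in Icc c e, Fy (x + t * Complex.I) with hB
  have hAm : Measurable A := measurable_lintegral_horiz hFxm a b
  have hBm : Measurable B := measurable_lintegral_vert hFym c e
  -- pointwise bound
  have hpt : ∀ z ∈ O, ‖d‖ₑ ≤ A (g • z).im + B z.re := by
    intro z hz
    obtain ⟨hzR, hgzR⟩ := hOR z hz
    have hx' : z.re ∈ Icc a b := hzR.1
    have hy' : z.im ∈ Icc c e := hzR.2
    have hx : (g • z).re ∈ Icc a b := hgzR.1
    have hy : (g • z).im ∈ Icc c e := hgzR.2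
    have e1 : (↑(g • z) : ℂ) = ((g • z).re : ℂ) + ((g • z).im : ℂ) * Complex.I :=
      (Complex.re_add_im _).symm
    have e2 : (↑z : ℂ) = (z.re : ℂ) + (z.im : ℂ) * Complex.I := (Complex.re_add_im _).symm
    have hsplit : d = (W (((g • z).re : ℂ) + ((g • z).im : ℂ) * Complex.I)
          - W ((z.re : ℂ) + ((g • z).im : ℂ) * Complex.I))
        + (W ((z.re : ℂ) + ((g • z).im : ℂ) * Complex.I)
          - W ((z.re : ℂ) + (z.im : ℂ) * Complex.I)) := by
      rw [← hd z, sub_add_sub_cancel, ← e1, ← e2]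
    have hsegH : ∀ s ∈ Icc a b, ((s : ℂ) + ((g • z).im : ℝ) * Complex.I) ∈ upperHalfPlaneSet := by
      intro s _
      simp only [Set.mem_ofPred_eq, Complex.add_im, Complex.ofReal_im, Complex.mul_im,
        Complex.ofReal_re, Complex.I_im, mul_one, Complex.I_re, mul_zero, add_zero, zero_add]
      exact (g • z).im_pos
    have hsegV : ∀ t ∈ Icc c e, ((z.re : ℂ) + (t : ℝ) * Complex.I) ∈ upperHalfPlaneSet := by
      intro t ht
      simp only [Set.mem_ofPred_eq, Complex.add_im, Complex.ofReal_im, Complex.mul_im,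
        Complex.ofReal_re, Complex.I_im, mul_one, Complex.I_re, mul_zero, add_zero, zero_add]
      exact lt_of_lt_of_le hc ht.1
    calc ‖d‖ₑ ≤ ‖W (((g • z).re : ℂ) + ((g • z).im : ℂ) * Complex.I)
          - W ((z.re : ℂ) + ((g • z).im : ℂ) * Complex.I)‖ₑ
        + ‖W ((z.re : ℂ) + ((g • z).im : ℂ) * Complex.I)
          - W ((z.re : ℂ) + (z.im : ℂ) * Complex.I)‖ₑ := by
          conv_lhs => rw [hsplit]
          exact enorm_add_le _ _
      _ ≤ A (g • z).im + B z.re :=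
          add_le_add
            (enorm_sub_le_lintegral_horiz isOpen_upperHalfPlaneSet hW hsegH hx hx')
            (enorm_sub_le_lintegral_vert isOpen_upperHalfPlaneSet hW hsegV hy hy')
  -- integrate over `O`
  have h1 : ‖d‖ₑ * (volume : Measure ℍ) O
      ≤ ∫⁻ z in O, (A (g • z).im + B z.re) ∂(volume : Measure ℍ) := by
    rw [← setLIntegral_const]
    exact setLIntegral_mono' hO hpt
  have hAg : Measurable (fun z : ℍ => A (g • z).im) := by
    refine hAm.comp ?_
    have : Continuous (fun z : ℍ => (g • z).im) :=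
      UpperHalfPlane.continuous_im.comp
        (continuous_const_smul (Matrix.SpecialLinearGroup.mapGL ℝ g))
    exact this.measurable
  have h2 : ∫⁻ z in O, (A (g • z).im + B z.re) ∂(volume : Measure ℍ)
      = ∫⁻ z in O, A (g • z).im ∂(volume : Measure ℍ)
        + ∫⁻ z in O, B z.re ∂(volume : Measure ℍ) := lintegral_add_left hAg _
  -- first term
  have hOsub1 : O ⊆ (fun z : ℍ => g • z) ⁻¹' (UpperHalfPlane.coe ⁻¹' R) := fun z hz => (hOR z hz).2
  have hOsub2 : O ⊆ UpperHalfPlane.coe ⁻¹' R := fun z hz => (hOR z hz).1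
  have h3 : ∫⁻ z in O, A (g • z).im ∂(volume : Measure ℍ)
      ≤ ENNReal.ofReal (c⁻¹ ^ 2) * (ENNReal.ofReal (b - a) * ∫⁻ z in R, Fx z) := by
    calc ∫⁻ z in O, A (g • z).im ∂(volume : Measure ℍ)
        ≤ ∫⁻ z in (fun z : ℍ => g • z) ⁻¹' (UpperHalfPlane.coe ⁻¹' R), A (g • z).im
            ∂(volume : Measure ℍ) := lintegral_mono_set hOsub1
      _ = ∫⁻ ζ in (UpperHalfPlane.coe ⁻¹' R), A ζ.im ∂(volume : Measure ℍ) :=
          setLIntegral_smul_preimage g (fun ζ : ℍ => A ζ.im) _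
      _ ≤ ENNReal.ofReal (c⁻¹ ^ 2) * ∫⁻ z in R, A z.im :=
          setLIntegral_hyp_le (F := fun z : ℂ => A z.im) (hAm.comp Complex.measurable_im)
            hRmeas hc hRc
      _ = ENNReal.ofReal (c⁻¹ ^ 2) * (ENNReal.ofReal (b - a) * ∫⁻ z in R, Fx z) := by
          congr 1
          rw [hR, lintegral_rect (H := fun z : ℂ => A z.im) (hAm.comp Complex.measurable_im),
            lintegral_rect hFxm]
          simp only [Complex.add_im, Complex.ofReal_im, Complex.mul_im, Complex.ofReal_re,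
            Complex.I_im, mul_one, Complex.I_re, mul_zero, add_zero, zero_add]
          rw [setLIntegral_const, Real.volume_Icc, mul_comm]
          congr 1
          rw [hA]
          exact lintegral_lintegral_swap
            ((hFxm.comp (by fun_prop : Measurable fun p : ℝ × ℝ =>
              ((p.2 : ℂ) + (p.1 : ℂ) * Complex.I))).aemeasurable)
  have h4 : ∫⁻ z in O, B z.re ∂(volume : Measure ℍ)
      ≤ ENNReal.ofReal (c⁻¹ ^ 2) * (ENNReal.ofReal (e - c) * ∫⁻ z in R, Fy z) := by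
    calc ∫⁻ z in O, B z.re ∂(volume : Measure ℍ)
        ≤ ∫⁻ ζ in (UpperHalfPlane.coe ⁻¹' R), B ζ.re ∂(volume : Measure ℍ) :=
          lintegral_mono_set hOsub2
      _ ≤ ENNReal.ofReal (c⁻¹ ^ 2) * ∫⁻ z in R, B z.re :=
          setLIntegral_hyp_le (F := fun z : ℂ => B z.re) (hBm.comp Complex.measurable_re)
            hRmeas hc hRc
      _ = ENNReal.ofReal (c⁻¹ ^ 2) * (ENNReal.ofReal (e - c) * ∫⁻ z in R, Fy z) := by
          congr 1
          rw [hR, lintegral_rect (H := fun z : ℂ => B z.re) (hBm.comp Complex.measurable_re),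
            lintegral_rect hFym]
          simp only [Complex.add_re, Complex.ofReal_re, Complex.mul_re, Complex.I_re, mul_zero,
            Complex.ofReal_im, Complex.I_im, mul_one, sub_self, add_zero]
          rw [← lintegral_const_mul _ hBm]
          refine lintegral_congr fun x => ?_
          rw [setLIntegral_const, Real.volume_Icc, mul_comm]
  calc ‖d‖ₑ * (volume : Measure ℍ) O
      ≤ ∫⁻ z in O, A (g • z).im ∂(volume : Measure ℍ)
        + ∫⁻ z in O, B z.re ∂(volume : Measure ℍ) := h1.trans h2.le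
    _ ≤ ENNReal.ofReal (c⁻¹ ^ 2) * (ENNReal.ofReal (b - a) * ∫⁻ z in R, Fx z)
        + ENNReal.ofReal (c⁻¹ ^ 2) * (ENNReal.ofReal (e - c) * ∫⁻ z in R, Fy z) :=
        add_le_add h3 h4
    _ = _ := (mul_add _ _ _).symm

theorem enorm_le_of_sq {p q : ℂ} {ε : ℝ} (hε : 0 < ε) :
    ‖p‖ₑ ≤ ENNReal.ofReal ε + ENNReal.ofReal (1 / (4 * ε)) * ENNReal.ofReal (‖p‖ ^ 2 + ‖q‖ ^ 2) := by
  rw [← ENNReal.ofReal_mul (by positivity), ← ENNReal.ofReal_add hε.le (by positivity),
    ← ofReal_norm]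
  apply ENNReal.ofReal_le_ofReal
  have h1 : ‖p‖ ≤ ε + 1 / (4 * ε) * ‖p‖ ^ 2 := by
    have h4 : 0 < 4 * ε := by positivity
    have : 1 / (4 * ε) * ‖p‖ ^ 2 = ‖p‖ ^ 2 / (4 * ε) := by ring
    rw [this, ← sub_le_iff_le_add', le_div_iff₀ h4]
    nlinarith [sq_nonneg (‖p‖ - 2 * ε)]
  have h2 : 0 ≤ 1 / (4 * ε) * ‖q‖ ^ 2 := by positivity
  nlinarith


/-- Reverse comparison: Lebesgue measure is bounded by the hyperbolic one where `im ≤ M`. -/
theorem setLIntegral_le_hyp {F : ℂ → ℝ≥0∞} (hF : Measurable F) {S : Set ℂ}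
    (hS : MeasurableSet S) (hSsub : S ⊆ upperHalfPlaneSet) {M : ℝ} (hSM : ∀ z ∈ S, z.im ≤ M) :
    ∫⁻ z in S, F z
      ≤ ENNReal.ofReal (M ^ 2) * ∫⁻ ζ in (UpperHalfPlane.coe ⁻¹' S), F ↑ζ ∂(volume : Measure ℍ) := by
  have hS' : MeasurableSet (UpperHalfPlane.coe ⁻¹' S) := measurable_coe hS
  set ρ : ℍ → ℝ≥0∞ := fun z : ℍ => ((↑((1 / NNReal.mk z.im z.im_pos.le : NNReal) ^ 2)) : ℝ≥0∞)
    with hρdef
  have hρ : Measurable ρ := by
    have h1 : Continuous (fun z : ℍ => (NNReal.mk z.im z.im_pos.le : NNReal)) :=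
      continuous_im.subtype_mk _
    have h2 : Continuous (fun z : ℍ => (1 / NNReal.mk z.im z.im_pos.le : NNReal) ^ 2) :=
      (continuous_const.div₀ h1 (fun x ↦ NNReal.ne_iff.mp x.im_ne_zero)).pow 2
    exact (ENNReal.continuous_coe.comp h2).measurable
  have key : ∫⁻ ζ in (UpperHalfPlane.coe ⁻¹' S), F ↑ζ ∂(volume : Measure ℍ)
      = ∫⁻ ζ in (UpperHalfPlane.coe ⁻¹' S), (ρ * fun ζ : ℍ => F ↑ζ) ζ
          ∂(volume.comap UpperHalfPlane.coe) := by
    rw [UpperHalfPlane.volume_def]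
    exact setLIntegral_withDensity_eq_setLIntegral_mul _ hρ (hF.comp measurable_coe) hS'
  have hmp : MeasurePreserving UpperHalfPlane.coe (volume.comap UpperHalfPlane.coe)
      (volume.restrict (Set.range UpperHalfPlane.coe)) :=
    ⟨measurable_coe, by rw [measurableEmbedding_coe.map_comap]⟩
  have hSrange : S ∩ Set.range UpperHalfPlane.coe = S :=
    inter_eq_left.mpr fun z hz => ⟨⟨z, hSsub hz⟩, rfl⟩
  calc ∫⁻ z in S, F z
      = ∫⁻ ζ in (UpperHalfPlane.coe ⁻¹' S), F ↑ζ ∂(volume.comap UpperHalfPlane.coe) := by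
        rw [hmp.setLIntegral_comp_preimage_emb measurableEmbedding_coe F S,
          Measure.restrict_restrict hS, hSrange]
    _ ≤ ∫⁻ ζ in (UpperHalfPlane.coe ⁻¹' S), ENNReal.ofReal (M ^ 2) * (ρ * fun ζ : ℍ => F ↑ζ) ζ
          ∂(volume.comap UpperHalfPlane.coe) := by
        refine setLIntegral_mono' hS' fun ζ hζ => ?_
        have hzM : ζ.im ≤ M := hSM _ hζ
        have hpos : 0 < ζ.im := ζ.im_pos
        have h1 : (1 : ℝ≥0∞) ≤ ENNReal.ofReal (M ^ 2) * ρ ζ := by
          rw [hρdef, ENNReal.ofReal, ← ENNReal.coe_mul, ← ENNReal.coe_one, ENNReal.coe_le_coe,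
            ← NNReal.coe_le_coe]
          simp only [NNReal.coe_one, NNReal.coe_mul, one_div, NNReal.coe_pow, NNReal.coe_inv,
            NNReal.coe_mk]
          rw [Real.coe_toNNReal _ (by positivity), ← mul_pow]
          have : 1 ≤ M * (ζ.im)⁻¹ := by
            rw [← div_eq_mul_inv, le_div_iff₀ hpos]; linarith
          exact one_le_pow₀ this
        calc F ↑ζ = 1 * F ↑ζ := (one_mul _).symm
          _ ≤ (ENNReal.ofReal (M ^ 2) * ρ ζ) * F ↑ζ := by gcongr
          _ = ENNReal.ofReal (M ^ 2) * (ρ * fun ζ : ℍ => F ↑ζ) ζ := by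
              simp only [Pi.mul_apply, mul_assoc]
    _ = ENNReal.ofReal (M ^ 2) * ∫⁻ ζ in (UpperHalfPlane.coe ⁻¹' S), (ρ * fun ζ : ℍ => F ↑ζ) ζ
          ∂(volume.comap UpperHalfPlane.coe) :=
        lintegral_const_mul _ (hρ.mul (hF.comp measurable_coe))
    _ = _ := by rw [key]

/-- **Poincaré-type period lemma, core form.** If `C¹` functions `W n` on the upper half plane
all satisfy `W n (g • z) - W n z = d` and their gradients tend to `0` in `L²` on every closed
rectangle inside the upper half plane, then `d = 0`. -/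
theorem const_eq_zero_core (W : ℕ → ℂ → ℂ)
    (hW : ∀ n, ContDiffOn ℝ 1 (W n) upperHalfPlaneSet)
    (g : SL(2, ℤ)) (d : ℂ) (hd : ∀ n (z : ℍ), W n ↑(g • z) - W n ↑z = d)
    (hlim : ∀ a b c e : ℝ, 0 < c → Tendsto (fun n => ∫⁻ z in (Icc a b ×ℂ Icc c e),
          ENNReal.ofReal (‖fderiv ℝ (W n) z 1‖ ^ 2 + ‖fderiv ℝ (W n) z Complex.I‖ ^ 2))
          atTop (𝓝 0)) : d = 0 := by
  -- the rectangle
  set z₁ : ℍ := g • UpperHalfPlane.I with hz₁
  set c : ℝ := min z₁.im 1 / 2 with hcdef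
  set M : ℝ := max |z₁.re| (max z₁.im 1) + 1 with hMdef
  have hz₁im : 0 < z₁.im := z₁.im_pos
  have hc : 0 < c := by rw [hcdef]; positivity
  have hc1 : c < 1 := by
    rw [hcdef]; have := min_le_right z₁.im 1; linarith
  have hcz : c < z₁.im := by
    rw [hcdef]; have := min_le_left z₁.im 1; linarith
  have hM1 : 1 < M := by
    rw [hMdef]
    have := le_max_right |z₁.re| (max z₁.im 1)
    have := le_max_right z₁.im 1
    linarith
  have hMz : z₁.im < M := by
    rw [hMdef]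
    have := le_max_right |z₁.re| (max z₁.im 1)
    have := le_max_left z₁.im 1
    linarith
  have hMre : |z₁.re| < M := by
    rw [hMdef]
    have := le_max_left |z₁.re| (max z₁.im 1)
    linarith
  set R : Set ℂ := Icc (-M) M ×ℂ Icc c M with hR
  set Ro : Set ℂ := Ioo (-M) M ×ℂ Ioo c M with hRo
  have hRoR : Ro ⊆ R := fun z hz => ⟨Ioo_subset_Icc_self hz.1, Ioo_subset_Icc_self hz.2⟩
  have hRcompact : IsCompact R := isCompact_Icc.reProdIm isCompact_Icc
  have hRoOpen : IsOpen Ro := isOpen_Ioo.reProdIm isOpen_Ioo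
  set O : Set ℍ := UpperHalfPlane.coe ⁻¹' Ro ∩ (fun z : ℍ => g • z) ⁻¹' (UpperHalfPlane.coe ⁻¹' Ro)
    with hOdef
  have hsmul : Continuous (fun z : ℍ => g • z) :=
    continuous_const_smul (Matrix.SpecialLinearGroup.mapGL ℝ g)
  have hOopen : IsOpen O :=
    (hRoOpen.preimage continuous_coe).inter ((hRoOpen.preimage continuous_coe).preimage hsmul)
  have hIO : UpperHalfPlane.I ∈ O := by
    refine ⟨?_, ?_⟩
    · show (↑UpperHalfPlane.I : ℂ) ∈ Ro
      rw [hRo, Complex.mem_reProdIm]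
      simp only [UpperHalfPlane.coe_I, Complex.I_re, Complex.I_im, mem_Ioo]
      exact ⟨⟨by linarith, by linarith⟩, hc1, hM1⟩
    · show (↑(g • UpperHalfPlane.I) : ℂ) ∈ Ro
      rw [← hz₁, hRo, Complex.mem_reProdIm]
      exact ⟨⟨by have := neg_abs_le z₁.re; have := hMre; show -M < z₁.re; linarith,
        by have := le_abs_self z₁.re; show z₁.re < M; linarith⟩, hcz, hMz⟩
  have hOR : ∀ z ∈ O, (↑z : ℂ) ∈ R ∧ (↑(g • z) : ℂ) ∈ R := fun z hz => ⟨hRoR hz.1, hRoR hz.2⟩
  have hμO : (volume : Measure ℍ) O ≠ 0 := hyp_volume_ne_zero_of_isOpen hOopen ⟨_, hIO⟩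
  set q : ℕ → ℂ → ℝ := fun n z => ‖fderiv ℝ (W n) z 1‖ ^ 2 + ‖fderiv ℝ (W n) z Complex.I‖ ^ 2
    with hq
  set J : ℕ → ℝ≥0∞ := fun n => ∫⁻ z in R, ENNReal.ofReal (q n z) with hJ
  have hJlim : Tendsto J atTop (𝓝 0) := hlim (-M) M c M hc
  set V : ℝ≥0∞ := volume R with hV
  have hVfin : V ≠ ⊤ := hRcompact.measure_lt_top.ne
  set C : ℝ≥0∞ := ENNReal.ofReal (c⁻¹ ^ 2) * (ENNReal.ofReal (M - -M) + ENNReal.ofReal (M - c))
    with hC
  have hCfin : C ≠ ⊤ :=
    ENNReal.mul_ne_top ENNReal.ofReal_ne_top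
      (ENNReal.add_ne_top.mpr ⟨ENNReal.ofReal_ne_top, ENNReal.ofReal_ne_top⟩)
  -- main estimate for each `n` and `ε`
  have hmain : ∀ n (ε : ℝ), 0 < ε → ‖d‖ₑ * (volume : Measure ℍ) O
      ≤ C * (ENNReal.ofReal ε * V + ENNReal.ofReal (1 / (4 * ε)) * J n) := by
    intro n ε hε
    have hb := rect_bound (hW n) g d (hd n) hc hOopen.measurableSet hOR
    set T : ℝ≥0∞ := ENNReal.ofReal ε * V + ENNReal.ofReal (1 / (4 * ε)) * J n with hT
    have hqm : Measurable (fun z : ℂ => ENNReal.ofReal (q n z)) := by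
      apply ENNReal.measurable_ofReal.comp
      exact ((measurable_fderiv_apply_const ℝ (W n) 1).norm.pow_const 2).add
        ((measurable_fderiv_apply_const ℝ (W n) Complex.I).norm.pow_const 2)
    have hTeq : ∫⁻ z in R, (ENNReal.ofReal ε
        + ENNReal.ofReal (1 / (4 * ε)) * ENNReal.ofReal (q n z)) = T := by
      rw [lintegral_add_left measurable_const, setLIntegral_const, lintegral_const_mul _ hqm]
    have hX : ∫⁻ z in R, ‖fderiv ℝ (W n) z 1‖ₑ ≤ T := by
      rw [← hTeq]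
      exact lintegral_mono fun z => enorm_le_of_sq hε
    have hY : ∫⁻ z in R, ‖fderiv ℝ (W n) z Complex.I‖ₑ ≤ T := by
      rw [← hTeq]
      refine lintegral_mono fun z => ?_
      have := enorm_le_of_sq (p := fderiv ℝ (W n) z Complex.I) (q := fderiv ℝ (W n) z 1) hε
      rwa [add_comm (‖fderiv ℝ (W n) z Complex.I‖ ^ 2)] at this
    calc ‖d‖ₑ * (volume : Measure ℍ) O
        ≤ ENNReal.ofReal (c⁻¹ ^ 2) *
          (ENNReal.ofReal (M - -M) * (∫⁻ z in R, ‖fderiv ℝ (W n) z 1‖ₑ)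
            + ENNReal.ofReal (M - c) * (∫⁻ z in R, ‖fderiv ℝ (W n) z Complex.I‖ₑ)) := hb
      _ ≤ ENNReal.ofReal (c⁻¹ ^ 2) *
          (ENNReal.ofReal (M - -M) * T + ENNReal.ofReal (M - c) * T) := by
          gcongr
      _ = C * T := by rw [hC, ← add_mul, mul_assoc]
  -- let `n → ∞`
  have hstep : ∀ ε : ℝ, 0 < ε → ‖d‖ₑ * (volume : Measure ℍ) O ≤ C * (ENNReal.ofReal ε * V) := by
    intro ε hε
    have hcont : Continuous (fun x : ℝ≥0∞ =>
        C * (ENNReal.ofReal ε * V + ENNReal.ofReal (1 / (4 * ε)) * x)) :=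
      (ENNReal.continuous_const_mul hCfin).comp
        (continuous_const.add (ENNReal.continuous_const_mul ENNReal.ofReal_ne_top))
    have hlim' := (hcont.tendsto 0).comp hJlim
    have := ge_of_tendsto' hlim' (fun n => hmain n ε hε)
    simpa using this
  -- let `ε → 0`
  have hzero : ‖d‖ₑ * (volume : Measure ℍ) O ≤ 0 := by
    have hcont : Continuous (fun ε : ℝ => C * (ENNReal.ofReal ε * V)) :=
      (ENNReal.continuous_const_mul hCfin).comp
        ((ENNReal.continuous_mul_const hVfin).comp ENNReal.continuous_ofReal)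
    have hlim' : Tendsto (fun ε : ℝ => C * (ENNReal.ofReal ε * V)) (𝓝[>] 0) (𝓝 0) := by
      have := (hcont.tendsto 0).mono_left (nhdsWithin_le_nhds (s := Ioi (0 : ℝ)))
      simpa using this
    exact ge_of_tendsto hlim' (eventually_nhdsWithin_of_forall fun ε hε => hstep ε hε)
  have h0 : ‖d‖ₑ * (volume : Measure ℍ) O = 0 := le_antisymm hzero bot_le
  rcases mul_eq_zero.mp h0 with h | h
  · exact enorm_eq_zero.mp h
  · exact absurd h hμO

/-- The integrand of the frozen statement in terms of the real partial derivatives of the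
complexified difference. -/
theorem enorm_gradC_sub_sq {Ω v : ℍ → ℝ} (hΩ : SmoothH Ω) (hv : SmoothH v) (z : ℍ) :
    ‖gradC Ω z - gradC v z‖ₑ ^ 2
      = ENNReal.ofReal
        (‖fderiv ℝ (fun w : ℂ => ((Ω (ofComplex w) - v (ofComplex w) : ℝ) : ℂ)) ↑z 1‖ ^ 2
          + ‖fderiv ℝ (fun w : ℂ => ((Ω (ofComplex w) - v (ofComplex w) : ℝ) : ℂ)) ↑z
              Complex.I‖ ^ 2) := by
  have hmem : (↑z : ℂ) ∈ upperHalfPlaneSet := z.im_pos
  have hΩd : DifferentiableAt ℝ (Ω ∘ ofComplex) ↑z :=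
    (hΩ.differentiableOn (by simp)).differentiableAt (isOpen_upperHalfPlaneSet.mem_nhds hmem)
  have hvd : DifferentiableAt ℝ (v ∘ ofComplex) ↑z :=
    (hv.differentiableOn (by simp)).differentiableAt (isOpen_upperHalfPlaneSet.mem_nhds hmem)
  have hder : HasFDerivAt (fun w : ℂ => ((Ω (ofComplex w) - v (ofComplex w) : ℝ) : ℂ))
      (Complex.ofRealCLM.comp (fderiv ℝ (Ω ∘ ofComplex) ↑z - fderiv ℝ (v ∘ ofComplex) ↑z)) ↑z :=
    Complex.ofRealCLM.hasFDerivAt.comp (↑z : ℂ) (hΩd.hasFDerivAt.sub hvd.hasFDerivAt)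
  rw [hder.fderiv]
  simp only [ContinuousLinearMap.coe_comp, Function.comp_apply, Complex.ofRealCLM_apply,
    FunLike.coe_sub, Pi.sub_apply]
  set a₁ : ℝ := fderiv ℝ (Ω ∘ ofComplex) ↑z 1 with ha₁
  set a₂ : ℝ := fderiv ℝ (Ω ∘ ofComplex) ↑z Complex.I with ha₂
  set b₁ : ℝ := fderiv ℝ (v ∘ ofComplex) ↑z 1 with hb₁
  set b₂ : ℝ := fderiv ℝ (v ∘ ofComplex) ↑z Complex.I with hb₂
  have hg : gradC Ω z - gradC v z = ((a₁ - b₁ : ℝ) : ℂ) - Complex.I * ((a₂ - b₂ : ℝ) : ℂ) := by
    simp only [gradC, ← ha₁, ← ha₂, ← hb₁, ← hb₂]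
    push_cast
    ring
  have hn : ‖gradC Ω z - gradC v z‖ ^ 2 = (a₁ - b₁) ^ 2 + (a₂ - b₂) ^ 2 := by
    rw [hg, Complex.sq_norm, Complex.normSq_apply]
    simp only [Complex.sub_re, Complex.ofReal_re, Complex.mul_re, Complex.I_re, zero_mul,
      Complex.I_im, Complex.ofReal_im, mul_zero, sub_self, sub_zero, Complex.sub_im,
      Complex.mul_im, one_mul, zero_add, zero_sub]
    ring
  rw [← ofReal_norm, ← ENNReal.ofReal_pow (norm_nonneg _), hn]
  congr 1
  rw [Complex.norm_real, Complex.norm_real, Real.norm_eq_abs, Real.norm_eq_abs, sq_abs, sq_abs]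

end Fermat.Agent.S21.PeriodLimit

namespace Fermat.Agent.S21

open Set in
/-- R: periods of a local-`L²` limit of exact invariant forms vanish. -/
theorem period_eq_zero_of_tendsto (Ω : ℍ → ℝ) (hΩ : SmoothH Ω) (v : ℕ → ℍ → ℝ)
    (hv : ∀ n, SmoothH (v n)) (γ : SL(2, ℤ)) (hvγ : ∀ n z, v n (γ • z) = v n z)
    (c : ℝ) (hΩγ : ∀ z : ℍ, Ω (γ • z) = Ω z + c)
    (hlim : ∀ K : Set ℍ, IsCompact K →
      Tendsto (fun n => ∫⁻ z in K, ‖gradC Ω z - gradC (v n) z‖ₑ ^ 2) atTop (𝓝 0)) :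
    c = 0 := by
  have key : (c : ℂ) = 0 := by
    refine PeriodLimit.const_eq_zero_core
      (fun n w => ((Ω (ofComplex w) - v n (ofComplex w) : ℝ) : ℂ)) ?_ γ (c : ℂ) ?_ ?_
    · intro n
      have h1 : ContDiffOn ℝ 1 (fun w : ℂ => (Ω ∘ ofComplex) w - (v n ∘ ofComplex) w)
          upperHalfPlaneSet :=
        (ContDiffOn.sub (f := Ω ∘ ofComplex) (g := v n ∘ ofComplex) hΩ (hv n)).of_le
          (by exact_mod_cast le_top)
      exact Complex.ofRealCLM.contDiff.comp_contDiffOn h1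
    · intro n z
      simp only [ofComplex_apply]
      rw [hΩγ z, hvγ n z]
      push_cast
      ring
    · intro a b c' e hc'
      set R : Set ℂ := Icc a b ×ℂ Icc c' e with hR
      have hRmeas : MeasurableSet R := (isClosed_Icc.reProdIm isClosed_Icc).measurableSet
      have hRsub : R ⊆ upperHalfPlaneSet := fun z hz => lt_of_lt_of_le hc' hz.2.1
      have hRcompact : IsCompact R := isCompact_Icc.reProdIm isCompact_Icc
      have hRe : ∀ z ∈ R, z.im ≤ e := fun z hz => hz.2.2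
      set K : Set ℍ := UpperHalfPlane.coe ⁻¹' R with hK
      have hKcompact : IsCompact K := by
        refine isEmbedding_coe.isInducing.isCompact_preimage' hRcompact ?_
        intro z hz
        exact ⟨⟨z, hRsub hz⟩, rfl⟩
      have h0 := ENNReal.Tendsto.const_mul (a := ENNReal.ofReal (e ^ 2)) (hlim K hKcompact)
        (Or.inr ENNReal.ofReal_ne_top)
      rw [mul_zero] at h0
      refine tendsto_of_tendsto_of_tendsto_of_le_of_le tendsto_const_nhds h0
        (fun n => bot_le) (fun n => ?_)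
      have hqm : Measurable (fun z : ℂ => ENNReal.ofReal
          (‖fderiv ℝ (fun w : ℂ => ((Ω (ofComplex w) - v n (ofComplex w) : ℝ) : ℂ)) z 1‖ ^ 2
            + ‖fderiv ℝ (fun w : ℂ => ((Ω (ofComplex w) - v n (ofComplex w) : ℝ) : ℂ)) z
                Complex.I‖ ^ 2)) := by
        apply ENNReal.measurable_ofReal.comp
        exact ((measurable_fderiv_apply_const ℝ _ 1).norm.pow_const 2).add
          ((measurable_fderiv_apply_const ℝ _ Complex.I).norm.pow_const 2)
      have hb := PeriodLimit.setLIntegral_le_hyp hqm hRmeas hRsub hRe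
      refine hb.trans (le_of_eq ?_)
      congr 1
      refine lintegral_congr fun ζ => ?_
      exact (PeriodLimit.enorm_gradC_sub_sq hΩ (hv n) ζ).symm
  exact_mod_cast key

end Fermat.Agent.S21
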