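import Fermat.Agent.S21.Defs
import Fermat.Agent.S21.GradC
import Fermat.Agent.S21.Unfold
import Fermat.Agent.S21.Finite

/-!
# S21 leaf module `Periodize`

FROZEN STATEMENTS (PLAN v1 skeleton, helper21): both theorems below are PROVED here (helper8119).
Put every auxiliary declaration inside `namespace Fermat.Agent.S21.Periodize` (to avoid name
clashes with other leaf files).  Do not edit `Defs.lean`.  You may add imports of other
S21 leaf modules listed in PLAN v1 (respect the dependency order, no cycles).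
-/

set_option autoImplicit false

open ModularCurve ModularCurve.Period CongruenceSubgroup UpperHalfPlane MeasureTheory Filter Topology
open scoped MatrixGroups ComplexConjugate ContDiff ENNReal

namespace Fermat.Agent.S21

namespace Periodize

theorem tendsto_ofComplex (z : ℍ) : Tendsto ofComplex (𝓝 (z : ℂ)) (𝓝 z) := by
  rw [isOpenEmbedding_coe.isInducing.tendsto_nhds_iff]
  exact (tendsto_id).congr' (eventuallyEq_coe_comp_ofComplex z.im_pos).symm

/-- `gradC` only depends on the germ of the function. -/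
theorem gradC_congr {u v : ℍ → ℝ} {z : ℍ} (h : ∀ᶠ w in 𝓝 z, u w = v w) :
    gradC u z = gradC v z := by
  have h' : (u ∘ ofComplex) =ᶠ[𝓝 (z : ℂ)] (v ∘ ofComplex) := (tendsto_ofComplex z).eventually h
  unfold gradC
  rw [h'.fderiv_eq]

theorem gradC_eq_zero_of_notMem {φ : ℍ → ℝ} {w : ℍ} (hw : w ∉ tsupport φ) : gradC φ w = 0 := by
  have h : φ =ᶠ[𝓝 w] 0 := notMem_tsupport_iff_eventuallyEq.mp hw
  exact gradC_eq_zero_of_eventually_const (c := 0) (h.mono fun x hx => by simpa using hx)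

/-- Local finiteness of the `Γ₀(N)`-translates of a compact set. -/
theorem exists_finset (N : ℕ) {K : Set ℍ} (hK : IsCompact K) (z₀ : ℍ) :
    ∃ (U : Set ℍ) (S : Finset (Gamma0 N)), U ∈ 𝓝 z₀ ∧
      ∀ z ∈ U, ∀ γ : Gamma0 N, (γ : SL(2, ℤ)) • z ∈ K → γ ∈ S := by
  obtain ⟨U, hUc, hU⟩ := exists_compact_mem_nhds z₀
  have hfin := finite_smul_mem K U hK hUc
  have hfin' : {γ : Gamma0 N | ∃ z ∈ U, (γ : SL(2, ℤ)) • z ∈ K}.Finite :=
    hfin.preimage (f := Subtype.val) (Subtype.val_injective.injOn)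
  exact ⟨U, hfin'.toFinset, hU, fun z hz γ hγ => hfin'.mem_toFinset.mpr ⟨z, hz, hγ⟩⟩

theorem periodize_eq_sum (N : ℕ) {φ : ℍ → ℝ} {U : Set ℍ} {S : Finset (Gamma0 N)}
    (hS : ∀ z ∈ U, ∀ γ : Gamma0 N, (γ : SL(2, ℤ)) • z ∈ tsupport φ → γ ∈ S) {z : ℍ}
    (hz : z ∈ U) :
    periodize N φ z = ∑ γ ∈ S, φ ((γ : SL(2, ℤ)) • z) := by
  unfold periodize
  apply finsum_eq_sum_of_support_subset
  intro γ hγ
  exact Finset.mem_coe.mpr (hS z hz γ (subset_tsupport _ hγ))

theorem smoothH_periodize (N : ℕ) {φ : ℍ → ℝ} (hφ : SmoothH φ) (hc : HasCompactSupport φ) :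
    SmoothH (periodize N φ) := by
  intro w hw
  obtain ⟨U, S, hU, hS⟩ := exists_finset N hc (⟨w, hw⟩ : ℍ)
  have hsum : ContDiffOn ℝ ∞
      (fun x : ℂ => ∑ γ ∈ S, φ ((γ : SL(2, ℤ)) • ofComplex x)) upperHalfPlaneSet :=
    ContDiffOn.sum (fun γ _ => (hφ.comp_smul (γ : SL(2, ℤ))))
  have hev : ∀ᶠ x in 𝓝 w, ofComplex x ∈ U := (tendsto_ofComplex (⟨w, hw⟩ : ℍ)) hU
  refine (hsum w hw).congr_of_eventuallyEq ?_ ?_
  · filter_upwards [nhdsWithin_le_nhds hev] with x hx
    exact periodize_eq_sum N hS hx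
  · exact periodize_eq_sum N hS hev.self_of_nhds

theorem smoothH_gradC_finset_sum {ι : Type*} (S : Finset ι) (u : ι → ℍ → ℝ)
    (hu : ∀ i ∈ S, SmoothH (u i)) (z : ℍ) :
    SmoothH (fun w => ∑ i ∈ S, u i w) ∧
      gradC (fun w => ∑ i ∈ S, u i w) z = ∑ i ∈ S, gradC (u i) z := by
  classical
  induction S using Finset.induction_on with
  | empty =>
    refine ⟨?_, ?_⟩
    · simp only [Finset.sum_empty]
      exact (contDiffOn_const : ContDiffOn ℝ ∞ (fun _ : ℂ => (0 : ℝ)) upperHalfPlaneSet)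
    · simpa using gradC_eq_zero_of_eventually_const (u := fun _ => (0 : ℝ)) (c := 0) (z := z)
        (Eventually.of_forall fun _ => rfl)
  | insert a S ha ih =>
    have ih' := ih (fun i hi => hu i (Finset.mem_insert_of_mem hi))
    have ha' := hu a (Finset.mem_insert_self a S)
    refine ⟨?_, ?_⟩
    · simpa [Finset.sum_insert ha] using ha'.add ih'.1
    · have := gradC_add ha' ih'.1 z
      simp only [Finset.sum_insert ha]
      rw [this, ih'.2]

/-- The pointwise formula for the gradient of a periodization, as a finite sum. -/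
theorem gradC_periodize_finset (N : ℕ) {φ : ℍ → ℝ} (hφ : SmoothH φ) (hc : HasCompactSupport φ)
    (z : ℍ) :
    ∃ S : Finset (Gamma0 N), (∀ γ : Gamma0 N, γ ∉ S → (γ : SL(2, ℤ)) • z ∉ tsupport φ) ∧
      gradC (periodize N φ) z
        = ∑ γ ∈ S, gradC φ ((γ : SL(2, ℤ)) • z) / denom (γ : SL(2, ℤ)) z ^ 2 := by
  obtain ⟨U, S, hU, hS⟩ := exists_finset N hc z
  refine ⟨S, fun γ hγ hmem => hγ (hS z (mem_of_mem_nhds hU) γ hmem), ?_⟩
  have h1 : gradC (periodize N φ) z
      = gradC (fun w => ∑ γ ∈ S, φ ((γ : SL(2, ℤ)) • w)) z :=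
    gradC_congr (Filter.mem_of_superset hU fun w hw => periodize_eq_sum N hS hw)
  rw [h1, (smoothH_gradC_finset_sum S (fun γ w => φ ((γ : SL(2, ℤ)) • w))
    (fun γ _ => hφ.comp_smul (γ : SL(2, ℤ))) z).2]
  exact Finset.sum_congr rfl fun γ _ => gradC_comp_smul hφ (γ : SL(2, ℤ)) z

theorem periodize_smul (N : ℕ) (φ : ℍ → ℝ) (γ₀ : Gamma0 N) (z : ℍ) :
    periodize N φ ((γ₀ : SL(2, ℤ)) • z) = periodize N φ z := by
  unfold periodize
  rw [← finsum_comp_equiv (Equiv.mulRight γ₀) (f := fun γ : Gamma0 N => φ ((γ : SL(2, ℤ)) • z))]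
  refine finsum_congr fun γ => ?_
  simp [mul_smul]

/-- invariance of the energy density -/
theorem density_smul {N : ℕ} {G : ℍ → ℂ} (hinv : IsWeightTwoInv N G) (γ : Gamma0 N) (z : ℍ) :
    ((γ : SL(2, ℤ)) • z).im ^ 2 * ‖G ((γ : SL(2, ℤ)) • z)‖ ^ 2 = z.im ^ 2 * ‖G z‖ ^ 2 := by
  rw [hinv γ z, ModularGroup.im_smul_eq_div_normSq, norm_mul, norm_pow, Complex.normSq_eq_norm_sq]
  have h0 : ‖denom (γ : SL(2, ℤ)) z‖ ≠ 0 := norm_ne_zero_iff.mpr (denom_ne_zero _ z)
  field_simp

theorem energy_periodize_lt_top {N : ℕ} [NeZero N] {W : ℍ → ℝ} (hW : IsPartitionWeight N W)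
    (φ : ℍ → ℝ) (hφ : SmoothH φ) (hc : HasCompactSupport φ) :
    energy W (gradC (periodize N φ)) < ⊤ := by
  have hsm : SmoothH (periodize N φ) := smoothH_periodize N hφ hc
  have hG : Continuous (gradC (periodize N φ)) := continuous_gradC hsm
  have hinv : IsWeightTwoInv N (gradC (periodize N φ)) :=
    isWeightTwoInv_gradC hsm (fun γ => ⟨0, fun z => by rw [periodize_smul, add_zero]⟩)
  set h : ℍ → ℝ := fun z => z.im ^ 2 * ‖gradC (periodize N φ) z‖ ^ 2 with hh
  have hcont : Continuous h := (UpperHalfPlane.continuous_im.pow 2).mul (hG.norm.pow 2)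
  have hh_inv : ∀ (γ : Gamma0 N) (z : ℍ), h ((γ : SL(2, ℤ)) • z) = h z :=
    fun γ z => density_smul hinv γ z
  have hKc : IsCompact (tsupport φ) := hc
  have hle : ∀ z, ENNReal.ofReal (h z) ≤ ∑' γ : Gamma0 N,
      (tsupport φ).indicator (fun w => ENNReal.ofReal (h w)) ((γ : SL(2, ℤ)) • z) := by
    intro z
    by_cases hz : ∃ γ : Gamma0 N, (γ : SL(2, ℤ)) • z ∈ tsupport φ
    · obtain ⟨γ, hγ⟩ := hz
      calc ENNReal.ofReal (h z)
          = (tsupport φ).indicator (fun w => ENNReal.ofReal (h w)) ((γ : SL(2, ℤ)) • z) := by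
            rw [Set.indicator_of_mem hγ, hh_inv]
        _ ≤ _ := ENNReal.le_tsum γ
    · have hz' : ∀ γ : Gamma0 N, (γ : SL(2, ℤ)) • z ∉ tsupport φ := fun γ hγ => hz ⟨γ, hγ⟩
      have h0 : gradC (periodize N φ) z = 0 := by
        obtain ⟨S, -, hS⟩ := gradC_periodize_finset N hφ hc z
        rw [hS]
        refine Finset.sum_eq_zero fun γ _ => ?_
        rw [gradC_eq_zero_of_notMem (hz' γ), zero_div]
      simp [hh, h0]
  have hE : energy W (gradC (periodize N φ))
      = ∫⁻ z : ℍ, ENNReal.ofReal (W z) * ENNReal.ofReal (h z) := by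
    unfold energy
    refine lintegral_congr fun z => ?_
    rw [hh, ENNReal.ofReal_mul (hW.pos z).le, ENNReal.ofReal_mul (by positivity),
      ENNReal.ofReal_pow (norm_nonneg _), ofReal_norm, mul_assoc]
  rw [hE]
  calc ∫⁻ z : ℍ, ENNReal.ofReal (W z) * ENNReal.ofReal (h z)
      ≤ ∫⁻ z : ℍ, ENNReal.ofReal (W z) * ∑' γ : Gamma0 N,
          (tsupport φ).indicator (fun w => ENNReal.ofReal (h w)) ((γ : SL(2, ℤ)) • z) :=
        lintegral_mono fun z => by gcongr; exact hle z
    _ = ∫⁻ z : ℍ, (tsupport φ).indicator (fun w => ENNReal.ofReal (h w)) z :=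
        lintegral_unfold hW _
          ((ENNReal.measurable_ofReal.comp hcont.measurable).indicator hKc.measurableSet)
    _ = ∫⁻ z in tsupport φ, ENNReal.ofReal (h z) := lintegral_indicator hKc.measurableSet _
    _ < ⊤ := (hcont.continuousOn.integrableOn_compact hKc).lintegral_lt_top

end Periodize

open Periodize in
/-- P1: the periodization of a test function is admissible. -/
theorem periodize_admissible {N : ℕ} [NeZero N] {W : ℍ → ℝ} (hW : IsPartitionWeight N W)
    (φ : ℍ → ℝ) (hφ : SmoothH φ) (hc : HasCompactSupport φ) :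
    IsAdmissible N W (periodize N φ) :=
  ⟨smoothH_periodize N hφ hc, fun γ z => periodize_smul N φ γ z,
    energy_periodize_lt_top hW φ hφ hc⟩

open Periodize in
/-- P2: unfolding of the pairing against a periodized test function. -/
theorem pairing_periodize {N : ℕ} [NeZero N] {W : ℍ → ℝ} (hW : IsPartitionWeight N W)
    (φ : ℍ → ℝ) (hφ : SmoothH φ) (hc : HasCompactSupport φ)
    (g : ℍ → ℂ) (hg : Continuous g) (hinv : IsWeightTwoInv N g) :
    pairing W g (gradC (periodize N φ)) = pairing (fun _ => 1) g (gradC φ) := by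
  set Θ : ℍ → ℂ := fun w => ((w.im ^ 2 : ℝ) : ℂ) * (g w * conj (gradC φ w)) with hΘ
  have hΘc : Continuous Θ :=
    (Complex.continuous_ofReal.comp (UpperHalfPlane.continuous_im.pow 2)).mul
      (hg.mul (Complex.continuous_conj.comp (continuous_gradC hφ)))
  have hΘs : HasCompactSupport Θ :=
    HasCompactSupport.intro hc (fun x hx => by simp [hΘ, gradC_eq_zero_of_notMem hx])
  have hΘint : Integrable Θ := hΘc.integrable_of_hasCompactSupport hΘs
  have key : ∀ z : ℍ, ((W z * z.im ^ 2 : ℝ) : ℂ) * (g z * conj (gradC (periodize N φ) z))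
      = (W z : ℂ) * ∑' γ : Gamma0 N, Θ ((γ : SL(2, ℤ)) • z) := by
    intro z
    obtain ⟨S, hS0, hS⟩ := gradC_periodize_finset N hφ hc z
    have htsum : ∑' γ : Gamma0 N, Θ ((γ : SL(2, ℤ)) • z) = ∑ γ ∈ S, Θ ((γ : SL(2, ℤ)) • z) :=
      tsum_eq_sum fun γ hγ => by
        simp only [hΘ]
        rw [gradC_eq_zero_of_notMem (hS0 γ hγ)]
        simp
    rw [htsum, hS, map_sum, Finset.mul_sum, Finset.mul_sum, Finset.mul_sum]
    refine Finset.sum_congr rfl fun γ _ => ?_
    have hd : denom (γ : SL(2, ℤ)) z ≠ 0 := denom_ne_zero _ z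
    have hd' : conj (denom (γ : SL(2, ℤ)) z) ≠ 0 := (map_ne_zero _).mpr hd
    simp only [hΘ]
    rw [hinv γ z, ModularGroup.im_smul_eq_div_normSq, map_div₀, map_pow]
    push_cast
    rw [Complex.normSq_eq_conj_mul_self]
    field_simp
  unfold pairing
  rw [integral_congr_ae (Eventually.of_forall key), (integral_unfold hW Θ hΘint).2]
  refine integral_congr_ae (Eventually.of_forall fun z => ?_)
  simp [hΘ]

end Fermat.Agent.S21
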