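import Fermat.Agent.S21.Defs
import Fermat.Prelude.Thm_Subgroup_IsArithmetic_exists_nat_mem_strictPeriods_conj

/-!
# S21 leaf module `Primitive` (T1, proved by helper1946; no open goals left)

Auxiliary declarations live in `namespace Fermat.Agent.S21.Primitive`.

Proof: for every `δ : SL(2, ℤ)` the function `f ∣[2] δ` is holomorphic, periodic
and vanishes at `i∞`, so it has a primitive `G δ` tending to `0` at `i∞` (integrate the
`q`-expansion: `G = (h / 2πi) Ψ(q)` with `Ψ' = φ(q)/q`, `φ` the cusp function).  `F = G 1`.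
For every `δ`, `F (δ • w) - G δ w` has derivative `0`, hence is constant: this gives both the
equivariance (`δ ∈ Γ₀(N)`) and the limits at all cusps.

Reusable: `Primitive.exists_primitive_of_periodic`, `Primitive.exists_const_of_slash`,
`Primitive.slash_props`, `Primitive.isOpen_upperSet`, `Primitive.convex_upperSet`.
-/

set_option autoImplicit false

open ModularCurve ModularCurve.Period CongruenceSubgroup UpperHalfPlane MeasureTheory Filter Topology
open scoped MatrixGroups ComplexConjugate ContDiff ENNReal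

namespace Fermat.Agent.S21

namespace Primitive

open Complex Function
open scoped Real Manifold ModularForm

local notation "𝕢" => Periodic.qParam

/-- Eichler integral: a holomorphic `h`-periodic function on `ℍ` vanishing at `i∞` has a
primitive tending to `0` at `i∞`. -/
theorem exists_primitive_of_periodic {g : ℍ → ℂ} {h : ℝ} (hh : 0 < h)
    (hper : Periodic (g ∘ ofComplex) h) (hhol : MDiff g) (hzero : IsZeroAtImInfty g) :
    ∃ G : ℍ → ℂ, (∀ τ : ℍ, HasDerivAt (G ∘ ofComplex) (g τ) ↑τ) ∧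
      Tendsto G atImInfty (𝓝 0) := by
  have hbdd : IsBoundedAtImInfty g := hzero.isBoundedAtImInfty
  set φ : ℂ → ℂ := cuspFunction h g with hφ
  have hφdiff : DifferentiableOn ℂ φ (Metric.ball 0 1) :=
    differentiableOn_cuspFunction_ball hh hper hhol hbdd
  have hφ0 : φ 0 = 0 := by
    rw [hφ, cuspFunction_apply_zero hh (analyticAt_cuspFunction_zero hh hper hhol hbdd) hper]
    exact hzero.valueAtInfty_eq_zero
  have hball : Metric.ball (0 : ℂ) 1 ∈ 𝓝 (0 : ℂ) := Metric.ball_mem_nhds 0 zero_lt_one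
  have hψdiff : DifferentiableOn ℂ (dslope φ 0) (Metric.ball 0 1) :=
    (Complex.differentiableOn_dslope hball).mpr hφdiff
  obtain ⟨Ψ, hΨ0, hΨ⟩ := (hψdiff.isExactOn_ball).with_val_at 0 0
  refine ⟨fun τ => (h / (2 * π * Complex.I)) * Ψ (𝕢 h τ), fun τ => ?_, ?_⟩
  · -- derivative
    have hq : 𝕢 h (τ : ℂ) ∈ Metric.ball (0 : ℂ) 1 := by
      simpa using Periodic.norm_qParam_lt_one hh τ.im_pos
    have hqne : 𝕢 h (τ : ℂ) ≠ 0 := Periodic.qParam_ne_zero _
    have h1 : HasDerivAt Ψ (dslope φ 0 (𝕢 h τ)) (𝕢 h τ) := hΨ _ hq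
    have h2 : HasDerivAt (𝕢 h) (𝕢 h τ * (2 * π * Complex.I / h)) (τ : ℂ) := by
      have h3 : HasDerivAt (fun x : ℂ => cexp (2 * π * Complex.I * x / h))
          (cexp (2 * π * Complex.I * τ / h) * (2 * π * Complex.I / h)) (τ : ℂ) := by
        have := ((hasDerivAt_id (τ : ℂ)).const_mul (2 * π * Complex.I)).div_const (h : ℂ)
        simpa using this.cexp
      exact h3
    have h4 := (h1.comp (τ : ℂ) h2).const_mul (h / (2 * π * Complex.I))
    have hval : (h / (2 * π * Complex.I)) * (dslope φ 0 (𝕢 h τ) * (𝕢 h τ * (2 * π * Complex.I / h))) = g τ := by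
      rw [dslope_of_ne _ hqne, slope_def_field, hφ0, sub_zero, sub_zero]
      have hh' : (h : ℂ) ≠ 0 := by exact_mod_cast hh.ne'
      have hpi : (2 * π * Complex.I : ℂ) ≠ 0 := by simp [Real.pi_ne_zero]
      have : φ (𝕢 h τ) = g τ := eq_cuspFunction τ hh.ne' hper
      rw [this]
      field_simp
    rw [hval] at h4
    refine h4.congr_of_eventuallyEq ?_
    have hopen : {z : ℂ | 0 < z.im} ∈ 𝓝 (τ : ℂ) :=
      (isOpen_lt continuous_const Complex.continuous_im).mem_nhds τ.im_pos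
    filter_upwards [hopen] with z hz
    simp only [comp_apply]
    rw [ofComplex_apply_of_im_pos hz]
  · -- limit
    have hcont : ContinuousAt Ψ 0 := (hΨ 0 (Metric.mem_ball_self zero_lt_one)).continuousAt
    have h1 : Tendsto (fun τ : ℍ => Ψ (𝕢 h τ)) atImInfty (𝓝 (Ψ 0)) :=
      hcont.tendsto.comp (qParam_tendsto_atImInfty hh)
    rw [hΨ0] at h1
    simpa using h1.const_mul (h / (2 * π * Complex.I))

/-- The open upper half plane as a subset of `ℂ` is open. -/
theorem isOpen_upperSet : IsOpen {z : ℂ | 0 < z.im} :=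
  isOpen_lt continuous_const Complex.continuous_im

theorem convex_upperSet : Convex ℝ {z : ℂ | 0 < z.im} := by
  intro x hx y hy a b ha hb hab
  simp only [Set.mem_ofPred_eq, Complex.add_im, Complex.smul_im, smul_eq_mul] at *
  rcases ha.eq_or_lt with rfl | ha'
  · simp at hab; subst hab; simpa using hy
  · have := mul_pos ha' hx
    have := mul_nonneg hb hy.le
    linarith

/-- If `F₁`, `F₂` are primitives of `g₁` and `g₂ = g₁ ∣[2] δ`, then `F₁ (δ • w) - F₂ w`
is constant. -/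
theorem exists_const_of_slash {F₁ F₂ g₁ g₂ : ℍ → ℂ} (δ : SL(2, ℤ))
    (h₁ : ∀ τ : ℍ, HasDerivAt (F₁ ∘ ofComplex) (g₁ τ) ↑τ)
    (h₂ : ∀ τ : ℍ, HasDerivAt (F₂ ∘ ofComplex) (g₂ τ) ↑τ)
    (hg : g₂ = g₁ ∣[(2 : ℤ)] δ) :
    ∃ c : ℂ, ∀ w : ℍ, F₁ (δ • w) - F₂ w = c := by
  set a : ℂ := ((δ 0 0 : ℤ) : ℂ) with ha
  set b : ℂ := ((δ 0 1 : ℤ) : ℂ) with hb
  set c : ℂ := ((δ 1 0 : ℤ) : ℂ) with hc
  set d : ℂ := ((δ 1 1 : ℤ) : ℂ) with hd
  have hdet : a * d - b * c = 1 := by
    have := δ.det_coe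
    rw [Matrix.det_fin_two] at this
    have h2 : ((δ 0 0 * δ 1 1 - δ 0 1 * δ 1 0 : ℤ) : ℂ) = 1 := by exact_mod_cast this
    simp only [ha, hb, hc, hd]
    push_cast at h2
    linear_combination h2
  set m : ℂ → ℂ := fun z => (a * z + b) / (c * z + d) with hm
  set Φ : ℂ → ℂ := fun z => (F₁ ∘ ofComplex) (m z) - (F₂ ∘ ofComplex) z with hΦ
  have hsmul : ∀ τ : ℍ, ((δ • τ : ℍ) : ℂ) = m τ := by
    intro τ
    rw [coe_specialLinearGroup_apply]
    simp [hm, ha, hb, hc, hd]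
  have hden : ∀ τ : ℍ, c * τ + d = denom δ τ := by
    intro τ
    simp [denom, hc, hd]
  have hderiv : ∀ τ : ℍ, HasDerivAt Φ 0 (τ : ℂ) := by
    intro τ
    have hne : c * (τ : ℂ) + d ≠ 0 := by rw [hden]; exact denom_ne_zero δ τ
    have hm' : HasDerivAt m (1 / (c * τ + d) ^ 2) (τ : ℂ) := by
      have hn : HasDerivAt (fun z : ℂ => a * z + b) a (τ : ℂ) := by
        simpa using ((hasDerivAt_id (τ : ℂ)).const_mul a).add_const b
      have hd' : HasDerivAt (fun z : ℂ => c * z + d) c (τ : ℂ) := by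
        simpa using ((hasDerivAt_id (τ : ℂ)).const_mul c).add_const d
      have h5 := hn.div hd' hne
      have e : (a * (c * (τ : ℂ) + d) - (a * τ + b) * c) / (c * τ + d) ^ 2 = 1 / (c * τ + d) ^ 2 := by
        congr 1
        linear_combination hdet
      rw [e] at h5
      exact h5
    have h1 : HasDerivAt (F₁ ∘ ofComplex) (g₁ (δ • τ)) (m τ) := by
      rw [← hsmul]; exact h₁ (δ • τ)
    have h3 := (h1.comp (τ : ℂ) hm').sub (h₂ τ)
    have hval : g₁ (δ • τ) * (1 / (c * τ + d) ^ 2) - g₂ τ = 0 := by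
      rw [hg, ModularForm.SL_slash_apply, hden]
      rw [zpow_neg, ← hden]
      have : ((c * (τ : ℂ) + d) ^ (2 : ℤ)) = (c * τ + d) ^ 2 := by norm_cast
      rw [this]
      ring
    rw [hval] at h3
    exact h3
  have hconst : ∀ x ∈ {z : ℂ | 0 < z.im}, ∀ y ∈ {z : ℂ | 0 < z.im}, Φ x = Φ y := by
    intro x hx y hy
    refine isOpen_upperSet.is_const_of_deriv_eq_zero convex_upperSet.isPreconnected ?_ ?_ hx hy
    · intro z hz
      exact (hderiv ⟨z, hz⟩).differentiableAt.differentiableWithinAt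
    · intro z hz
      exact (hderiv ⟨z, hz⟩).deriv
  refine ⟨Φ (UpperHalfPlane.I : ℍ), fun w => ?_⟩
  rw [← hconst w w.im_pos _ (UpperHalfPlane.I).im_pos]
  simp only [hΦ, comp_apply, ← hsmul, ofComplex_apply]

theorem slash_props (N : ℕ) [NeZero N] (f : CuspForm (Gamma0 N) 2) :
    ∃ M : ℕ, 0 < M ∧ ∀ δ : SL(2, ℤ), Periodic ((⇑f ∣[(2 : ℤ)] δ) ∘ ofComplex) (M : ℝ) ∧
      MDiff (⇑f ∣[(2 : ℤ)] δ) ∧ IsZeroAtImInfty (⇑f ∣[(2 : ℤ)] δ) := by
  obtain ⟨M, hM, hper⟩ := Subgroup.IsArithmetic.exists_nat_mem_strictPeriods_conj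
    (Subgroup.map (Matrix.SpecialLinearGroup.mapGL ℝ) (Gamma0 N))
  refine ⟨M, hM, fun δ => ⟨?_, ?_, ?_⟩⟩
  · have h1 := hper δ⁻¹
    have h2 := SlashInvariantFormClass.periodic_comp_ofComplex
      (CuspForm.translate f (Matrix.SpecialLinearGroup.mapGL ℝ δ)) (h := (M : ℝ)) (by
        rw [map_inv] at h1
        exact h1)
    exact h2
  · exact (CuspFormClass.holo f).slash 2 _
  · exact CuspFormClass.zero_at_infty_slash f δ

end Primitive

open Complex Function in
open scoped Real Manifold ModularForm in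
/-- T1 -/
theorem exists_primitive (N : ℕ) [NeZero N] (f : CuspForm (Gamma0 N) 2) :
    ∃ F : ℍ → ℂ, HasEquivariantPrimitive N f F := by
  obtain ⟨M, hM, hprops⟩ := Primitive.slash_props N f
  have hex : ∀ δ : SL(2, ℤ), ∃ G : ℍ → ℂ,
      (∀ τ : ℍ, HasDerivAt (G ∘ ofComplex) ((⇑f ∣[(2 : ℤ)] δ) τ) ↑τ) ∧
        Tendsto G atImInfty (𝓝 0) := fun δ =>
    Primitive.exists_primitive_of_periodic (by positivity) (hprops δ).1 (hprops δ).2.1 (hprops δ).2.2
  choose G hG hG0 using hex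
  have hone : (⇑f ∣[(2 : ℤ)] (1 : SL(2, ℤ))) = ⇑f := by
    rw [ModularForm.SL_slash]; simp
  have hG1 : ∀ τ : ℍ, HasDerivAt (G 1 ∘ ofComplex) (f τ) ↑τ := by
    intro τ
    have := hG 1 τ
    rwa [hone] at this
  refine ⟨G 1, hG1, hG0 1, ?_, ?_⟩
  · intro γ
    have hγ : (⇑f ∣[(2 : ℤ)] (γ : SL(2, ℤ))) = ⇑f := by
      rw [ModularForm.SL_slash]
      exact SlashInvariantFormClass.slash_action_eq f _ (Subgroup.mem_map_of_mem _ γ.2)
    exact Primitive.exists_const_of_slash (γ : SL(2, ℤ)) hG1 hG1 hγ.symm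
  · intro δ
    obtain ⟨c, hc⟩ := Primitive.exists_const_of_slash δ hG1 (hG δ) rfl
    refine ⟨c, ?_⟩
    have h1 : Tendsto (fun w : ℍ => G δ w + c) atImInfty (𝓝 (0 + c)) :=
      (hG0 δ).add_const c
    rw [zero_add] at h1
    refine h1.congr fun w => ?_
    rw [← hc w]; ring

end Fermat.Agent.S21
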