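import Mathlib
import Fermat.Prelude.Def_ModularCurve_PeriodHomPair

set_option autoImplicit false

open ModularCurve ModularCurve.Period CongruenceSubgroup UpperHalfPlane Filter Topology
open scoped MatrixGroups ComplexConjugate

namespace Fermat.Agent.S21

/-- Two equivariant primitives of the same cusp form coincide (only the derivative
and the normalisation at `i∞` are used). -/
theorem primitive_unique {N : ℕ} {f : CuspForm (Gamma0 N) 2} {F₁ F₂ : ℍ → ℂ}
    (h₁ : HasEquivariantPrimitive N f F₁) (h₂ : HasEquivariantPrimitive N f F₂) : F₁ = F₂ := by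
  have hconn : IsPreconnected upperHalfPlaneSet :=
    (Complex.isConnected_of_upperHalfPlane (r := 0) subset_rfl
      (fun z (hz : 0 < z.im) => (le_of_lt hz : 0 ≤ z.im))).isPreconnected
  have hd₁ : DifferentiableOn ℂ (F₁ ∘ ofComplex) upperHalfPlaneSet := fun z hz =>
    (by simpa using (h₁.1 ⟨z, hz⟩).differentiableAt.differentiableWithinAt)
  have hd₂ : DifferentiableOn ℂ (F₂ ∘ ofComplex) upperHalfPlaneSet := fun z hz =>
    (by simpa using (h₂.1 ⟨z, hz⟩).differentiableAt.differentiableWithinAt)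
  have hderiv : Set.EqOn (deriv (fun z => (F₁ ∘ ofComplex) z - (F₂ ∘ ofComplex) z)) 0
      upperHalfPlaneSet := by
    intro z hz
    have e₁ := h₁.1 ⟨z, hz⟩
    have e₂ := h₂.1 ⟨z, hz⟩
    have e₃ := (e₁.sub e₂).deriv
    simp only [sub_self] at e₃
    exact e₃
  have hconst : ∀ z w : ℍ, F₁ z - F₂ z = F₁ w - F₂ w := by
    intro z w
    have := IsOpen.is_const_of_deriv_eq_zero isOpen_upperHalfPlaneSet hconn (hd₁.sub hd₂) hderiv
      (x := (z : ℂ)) (y := (w : ℂ)) z.2 w.2
    simpa using this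
  have hlim : Tendsto (fun z : ℍ => F₁ z - F₂ z) atImInfty (𝓝 0) := by
    simpa using h₁.2.1.sub h₂.2.1
  funext z
  have hc : Tendsto (fun _ : ℍ => F₁ z - F₂ z) atImInfty (𝓝 (F₁ z - F₂ z)) := tendsto_const_nhds
  have heq : (fun w : ℍ => F₁ w - F₂ w) = fun _ : ℍ => F₁ z - F₂ z := by
    funext w; exact hconst w z
  rw [heq] at hlim
  have : F₁ z - F₂ z = 0 := tendsto_nhds_unique hc hlim
  exact sub_eq_zero.mp this


/-- The period map is computed by any equivariant primitive. -/
theorem periodMap_eq {N : ℕ} {f : CuspForm (Gamma0 N) 2} {F : ℍ → ℂ}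
    (hF : HasEquivariantPrimitive N f F) : periodMap N f = hF.2.2.1.periodHom := by
  obtain ⟨F₀, h₀, e⟩ := periodMap_def N f hF
  have h : F₀ = F := primitive_unique h₀ hF
  subst h
  exact e

theorem periodMap_apply {N : ℕ} {f : CuspForm (Gamma0 N) 2} {F : ℍ → ℂ}
    (hF : HasEquivariantPrimitive N f F) (γ : Gamma0 N) :
    periodMap N f (Additive.ofMul γ)
      = F ((γ : SL(2, ℤ)) • UpperHalfPlane.I) - F UpperHalfPlane.I := by
  rw [periodMap_eq hF]; rfl

theorem hasPrim_add {N : ℕ} {f g : CuspForm (Gamma0 N) 2} {F G : ℍ → ℂ}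
    (hF : HasEquivariantPrimitive N f F) (hG : HasEquivariantPrimitive N g G) :
    HasEquivariantPrimitive N (f + g) (fun z => F z + G z) := by
  refine ⟨fun τ => ?_, ?_, fun γ => ?_, fun δ => ?_⟩
  · have := (hF.1 τ).add (hG.1 τ)
    exact this
  · simpa using hF.2.1.add hG.2.1
  · obtain ⟨c, hc⟩ := hF.2.2.1 γ
    obtain ⟨d, hd⟩ := hG.2.2.1 γ
    refine ⟨c + d, fun z => ?_⟩
    rw [← hc z, ← hd z]; ring
  · obtain ⟨L, hL⟩ := hF.2.2.2 δ
    obtain ⟨M, hM⟩ := hG.2.2.2 δ
    exact ⟨L + M, by simpa using hL.add hM⟩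

theorem hasPrim_smul {N : ℕ} {f : CuspForm (Gamma0 N) 2} {F : ℍ → ℂ} (c : ℂ)
    (hF : HasEquivariantPrimitive N f F) :
    HasEquivariantPrimitive N (c • f) (fun z => c * F z) := by
  refine ⟨fun τ => ?_, ?_, fun γ => ?_, fun δ => ?_⟩
  · have := (hF.1 τ).const_smul c
    exact this
  · simpa using hF.2.1.const_smul c
  · obtain ⟨d, hd⟩ := hF.2.2.1 γ
    refine ⟨c * d, fun z => ?_⟩
    rw [← hd z]; ring
  · obtain ⟨L, hL⟩ := hF.2.2.2 δ
    exact ⟨c • L, by simpa using hL.const_smul c⟩


theorem periodMap_add {N : ℕ}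
    (h1 : ∀ f : CuspForm (Gamma0 N) 2, ∃ F : ℍ → ℂ, HasEquivariantPrimitive N f F)
    (f g : CuspForm (Gamma0 N) 2) :
    periodMap N (f + g) = periodMap N f + periodMap N g := by
  obtain ⟨F, hF⟩ := h1 f
  obtain ⟨G, hG⟩ := h1 g
  refine AddMonoidHom.ext fun γ => ?_
  have e1 := periodMap_apply (hasPrim_add hF hG) (Additive.toMul γ)
  have e2 := periodMap_apply hF (Additive.toMul γ)
  have e3 := periodMap_apply hG (Additive.toMul γ)
  simp only [ofMul_toMul] at e1 e2 e3
  rw [AddMonoidHom.add_apply, e1, e2, e3]; ring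

theorem periodMap_smul {N : ℕ}
    (h1 : ∀ f : CuspForm (Gamma0 N) 2, ∃ F : ℍ → ℂ, HasEquivariantPrimitive N f F)
    (c : ℂ) (f : CuspForm (Gamma0 N) 2) :
    periodMap N (c • f) = c • periodMap N f := by
  obtain ⟨F, hF⟩ := h1 f
  refine AddMonoidHom.ext fun γ => ?_
  have e1 := periodMap_apply (hasPrim_smul c hF) (Additive.toMul γ)
  have e2 := periodMap_apply hF (Additive.toMul γ)
  simp only [ofMul_toMul] at e1 e2
  rw [AddMonoidHom.smul_apply, e1, e2, smul_eq_mul]; ring

theorem existsPeriodMapLinear_of {N : ℕ}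
    (h1 : ∀ f : CuspForm (Gamma0 N) 2, ∃ F : ℍ → ℂ, HasEquivariantPrimitive N f F) :
    ExistsPeriodMapLinear N :=
  ⟨{ toFun := periodMap N
     map_add' := periodMap_add h1
     map_smul' := periodMap_smul h1 }, fun _ => rfl⟩


/-- **Reduction of S21** to five analytic inputs:
* `h1` existence of equivariant primitives (T1);
* `h4` periods vanish on parabolic elements (T4);
* `h5` complex conjugation of periods is realised by a cusp form (T5);
* `h6` injectivity core (T6);
* `h7` real Hodge surjectivity (T7). -/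
theorem result_of {N : ℕ}
    (h1 : ∀ f : CuspForm (Gamma0 N) 2, ∃ F : ℍ → ℂ, HasEquivariantPrimitive N f F)
    (h4 : ∀ f : CuspForm (Gamma0 N) 2, periodMap N f ∈ parabolicHoms ℂ (Gamma0 N) ℂ)
    (h5 : ∀ f : CuspForm (Gamma0 N) 2, ∃ f' : CuspForm (Gamma0 N) 2, ∀ γ : Gamma0 N,
      periodMap N f' (Additive.ofMul (jConjGamma0 N γ))
        = - conj (periodMap N f (Additive.ofMul γ)))
    (h6 : ∀ a b : CuspForm (Gamma0 N) 2,
      (∀ γ : Gamma0 N, periodMap N a (Additive.ofMul γ)
        = conj (periodMap N b (Additive.ofMul γ))) → a = 0 ∧ b = 0)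
    (h7 : ∀ ψ : Additive (Gamma0 N) →+ ℝ, IsParabolicHom (Gamma0 N) ψ →
      ∃ f : CuspForm (Gamma0 N) 2, ∀ γ : Gamma0 N,
        (periodMap N f (Additive.ofMul γ)).re = ψ (Additive.ofMul γ)) :
    Function.Injective (periodHomPair N)
      ∧ LinearMap.range (periodHomPair N) = parabolicHoms ℂ (Gamma0 N) ℂ := by
  obtain ⟨pml, hpml, hpair⟩ := periodHomPair_def N (existsPeriodMapLinear_of h1)
  -- pointwise formula for the pair map
  have hval : ∀ (f g : CuspForm (Gamma0 N) 2) (γ : Gamma0 N),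
      periodHomPair N (f, g) (Additive.ofMul γ)
        = periodMap N (f + g) (Additive.ofMul γ)
          + periodMap N (f - g) (Additive.ofMul (jConjGamma0 N γ)) := by
    intro f g γ
    rw [hpair, ← hpml, ← hpml, map_add, map_sub]
    simp only [LinearMap.coprod_apply, LinearMap.comp_apply, LinearMap.add_apply,
      LinearMap.sub_apply, LinearMap.id_apply, AddMonoidHom.add_apply, AddMonoidHom.sub_apply,
      charInvolution_apply, toMul_ofMul]
    ring
  have hzero : periodMap N (0 : CuspForm (Gamma0 N) 2) = 0 := by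
    rw [← hpml, map_zero]
  refine ⟨?_, ?_⟩
  · -- injectivity
    rw [injective_iff_map_eq_zero]
    rintro ⟨f, g⟩ hfg
    have hker : ∀ γ : Gamma0 N, periodMap N (f + g) (Additive.ofMul γ)
          + periodMap N (f - g) (Additive.ofMul (jConjGamma0 N γ)) = 0 := by
      intro γ
      rw [← hval f g γ, hfg]; rfl
    obtain ⟨v', hv'⟩ := h5 (f - g)
    -- P v' γ = conj (P u γ)
    have key : ∀ γ : Gamma0 N, periodMap N v' (Additive.ofMul γ)
        = conj (periodMap N (f + g) (Additive.ofMul γ)) := by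
      intro γ
      have e1 := hv' (jConjGamma0 N γ)
      rw [jConjGamma0_jConjGamma0] at e1
      have e2 := hker γ
      rw [e1]
      have : periodMap N (f - g) (Additive.ofMul (jConjGamma0 N γ))
          = - periodMap N (f + g) (Additive.ofMul γ) := by
        linear_combination e2
      rw [this, map_neg, neg_neg]
    obtain ⟨hv'0, hu0⟩ := h6 v' (f + g) key
    have key2 : ∀ γ : Gamma0 N, periodMap N (f - g) (Additive.ofMul γ)
        = conj (periodMap N (0 : CuspForm (Gamma0 N) 2) (Additive.ofMul γ)) := by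
      intro γ
      have e1 := hv' γ
      rw [hv'0, hzero] at e1
      rw [hzero]
      simp only [AddMonoidHom.zero_apply, map_zero] at e1 ⊢
      have : conj (periodMap N (f - g) (Additive.ofMul γ)) = 0 := by
        linear_combination e1
      simpa using this
    obtain ⟨hv0, -⟩ := h6 (f - g) 0 key2
    have hf : f = 0 := by
      have : (2 : ℂ) • f = 0 := by
        have : (f + g) + (f - g) = (2 : ℂ) • f := by rw [two_smul]; abel
        rw [← this, hu0, hv0, add_zero]
      exact (smul_eq_zero.mp this).resolve_left two_ne_zero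
    have hg : g = 0 := by
      rw [hf, zero_add] at hu0; exact hu0
    rw [hf, hg]; rfl
  · -- range = parabolic
    apply le_antisymm
    · rintro _ ⟨⟨f, g⟩, rfl⟩
      rw [hpair]
      simp only [LinearMap.coprod_apply, LinearMap.comp_apply, LinearMap.add_apply,
        LinearMap.sub_apply, LinearMap.id_apply]
      have hf := h4 f
      have hg := h4 g
      rw [← hpml] at hf hg
      exact add_mem (add_mem hf (charInvolution_mem_parabolicHoms N ℂ ℂ hf))
        (sub_mem hg (charInvolution_mem_parabolicHoms N ℂ ℂ hg))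
    · intro φ hφ
      rw [mem_parabolicHoms_iff] at hφ
      -- real and imaginary parts
      let ψ₁ : Additive (Gamma0 N) →+ ℝ := Complex.reLm.toAddMonoidHom.comp φ
      let ψ₂ : Additive (Gamma0 N) →+ ℝ := Complex.imLm.toAddMonoidHom.comp φ
      have hψ₁ : IsParabolicHom (Gamma0 N) ψ₁ := fun γ hγ => by
        show (φ (Additive.ofMul γ)).re = 0
        rw [hφ γ hγ]; rfl
      have hψ₂ : IsParabolicHom (Gamma0 N) ψ₂ := fun γ hγ => by
        show (φ (Additive.ofMul γ)).im = 0
        rw [hφ γ hγ]; rfl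
      obtain ⟨f₁, hf₁⟩ := h7 ψ₁ hψ₁
      obtain ⟨f₂, hf₂⟩ := h7 ψ₂ hψ₂
      obtain ⟨f₁', hf₁'⟩ := h5 f₁
      obtain ⟨f₂', hf₂'⟩ := h5 f₂
      set u : CuspForm (Gamma0 N) 2 := (1 / 2 : ℂ) • f₁ + (Complex.I / 2) • f₂ with hu
      set v : CuspForm (Gamma0 N) 2 := (-(1 / 2) : ℂ) • f₁' + (-(Complex.I / 2)) • f₂' with hv
      refine ⟨((1 / 2 : ℂ) • (u + v), (1 / 2 : ℂ) • (u - v)), ?_⟩
      refine AddMonoidHom.ext fun γ' => ?_
      obtain ⟨γ, rfl⟩ : ∃ γ : Gamma0 N, Additive.ofMul γ = γ' := ⟨Additive.toMul γ', rfl⟩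
      rw [hval]
      have e1 : (1 / 2 : ℂ) • (u + v) + (1 / 2 : ℂ) • (u - v) = u := by
        rw [← smul_add]
        have : u + v + (u - v) = (2 : ℂ) • u := by rw [two_smul]; abel
        rw [this, smul_smul]; norm_num
      have e2 : (1 / 2 : ℂ) • (u + v) - (1 / 2 : ℂ) • (u - v) = v := by
        rw [← smul_sub]
        have : u + v - (u - v) = (2 : ℂ) • v := by rw [two_smul]; abel
        rw [this, smul_smul]; norm_num
      rw [e1, e2, hu, hv, ← hpml, ← hpml]
      simp only [map_add, map_smul, AddMonoidHom.add_apply, AddMonoidHom.smul_apply,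
        smul_eq_mul]
      rw [hpml, hpml, hpml, hpml, hf₁' γ, hf₂' γ]
      have r1 := hf₁ γ
      have r2 := hf₂ γ
      have q1 : (φ (Additive.ofMul γ)).re = (periodMap N f₁ (Additive.ofMul γ)).re := r1.symm
      have q2 : (φ (Additive.ofMul γ)).im = (periodMap N f₂ (Additive.ofMul γ)).re := r2.symm
      apply Complex.ext
      · simp [q1]
        ring
      · simp [q2]
        ring

end Fermat.Agent.S21
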