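import Fermat.Agent.S21.Defs
import Fermat.Agent.S21.EquivPotential

/-!
# S21 leaf module `CosetFunction`

FROZEN STATEMENTS: prove the theorem(s) below exactly as stated (replace each `sorry`).
Put every auxiliary declaration inside `namespace Fermat.Agent.S21.CosetFunction` (to avoid name
clashes with other leaf files).  Do not edit `Defs.lean`.  You may add imports of other
S21 leaf modules listed in PLAN v1 (respect the dependency order, no cycles).
-/

set_option autoImplicit false

open ModularCurve ModularCurve.Period CongruenceSubgroup UpperHalfPlane MeasureTheory Filter Topology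
open scoped MatrixGroups ComplexConjugate ContDiff ENNReal

namespace Fermat.Agent.S21

/-- A2: a function on `SL(2,ℤ)` with prescribed right `Γ₀(N)`-cocycle, left `T`-invariant. -/
theorem exists_coset_function (N : ℕ) [NeZero N] (ψ : Additive (Gamma0 N) →+ ℝ)
    (hψ : IsParabolicHom (Gamma0 N) ψ) :
    ∃ Φ : SL(2, ℤ) → ℝ,
      (∀ (g : SL(2, ℤ)) (γ : Gamma0 N), Φ (g * γ) = Φ g + ψ (Additive.ofMul γ)) ∧
      ∀ g : SL(2, ℤ), Φ (ModularGroup.T * g) = Φ g := by
  refine ⟨fun g => -EquivPotential.phi ψ g, ?_, ?_⟩
  · intro g γ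
    show -EquivPotential.phi ψ (g * γ) = -EquivPotential.phi ψ g + ψ (Additive.ofMul γ)
    rw [EquivPotential.phi_mul_right ψ hψ g γ.2, EquivPotential.psiFun_of_mem ψ γ.2]
    ring
  · intro g
    show -EquivPotential.phi ψ (ModularGroup.T * g) = -EquivPotential.phi ψ g
    rw [EquivPotential.phi_mul_left ψ hψ (Subgroup.mem_zpowers _) g]

end Fermat.Agent.S21
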