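import Fermat.Agent.S21.Defs
import Fermat.Agent.S21.Finite
import Fermat.Agent.S21.EquivPotential

/-!
# S21 leaf module `Partition`

FROZEN STATEMENTS: prove the theorem(s) below exactly as stated (replace each `sorry`).
Put every auxiliary declaration inside `namespace Fermat.Agent.S21.Partition` (to avoid name
clashes with other leaf files).  Do not edit `Defs.lean`.  You may add imports of other
S21 leaf modules listed in PLAN v1 (respect the dependency order, no cycles).
-/

set_option autoImplicit false

open ModularCurve ModularCurve.Period CongruenceSubgroup UpperHalfPlane MeasureTheory Filter Topology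
open scoped MatrixGroups ComplexConjugate ContDiff ENNReal

namespace Fermat.Agent.S21

/-- A1: smooth `SL(2,ℤ)`-partition of unity supported in a Siegel set. -/
theorem exists_smooth_partition :
    ∃ χ : ℍ → ℝ, SmoothH χ ∧ (∀ z, 0 ≤ χ z) ∧
      (∀ z, χ z ≠ 0 → 1 / 2 < z.im ∧ |z.re| ≤ 1) ∧
      ∀ z : ℍ, ∑ᶠ g : SL(2, ℤ), χ (g • z) = 1 := by
  refine ⟨EquivPotential.rho, ?_, EquivPotential.rho_nonneg, ?_, EquivPotential.finsum_rho_smul⟩
  · intro w hw
    exact (EquivPotential.contDiffAt_rho ⟨w, hw⟩).contDiffWithinAt
  · intro z hz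
    exact ⟨EquivPotential.half_lt_im_of_rho_ne_zero hz,
      (EquivPotential.mem_siegel_of_rho_ne_zero hz).1⟩

end Fermat.Agent.S21
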