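import Fermat.Agent.S21.Defs
import Fermat.Agent.S21.Partition
import Fermat.Agent.S21.CosetFunction
import Fermat.Agent.S21.EquivPotential

/-!
# S21 leaf module `SmoothPeriods`

FROZEN STATEMENTS: prove the theorem(s) below exactly as stated (replace each `sorry`).
Put every auxiliary declaration inside `namespace Fermat.Agent.S21.SmoothPeriods` (to avoid name
clashes with other leaf files).  Do not edit `Defs.lean`.  You may add imports of other
S21 leaf modules listed in PLAN v1 (respect the dependency order, no cycles).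
-/

set_option autoImplicit false

open ModularCurve ModularCurve.Period CongruenceSubgroup UpperHalfPlane MeasureTheory Filter Topology
open scoped MatrixGroups ComplexConjugate ContDiff ENNReal

namespace Fermat.Agent.S21

/-- A3: a smooth function with prescribed periods, constant near every cusp. -/
theorem exists_smooth_periods (N : ℕ) [NeZero N] (ψ : Additive (Gamma0 N) →+ ℝ)
    (hψ : IsParabolicHom (Gamma0 N) ψ) :
    ∃ u : ℍ → ℝ, SmoothH u ∧
      (∀ (γ : Gamma0 N) (z : ℍ), u ((γ : SL(2, ℤ)) • z) = u z + ψ (Additive.ofMul γ)) ∧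
      ∀ δ : SL(2, ℤ), ∃ c : ℝ, ∀ z : ℍ, 2 ≤ (δ • z).im → u z = c := by
  refine ⟨EquivPotential.potential ψ, ?_, ?_, ?_⟩
  · intro w hw
    exact (EquivPotential.contDiffAt_potential ψ ⟨w, hw⟩).contDiffWithinAt
  · intro γ z
    rw [EquivPotential.potential_smul ψ hψ γ.2 z, EquivPotential.psiFun_of_mem ψ γ.2]
  · intro δ
    refine ⟨EquivPotential.phi ψ δ, fun z hz => ?_⟩
    have e : z = δ⁻¹ • δ • z := by rw [← mul_smul, inv_mul_cancel, one_smul]
    have h := EquivPotential.potential_horoball ψ hψ δ⁻¹ hz
    rw [← e, inv_inv] at h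
    exact h

end Fermat.Agent.S21
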