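import Fermat.Agent.S21.Defs
import Fermat.Agent.S21.Partition

/-!
# S21 leaf module `Weight`

FROZEN STATEMENTS: prove the theorem(s) below exactly as stated (no placeholder left in this file).
Put every auxiliary declaration inside `namespace Fermat.Agent.S21.Weight` (to avoid name
clashes with other leaf files).  Do not edit `Defs.lean`.  You may add imports of other
S21 leaf modules listed in PLAN v1 (respect the dependency order, no cycles).
-/

set_option autoImplicit false

open ModularCurve ModularCurve.Period CongruenceSubgroup UpperHalfPlane MeasureTheory Filter Topology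
open scoped MatrixGroups ComplexConjugate ContDiff ENNReal

namespace Fermat.Agent.S21

namespace Weight

theorem countable_SL : Countable SL(2, ℤ) := by
  have h : Function.Injective
      (fun (g : SL(2, ℤ)) (i j : Fin 2) => (g : Matrix (Fin 2) (Fin 2) ℤ) i j) := by
    intro a b hab
    ext i j
    exact congrFun (congrFun hab i) j
  exact h.countable

/-- continuity of a smooth function on `ℍ` -/
theorem continuous_of_smoothH {χ : ℍ → ℝ} (hχ : SmoothH χ) : Continuous χ := by
  have h1 : ContinuousOn (χ ∘ ofComplex) upperHalfPlaneSet := hχ.continuousOn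
  have h2 : χ = (χ ∘ ofComplex) ∘ (fun z : ℍ => (z : ℂ)) := by
    funext z
    simp [Function.comp, ofComplex_apply]
  rw [h2]
  exact h1.comp_continuous UpperHalfPlane.continuous_coe (fun z => z.im_pos)

/-- the action of `g : SL(2,ℤ)` on `ℍ` is continuous -/
theorem continuous_smul (g : SL(2, ℤ)) : Continuous (fun z : ℍ => g • z) :=
  continuous_const_smul (Matrix.SpecialLinearGroup.mapGL ℝ g)

/-- Positive coefficients summing to `1` on every left coset of `Γ₀(N)`. -/
theorem exists_coeff (N : ℕ) :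
    ∃ a : SL(2, ℤ) → ℝ, (∀ g, 0 < a g) ∧
      ∀ g : SL(2, ℤ), HasSum (fun γ : Gamma0 N => a (g * (γ : SL(2, ℤ)))) 1 := by
  have := countable_SL
  obtain ⟨e⟩ := nonempty_encodable SL(2, ℤ)
  obtain ⟨b, hbpos, c, hbc, -⟩ := posSumOfEncodable (ε := 1) one_pos SL(2, ℤ)
  have hbs : Summable b := hbc.summable
  have hinj : ∀ g : SL(2, ℤ), Function.Injective (fun γ : Gamma0 N => g * (γ : SL(2, ℤ))) := by
    intro g γ₁ γ₂ h
    exact Subtype.ext (mul_left_cancel h)
  have hsum : ∀ g : SL(2, ℤ), Summable (fun γ : Gamma0 N => b (g * (γ : SL(2, ℤ)))) :=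
    fun g => hbs.comp_injective (hinj g)
  set β : SL(2, ℤ) → ℝ := fun g => ∑' γ : Gamma0 N, b (g * (γ : SL(2, ℤ))) with hβ
  have hβpos : ∀ g, 0 < β g := by
    intro g
    exact (hsum g).tsum_pos (fun γ => (hbpos _).le) 1 (hbpos _)
  have hβinv : ∀ (g : SL(2, ℤ)) (γ₀ : Gamma0 N), β (g * (γ₀ : SL(2, ℤ))) = β g := by
    intro g γ₀
    simp only [hβ]
    rw [← (Equiv.mulLeft γ₀).tsum_eq (fun γ : Gamma0 N => b (g * (γ : SL(2, ℤ))))]
    congr 1
    funext γ
    simp [mul_assoc]
  refine ⟨fun g => b g / β g, fun g => div_pos (hbpos g) (hβpos g), fun g => ?_⟩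
  have h1 : HasSum (fun γ : Gamma0 N => b (g * (γ : SL(2, ℤ))) / β g) (β g / β g) :=
    (hsum g).hasSum.div_const (β g)
  rw [div_self (hβpos g).ne'] at h1
  simpa only [hβinv] using h1

end Weight

open Weight in
/-- B: existence of a partition weight. -/
theorem exists_partitionWeight (N : ℕ) [NeZero N] : ∃ W : ℍ → ℝ, IsPartitionWeight N W := by
  obtain ⟨χ, hχs, hχ0, hχsupp, hχsum⟩ := exists_smooth_partition
  obtain ⟨a, hapos, hasum⟩ := Weight.exists_coeff N
  have hχc : Continuous χ := Weight.continuous_of_smoothH hχs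
  -- finiteness of the supports
  have hfinK : ∀ K : Set ℍ, IsCompact K → {g : SL(2, ℤ) | ∃ z ∈ K, χ (g • z) ≠ 0}.Finite := by
    intro K hK
    refine (finite_siegel K hK).subset ?_
    rintro g ⟨z, hz, hgz⟩
    exact ⟨z, hz, hχsupp _ hgz⟩
  have hfin : ∀ z : ℍ, {g : SL(2, ℤ) | χ (g • z) ≠ 0}.Finite := by
    intro z
    refine (hfinK {z} isCompact_singleton).subset ?_
    intro g hg
    exact ⟨z, rfl, hg⟩
  refine ⟨fun z => ∑ᶠ g : SL(2, ℤ), a g * χ (g • z), ?_, ?_, ?_⟩
  · -- continuity
    refine continuous_finsum (fun g => continuous_const.mul (hχc.comp (Weight.continuous_smul g))) ?_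
    intro z
    obtain ⟨K, hK, hKz⟩ := exists_compact_mem_nhds z
    refine ⟨K, hKz, (hfinK K hK).subset ?_⟩
    rintro g ⟨w, hw, hwK⟩
    refine ⟨w, hwK, ?_⟩
    intro h0
    apply hw
    show a g * χ (g • w) = 0
    rw [h0, mul_zero]
  · -- positivity
    intro z
    have hsupp : Function.support (fun g : SL(2, ℤ) => a g * χ (g • z)) ⊆ (hfin z).toFinset := by
      intro g hg
      rw [Set.Finite.coe_toFinset]
      intro h0
      apply hg
      show a g * χ (g • z) = 0
      rw [h0, mul_zero]
    have hsupp' : Function.support (fun g : SL(2, ℤ) => χ (g • z)) ⊆ (hfin z).toFinset := by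
      intro g hg
      rw [Set.Finite.coe_toFinset]
      exact hg
    show 0 < ∑ᶠ g : SL(2, ℤ), a g * χ (g • z)
    rw [finsum_eq_sum_of_support_subset _ hsupp]
    have h1 := hχsum z
    rw [finsum_eq_sum_of_support_subset _ hsupp'] at h1
    -- some term of the `χ`-sum is positive
    have hex : ∃ g ∈ (hfin z).toFinset, 0 < χ (g • z) := by
      by_contra hcon
      push Not at hcon
      have : ∑ g ∈ (hfin z).toFinset, χ (g • z) = 0 :=
        Finset.sum_eq_zero fun g hg => le_antisymm (hcon g hg) (hχ0 _)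
      rw [this] at h1
      exact zero_ne_one h1
    obtain ⟨g₀, hg₀, hg₀pos⟩ := hex
    exact Finset.sum_pos' (fun g _ => mul_nonneg (hapos g).le (hχ0 _))
      ⟨g₀, hg₀, mul_pos (hapos g₀) hg₀pos⟩
  · -- sum over `Γ₀(N)`
    intro z
    have hsupp' : Function.support (fun g : SL(2, ℤ) => χ (g • z)) ⊆ (hfin z).toFinset := by
      intro g hg
      rw [Set.Finite.coe_toFinset]
      exact hg
    have hW : ∀ γ : Gamma0 N, (∑ᶠ g : SL(2, ℤ), a g * χ (g • ((γ : SL(2, ℤ)) • z)))
        = ∑ g ∈ (hfin z).toFinset, χ (g • z) * a (g * ((γ⁻¹ : Gamma0 N) : SL(2, ℤ))) := by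
      intro γ
      have h1 : (∑ᶠ g : SL(2, ℤ), a g * χ (g • ((γ : SL(2, ℤ)) • z)))
          = ∑ᶠ g : SL(2, ℤ), a (g * (γ : SL(2, ℤ))⁻¹) * χ (g • z) := by
        rw [← finsum_comp_equiv (Equiv.mulRight (γ : SL(2, ℤ))⁻¹)]
        refine finsum_congr fun g => ?_
        simp [mul_smul]
      rw [h1, finsum_eq_sum_of_support_subset]
      · refine Finset.sum_congr rfl fun g _ => ?_
        rw [mul_comm]
        simp
      · intro g hg
        rw [Set.Finite.coe_toFinset]
        intro h0
        apply hg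
        show a (g * (γ : SL(2, ℤ))⁻¹) * χ (g • z) = 0
        rw [h0, mul_zero]
    have hsum1 : HasSum (fun γ : Gamma0 N =>
        ∑ g ∈ (hfin z).toFinset, χ (g • z) * a (g * ((γ⁻¹ : Gamma0 N) : SL(2, ℤ))))
        (∑ g ∈ (hfin z).toFinset, χ (g • z) * 1) := by
      refine hasSum_sum fun g _ => ?_
      refine HasSum.mul_left _ ?_
      exact (Equiv.inv (Gamma0 N)).hasSum_iff.mpr (hasum g)
    have h1 := hχsum z
    rw [finsum_eq_sum_of_support_subset _ hsupp'] at h1
    simp only [mul_one] at hsum1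
    rw [h1] at hsum1
    simpa only [hW] using hsum1

end Fermat.Agent.S21
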