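import Mathlib

/-!
# S21 leaf module `Weyl`: Weyl's lemma for the Cauchy–Riemann operator on open subsets of `ℂ`

FROZEN STATEMENTS (signature by helper741): `weyl_lemma_dbar` exactly as in the skeleton.
Proof by helper4221 (mollification by a radial kernel + mean value property); every auxiliary
declaration lives in `namespace Fermat.Agent.S21.Weyl`.
-/

set_option autoImplicit false

namespace Fermat.Agent.S21

open MeasureTheory Complex Metric Set Filter Topology
open scoped ContDiff

/-- `∂ψ/∂x + i ∂ψ/∂y` for a real-valued function `ψ` on `ℂ` (twice the `∂̄`-derivative). -/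
noncomputable def dbarR (ψ : ℂ → ℝ) (w : ℂ) : ℂ :=
  ((fderiv ℝ ψ w 1 : ℝ) : ℂ) + I * ((fderiv ℝ ψ w I : ℝ) : ℂ)

/-- `g` is weakly holomorphic on `Ω`: it is orthogonal to `∂̄` of all real test functions
supported in `Ω`. -/
def WeaklyHolomorphicOn (g : ℂ → ℂ) (Ω : Set ℂ) : Prop :=
  ∀ ψ : ℂ → ℝ, ContDiff ℝ ∞ ψ → HasCompactSupport ψ → tsupport ψ ⊆ Ω →
    ∫ w, g w * dbarR ψ w = 0

end Fermat.Agent.S21

namespace Fermat.Agent.S21.Weyl

open MeasureTheory Complex Metric Set Filter Topology
open scoped Convolution ContDiff Real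

noncomputable section

/-- Unnormalised radial bump of radius `r` on `ℂ`. -/
def radBump (r : ℝ) (z : ℂ) : ℝ := Real.smoothTransition (2 - 2 * (‖z‖ ^ 2 / r ^ 2))

lemma radBump_contDiff (r : ℝ) : ContDiff ℝ ∞ (radBump r) := by
  unfold radBump
  exact Real.smoothTransition.contDiff.comp
    (contDiff_const.sub (contDiff_const.mul ((contDiff_norm_sq ℝ).div_const _)))

lemma radBump_continuous (r : ℝ) : Continuous (radBump r) := (radBump_contDiff r).continuous

lemma radBump_nonneg (r : ℝ) (z : ℂ) : 0 ≤ radBump r z := Real.smoothTransition.nonneg _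

lemma radBump_eq_zero {r : ℝ} (hr : 0 < r) {z : ℂ} (hz : r ≤ ‖z‖) : radBump r z = 0 := by
  apply Real.smoothTransition.zero_of_nonpos
  have h1 : r ^ 2 ≤ ‖z‖ ^ 2 := by gcongr
  have h2 : 1 ≤ ‖z‖ ^ 2 / r ^ 2 := by rw [le_div_iff₀ (by positivity)]; linarith
  linarith

lemma radBump_pos {r : ℝ} (hr : 0 < r) {z : ℂ} (hz : ‖z‖ < r) : 0 < radBump r z := by
  apply Real.smoothTransition.pos_of_pos
  have h1 : ‖z‖ ^ 2 < r ^ 2 := by gcongr
  have h2 : ‖z‖ ^ 2 / r ^ 2 < 1 := by rw [div_lt_one (by positivity)]; exact h1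
  linarith

lemma support_radBump {r : ℝ} (hr : 0 < r) : Function.support (radBump r) = ball (0 : ℂ) r := by
  ext z
  simp only [Function.mem_support, mem_ball, dist_zero_right]
  constructor
  · intro h
    by_contra hz
    exact h (radBump_eq_zero hr (not_lt.mp hz))
  · intro h
    exact (radBump_pos hr h).ne'

lemma tsupport_radBump_subset {r : ℝ} (hr : 0 < r) : tsupport (radBump r) ⊆ closedBall (0 : ℂ) r := by
  rw [tsupport, support_radBump hr]
  exact closure_ball_subset_closedBall

lemma hasCompactSupport_radBump {r : ℝ} (hr : 0 < r) : HasCompactSupport (radBump r) :=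
  HasCompactSupport.of_support_subset_isCompact (isCompact_closedBall (0 : ℂ) r)
    (by rw [support_radBump hr]; exact ball_subset_closedBall)

lemma integrable_radBump {r : ℝ} (hr : 0 < r) : Integrable (radBump r) :=
  (radBump_continuous r).integrable_of_hasCompactSupport (hasCompactSupport_radBump hr)

lemma integral_radBump_pos {r : ℝ} (hr : 0 < r) : 0 < ∫ z, radBump r z := by
  rw [integral_pos_iff_support_of_nonneg (radBump_nonneg r) (integrable_radBump hr),
    support_radBump hr]
  exact measure_ball_pos _ _ hr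

/-- Circle mean value property, in the parametrisation coming from polar coordinates. -/
lemma integral_Ioo_circle_sub {G : ℂ → ℂ} (hGc : Continuous G) {z : ℂ} {ρ ρ0 : ℝ} (hρ : 0 < ρ)
    (hρ0 : ρ < ρ0) (hG : DifferentiableOn ℂ G (ball z ρ0)) :
    ∫ θ in Ioo (-π) π, (G (z - ρ * ((Real.cos θ : ℂ) + (Real.sin θ : ℂ) * I)) - G z) = 0 := by
  have hcm : ∀ θ : ℝ, z - ρ * ((Real.cos θ : ℂ) + (Real.sin θ : ℂ) * I) = circleMap z (-ρ) θ := by
    intro θ
    rw [circleMap, Complex.exp_mul_I, ← Complex.ofReal_cos, ← Complex.ofReal_sin]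
    push_cast; ring
  simp_rw [hcm]
  have hcont : Continuous fun θ : ℝ => G (circleMap z (-ρ) θ) :=
    hGc.comp (continuous_circleMap z (-ρ))
  rw [← integral_Ioc_eq_integral_Ioo, ← intervalIntegral.integral_of_le (by linarith [Real.pi_pos]),
    intervalIntegral.integral_sub (hcont.intervalIntegrable _ _) intervalIntegrable_const]
  have hper : Function.Periodic (fun θ : ℝ => G (circleMap z (-ρ) θ)) (2 * π) := fun θ => by
    simp only [periodic_circleMap z (-ρ) θ]
  have h1 := hper.intervalIntegral_add_eq (-π) 0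
  rw [show -π + 2 * π = π by ring, zero_add] at h1
  rw [h1]
  have h2 : Real.circleAverage G z (-ρ) = G z :=
    DiffContOnCl.circleAverage (by
      rw [abs_neg, abs_of_pos hρ]; exact hG.diffContOnCl_ball (closedBall_subset_ball hρ0))
  rw [Real.circleAverage_def] at h2
  have h3 : ∫ θ in (0 : ℝ)..2 * π, G (circleMap z (-ρ) θ) = (2 * π) • G z := by
    rw [← h2, smul_smul, mul_inv_cancel₀ (by positivity), one_smul]
  rw [h3, intervalIntegral.integral_const]
  simp only [sub_neg_eq_add, Complex.real_smul]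
  push_cast; ring

/-- Mean value property of holomorphic functions against the radial bump. -/
lemma integral_radBump_smul_sub {r : ℝ} (hr : 0 < r) {G : ℂ → ℂ} (hGc : Continuous G) {z : ℂ}
    {ρ0 : ℝ} (hρ0 : r ≤ ρ0) (hG : DifferentiableOn ℂ G (ball z ρ0)) :
    ∫ w, radBump r w • (G (z - w) - G z) = 0 := by
  rw [← Complex.integral_comp_polarCoord_symm]
  set F : ℝ × ℝ → ℂ := fun p =>
    (p.1 * Real.smoothTransition (2 - 2 * (p.1 ^ 2 / r ^ 2))) •
      (G (z - p.1 * ((Real.cos p.2 : ℂ) + (Real.sin p.2 : ℂ) * I)) - G z) with hF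
  have hFeq : ∀ p : ℝ × ℝ, p.1 • (radBump r (Complex.polarCoord.symm p) •
      (G (z - Complex.polarCoord.symm p) - G z)) = F p := by
    intro p
    have hn : ‖(Complex.polarCoord.symm p : ℂ)‖ ^ 2 = p.1 ^ 2 := by
      rw [Complex.norm_polarCoord_symm, sq_abs]
    simp only [hF, radBump, hn, smul_smul]
    rw [Complex.polarCoord_symm_apply]
  simp_rw [hFeq]
  have hFc : Continuous F := by
    simp only [hF]
    fun_prop
  have hFzero : ∀ p : ℝ × ℝ, r ≤ p.1 → F p = 0 := by
    intro p hp
    have : Real.smoothTransition (2 - 2 * (p.1 ^ 2 / r ^ 2)) = 0 := by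
      apply Real.smoothTransition.zero_of_nonpos
      have h1 : r ^ 2 ≤ p.1 ^ 2 := by gcongr
      have h2 : 1 ≤ p.1 ^ 2 / r ^ 2 := by rw [le_div_iff₀ (by positivity)]; linarith
      linarith
    simp [hF, this]
  have hFint : IntegrableOn F (Ioi (0 : ℝ) ×ˢ Ioo (-π) π) := by
    have h1 : IntegrableOn F (Icc (0 : ℝ) r ×ˢ Icc (-π) π) :=
      hFc.continuousOn.integrableOn_compact (isCompact_Icc.prod isCompact_Icc)
    refine h1.of_forall_sdiff_eq_zero (measurableSet_Ioi.prod measurableSet_Ioo) ?_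
    rintro ⟨ρ, θ⟩ ⟨⟨h1, h2⟩, h3⟩
    apply hFzero
    by_contra hlt
    exact h3 ⟨⟨le_of_lt h1, le_of_lt (not_le.mp hlt)⟩, ⟨le_of_lt h2.1, le_of_lt h2.2⟩⟩
  rw [polarCoord_target, Measure.volume_eq_prod, setIntegral_prod _ hFint]
  apply setIntegral_eq_zero_of_forall_eq_zero
  intro ρ hρ
  rcases lt_or_ge ρ r with hlt | hge
  · simp only [hF]
    rw [integral_smul, integral_Ioo_circle_sub hGc hρ (lt_of_lt_of_le hlt hρ0) hG, smul_zero]
  · simp [hFzero (ρ, _) hge]

/-- The mollification of a weakly holomorphic function by a smooth real kernel of small support is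
holomorphic. -/
lemma differentiableAt_convolution_of_weak {U : Set ℂ} {h : ℂ → ℂ} (hweak : WeaklyHolomorphicOn h U)
    {K : Set ℂ} (hK : IsCompact K) (hKU : K ⊆ U) (hint : IntegrableOn h K)
    {k : ℂ → ℝ} (hk : ContDiff ℝ ∞ k) {r : ℝ}
    (hksupp : Function.support k ⊆ closedBall 0 r)
    {z : ℂ} (hz : closedBall z r ⊆ K) :
    DifferentiableAt ℂ (k ⋆[ContinuousLinearMap.lsmul ℝ ℝ, volume] (K.indicator h)) z := by
  set h1 : ℂ → ℂ := K.indicator h with hh1
  have h1int : Integrable h1 := (integrable_indicator_iff hK.measurableSet).2 hint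
  have hkc : HasCompactSupport k :=
    HasCompactSupport.of_support_subset_isCompact (isCompact_closedBall 0 r) hksupp
  have hkts : tsupport k ⊆ closedBall 0 r := closure_minimal hksupp isClosed_closedBall
  have hfd := hkc.hasFDerivAt_convolution_left (ContinuousLinearMap.lsmul ℝ ℝ)
    (hk.of_le (by simp)) h1int.locallyIntegrable z
  refine differentiableAt_complex_iff_differentiableAt_real.2 ⟨hfd.differentiableAt, ?_⟩
  rw [hfd.fderiv]
  -- the derivative as an integral
  have hInt : Integrable (fun t => (ContinuousLinearMap.precompL ℂ (ContinuousLinearMap.lsmul ℝ ℝ))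
      (fderiv ℝ k t) (h1 (z - t))) :=
    (hkc.fderiv ℝ).convolutionExists_left _ (hk.continuous_fderiv (by simp))
      h1int.locallyIntegrable z
  have hD : ∀ v : ℂ, ((fderiv ℝ k ⋆[ContinuousLinearMap.precompL ℂ (ContinuousLinearMap.lsmul ℝ ℝ),
      volume] h1) z) v = ∫ t, (fderiv ℝ k t v) • h1 (z - t) := by
    intro v
    rw [convolution_def, ContinuousLinearMap.integral_apply hInt v]
    rfl
  have hIntv : ∀ v : ℂ, Integrable (fun t => (fderiv ℝ k t v) • h1 (z - t)) := by
    intro v
    exact (ContinuousLinearMap.apply ℝ ℂ v).integrable_comp hInt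
  rw [hD, hD]
  -- use weak holomorphy with the test function `w ↦ k (z - w)`
  set ψ : ℂ → ℝ := fun w => k (z - w) with hψ
  have hψsmooth : ContDiff ℝ ∞ ψ := hk.comp (contDiff_const.sub contDiff_id)
  have hψsupp : Function.support ψ ⊆ closedBall z r := by
    intro w hw
    have : z - w ∈ closedBall (0 : ℂ) r := hksupp hw
    rw [mem_closedBall, dist_zero_right] at this
    rw [mem_closedBall, dist_comm, dist_eq_norm]
    exact this
  have hψc : HasCompactSupport ψ :=
    HasCompactSupport.of_support_subset_isCompact (isCompact_closedBall z r) hψsupp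
  have hψts : tsupport ψ ⊆ U :=
    (closure_minimal hψsupp isClosed_closedBall).trans (hz.trans hKU)
  have hw := hweak ψ hψsmooth hψc hψts
  have hψd : ∀ w : ℂ, fderiv ℝ ψ w = -fderiv ℝ k (z - w) := by
    intro w
    have h1 : HasFDerivAt k (fderiv ℝ k (z - w)) (z - w) :=
      ((hk.differentiable (by simp)) (z - w)).hasFDerivAt
    have h2 : HasFDerivAt (fun w : ℂ => z - w) (-ContinuousLinearMap.id ℝ ℂ) w :=
      (hasFDerivAt_id w).const_sub z
    have h3 := h1.comp w h2
    rw [show (fderiv ℝ k (z - w)).comp (-ContinuousLinearMap.id ℝ ℂ) = -fderiv ℝ k (z - w) by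
      ext v; simp] at h3
    exact h3.fderiv
  have hw2 : ∫ w, h w * (((fderiv ℝ k (z - w) 1 : ℝ) : ℂ) + I * ((fderiv ℝ k (z - w) I : ℝ) : ℂ))
      = 0 := by
    have : ∀ w, h w * dbarR ψ w =
        -(h w * (((fderiv ℝ k (z - w) 1 : ℝ) : ℂ) + I * ((fderiv ℝ k (z - w) I : ℝ) : ℂ))) := by
      intro w
      simp only [dbarR, hψd, neg_apply, ofReal_neg]
      ring
    simp_rw [this, integral_neg, neg_eq_zero] at hw
    exact hw
  have hw3 : ∫ t, h1 (z - t) * (((fderiv ℝ k t 1 : ℝ) : ℂ) + I * ((fderiv ℝ k t I : ℝ) : ℂ))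
      = 0 := by
    have e : ∫ t, h1 (z - t) * (((fderiv ℝ k t 1 : ℝ) : ℂ) + I * ((fderiv ℝ k t I : ℝ) : ℂ)) =
        ∫ w, h1 w * (((fderiv ℝ k (z - w) 1 : ℝ) : ℂ) + I * ((fderiv ℝ k (z - w) I : ℝ) : ℂ)) := by
      rw [← integral_sub_left_eq_self _ volume z]
      simp only [sub_sub_cancel]
    rw [e, ← hw2]
    congr 1
    ext w
    by_cases hw' : z - w ∈ tsupport k
    · have : w ∈ K := by
        apply hz
        have := hkts hw'
        rw [mem_closedBall, dist_zero_right] at this
        rw [mem_closedBall, dist_comm, dist_eq_norm]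
        exact this
      rw [hh1, indicator_of_mem this]
    · have : fderiv ℝ k (z - w) = 0 := by
        by_contra hne
        exact hw' (support_fderiv_subset ℝ hne)
      simp [this]
  have hw4 : (∫ t, (fderiv ℝ k t 1) • h1 (z - t)) + I * ∫ t, (fderiv ℝ k t I) • h1 (z - t) = 0 := by
    rw [← hw3, ← integral_const_mul, ← integral_add (hIntv 1) ((hIntv I).const_mul I)]
    congr 1
    ext t
    simp only [Complex.real_smul]
    ring
  have : ∫ t, (fderiv ℝ k t I) • h1 (z - t) = I * ∫ t, (fderiv ℝ k t 1) • h1 (z - t) := by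
    have h5 := congrArg (fun x => I * x) hw4
    simp only [mul_add, ← mul_assoc, I_mul_I, mul_zero] at h5
    linear_combination -h5
  rw [this, smul_eq_mul]

/-- Mollifications by two continuous compactly supported real kernels commute. -/
lemma convolution_comm_kernels {η k : ℂ → ℝ} (hηcont : Continuous η) (hηc : HasCompactSupport η)
    (hkcont : Continuous k) (hkc : HasCompactSupport k) {h1 : ℂ → ℂ} (h1int : Integrable h1)
    (z : ℂ) :
    (η ⋆[ContinuousLinearMap.lsmul ℝ ℝ, volume]
        (k ⋆[ContinuousLinearMap.lsmul ℝ ℝ, volume] h1)) z =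
      (k ⋆[ContinuousLinearMap.lsmul ℝ ℝ, volume]
        (η ⋆[ContinuousLinearMap.lsmul ℝ ℝ, volume] h1)) z := by
  have assoc : ∀ (f g : ℂ → ℝ), Continuous f → HasCompactSupport f → Continuous g →
      HasCompactSupport g →
      ((f ⋆[ContinuousLinearMap.lsmul ℝ ℝ, volume] g) ⋆[ContinuousLinearMap.lsmul ℝ ℝ, volume] h1) z
        = (f ⋆[ContinuousLinearMap.lsmul ℝ ℝ, volume]
            (g ⋆[ContinuousLinearMap.lsmul ℝ ℝ, volume] h1)) z := by
    intro f g hf hfc hg hgc
    exact convolution_assoc (ContinuousLinearMap.lsmul ℝ ℝ) (ContinuousLinearMap.lsmul ℝ ℝ)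
      (ContinuousLinearMap.lsmul ℝ ℝ) (ContinuousLinearMap.lsmul ℝ ℝ)
      (fun x y z => by simp [mul_assoc])
      hf.aestronglyMeasurable hg.aestronglyMeasurable h1int.aestronglyMeasurable
      (ae_of_all _ fun y => hfc.convolutionExists_left _ hf hg.locallyIntegrable y)
      (ae_of_all _ fun x => hgc.norm.convolutionExists_left _ hg.norm
        h1int.norm.locallyIntegrable x)
      (hfc.norm.convolutionExists_left _ hf.norm
        (hgc.norm.continuous_convolution_left _ hg.norm
          h1int.norm.locallyIntegrable).locallyIntegrable z)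
  have comm : (η ⋆[ContinuousLinearMap.lsmul ℝ ℝ, volume] k) =
      (k ⋆[ContinuousLinearMap.lsmul ℝ ℝ, volume] η) := by
    rw [← convolution_flip]
    congr 1
    ext
    simp
  rw [← assoc η k hηcont hηc hkcont hkc, comm, assoc k η hkcont hkc hηcont hηc]

/-- Normalised radial kernel of radius `r`. -/
def radKer (r : ℝ) (z : ℂ) : ℝ := (∫ w, radBump r w)⁻¹ * radBump r z

lemma radKer_contDiff (r : ℝ) : ContDiff ℝ ∞ (radKer r) :=
  contDiff_const.mul (radBump_contDiff r)

lemma support_radKer_subset {r : ℝ} (hr : 0 < r) :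
    Function.support (radKer r) ⊆ closedBall (0 : ℂ) r := by
  intro z hz
  have h1 : radBump r z ≠ 0 := fun h0 => hz (by simp [radKer, h0])
  have h2 : z ∈ ball (0 : ℂ) r := by rw [← support_radBump hr]; exact h1
  exact ball_subset_closedBall h2

/-- Mean value property: mollifying a holomorphic function by the radial kernel does nothing. -/
lemma radKer_convolution_eq {r : ℝ} (hr : 0 < r) {G : ℂ → ℂ} (hGc : Continuous G) {z : ℂ}
    {ρ0 : ℝ} (hρ0 : r ≤ ρ0) (hG : DifferentiableOn ℂ G (ball z ρ0)) :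
    (radKer r ⋆[ContinuousLinearMap.lsmul ℝ ℝ, volume] G) z = G z := by
  rw [convolution_def]
  simp only [ContinuousLinearMap.lsmul_apply, radKer]
  have h0 := integral_radBump_smul_sub hr hGc hρ0 hG
  have hI1 : Integrable (fun w => radBump r w • G (z - w)) :=
    Continuous.integrable_of_hasCompactSupport
      ((radBump_continuous r).smul (hGc.comp (continuous_const.sub continuous_id)))
      (hasCompactSupport_radBump hr).smul_right
  have hI2 : Integrable (fun w => radBump r w • G z) := (integrable_radBump hr).smul_const _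
  have h1 : ∫ w, radBump r w • G (z - w) = (∫ w, radBump r w) • G z := by
    rw [← integral_smul_const, ← sub_eq_zero, ← integral_sub hI1 hI2]
    simp_rw [← smul_sub]
    exact h0
  simp_rw [mul_smul]
  rw [integral_smul, h1, smul_smul, inv_mul_cancel₀ (integral_radBump_pos hr).ne', one_smul]

/-- Local form of Weyl's lemma for `∂̄`. -/
lemma weyl_local {U : Set ℂ} {h : ℂ → ℂ} (hweak : WeaklyHolomorphicOn h U)
    (hint : LocallyIntegrableOn h U) {z0 : ℂ} {r : ℝ} (hr : 0 < r)
    (hball : closedBall z0 (4 * r) ⊆ U) :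
    ∃ G : ℂ → ℂ, Continuous G ∧ DifferentiableOn ℂ G (ball z0 r) ∧
      ∀ᵐ z, z ∈ ball z0 r → h z = G z := by
  set K : Set ℂ := closedBall z0 (4 * r) with hKdef
  have hKc : IsCompact K := isCompact_closedBall _ _
  have hintK : IntegrableOn h K := hint.integrableOn_compact_subset hball hKc
  set h1 : ℂ → ℂ := K.indicator h with hh1
  have h1int : Integrable h1 := (integrable_indicator_iff hKc.measurableSet).2 hintK
  have hsub : ∀ w ∈ ball z0 (3 * r), closedBall w r ⊆ K := by
    intro w hw x hx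
    rw [mem_ball] at hw
    rw [mem_closedBall] at hx
    rw [hKdef, mem_closedBall]
    linarith [dist_triangle x w z0]
  have hdiff : ∀ k : ℂ → ℝ, ContDiff ℝ ∞ k → Function.support k ⊆ closedBall 0 r →
      DifferentiableOn ℂ (k ⋆[ContinuousLinearMap.lsmul ℝ ℝ, volume] h1) (ball z0 (3 * r)) := by
    intro k hk hks w hw
    exact (differentiableAt_convolution_of_weak hweak hKc hball hintK hk hks
      (hsub w hw)).differentiableWithinAt
  have hcompk : ∀ k : ℂ → ℝ, Function.support k ⊆ closedBall 0 r → HasCompactSupport k :=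
    fun k hks => HasCompactSupport.of_support_subset_isCompact (isCompact_closedBall 0 r) hks
  have hcontk : ∀ k : ℂ → ℝ, ContDiff ℝ ∞ k → Function.support k ⊆ closedBall 0 r →
      Continuous (k ⋆[ContinuousLinearMap.lsmul ℝ ℝ, volume] h1) := by
    intro k hk hks
    exact (hcompk k hks).continuous_convolution_left _ hk.continuous h1int.locallyIntegrable
  have hηs : ContDiff ℝ ∞ (radKer r) := radKer_contDiff r
  have hηsupp : Function.support (radKer r) ⊆ closedBall 0 r := support_radKer_subset hr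
  refine ⟨radKer r ⋆[ContinuousLinearMap.lsmul ℝ ℝ, volume] h1, hcontk _ hηs hηsupp,
    (hdiff _ hηs hηsupp).mono (ball_subset_ball (by linarith)), ?_⟩
  -- a sequence of bump functions with shrinking supports
  let φ : ℕ → ContDiffBump (0 : ℂ) := fun n =>
    ⟨r / (2 * ((n : ℝ) + 1)), r / ((n : ℝ) + 1), by positivity, by
      apply div_lt_div_of_pos_left hr (by positivity)
      have : (0 : ℝ) ≤ n := Nat.cast_nonneg n
      linarith⟩
  have hφout : ∀ n, (φ n).rOut = r / ((n : ℝ) + 1) := fun n => rfl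
  have hφin : ∀ n, (φ n).rIn = r / (2 * ((n : ℝ) + 1)) := fun n => rfl
  have hφ : Tendsto (fun n => (φ n).rOut) atTop (𝓝 0) := by
    have h2 := (tendsto_one_div_add_atTop_nhds_zero_nat (𝕜 := ℝ)).const_mul r
    rw [mul_zero] at h2
    refine h2.congr fun n => ?_
    rw [hφout, mul_one_div]
  have h'φ : ∀ᶠ n in atTop, (φ n).rOut ≤ 2 * (φ n).rIn := by
    refine Eventually.of_forall fun n => ?_
    rw [hφout, hφin]
    have : (0 : ℝ) < (n : ℝ) + 1 := by positivity
    apply le_of_eq
    field_simp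
  have hae := ContDiffBump.ae_convolution_tendsto_right_of_locallyIntegrable (μ := volume)
    hφ h'φ h1int.locallyIntegrable
  filter_upwards [hae] with x hx hxball
  have hxK : x ∈ K := by
    rw [hKdef, mem_closedBall]
    rw [mem_ball] at hxball
    linarith
  have hh1x : h1 x = h x := by rw [hh1, indicator_of_mem hxK]
  rw [← hh1x]
  have hrout : ∀ n, (φ n).rOut ≤ r := by
    intro n
    rw [hφout]
    apply div_le_self hr.le
    have : (0 : ℝ) ≤ n := Nat.cast_nonneg n
    linarith
  have hkn : ∀ n, Function.support ((φ n).normed volume) ⊆ closedBall (0 : ℂ) r := by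
    intro n
    rw [(φ n).support_normed_eq]
    exact ball_subset_closedBall.trans (closedBall_subset_closedBall (hrout n))
  have hxsub : ball x (2 * r) ⊆ ball z0 (3 * r) := by
    intro w hw
    rw [mem_ball] at hw hxball ⊢
    linarith [dist_triangle w x z0]
  have heq : ∀ n, ((φ n).normed volume ⋆[ContinuousLinearMap.lsmul ℝ ℝ, volume] h1) x =
      ((φ n).normed volume ⋆[ContinuousLinearMap.lsmul ℝ ℝ, volume]
        (radKer r ⋆[ContinuousLinearMap.lsmul ℝ ℝ, volume] h1)) x := by
    intro n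
    have hsm : ContDiff ℝ ∞ ((φ n).normed volume) := (φ n).contDiff_normed
    rw [← convolution_comm_kernels hηs.continuous (hcompk _ hηsupp) hsm.continuous
      (hcompk _ (hkn n)) h1int x]
    exact (radKer_convolution_eq hr (hcontk _ hsm (hkn n)) (ρ0 := 2 * r) (by linarith)
      ((hdiff _ hsm (hkn n)).mono hxsub)).symm
  have hlim := ContDiffBump.convolution_tendsto_right_of_continuous (μ := volume) hφ
    (hcontk _ hηs hηsupp) x
  exact tendsto_nhds_unique (hx.congr heq) hlim

/-- **Weyl's lemma for `∂̄`**: a locally integrable function on an open set `U ⊆ ℂ` which is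
weakly holomorphic agrees almost everywhere on `U` with a holomorphic function. -/
theorem weyl_dbar {U : Set ℂ} (hU : IsOpen U) {h : ℂ → ℂ} (hint : LocallyIntegrableOn h U)
    (hweak : WeaklyHolomorphicOn h U) :
    ∃ H : ℂ → ℂ, DifferentiableOn ℂ H U ∧ ∀ᵐ z ∂(volume.restrict U), h z = H z := by
  have hloc : ∀ z : U, ∃ r : ℝ, 0 < r ∧ ball (z : ℂ) r ⊆ U ∧ ∃ G : ℂ → ℂ, Continuous G ∧
      DifferentiableOn ℂ G (ball (z : ℂ) r) ∧ ∀ᵐ w, w ∈ ball (z : ℂ) r → h w = G w := by
    intro z
    obtain ⟨ε, hε, hεU⟩ := Metric.isOpen_iff.1 hU z z.2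
    refine ⟨ε / 8, by positivity, (ball_subset_ball (by linarith)).trans hεU,
      weyl_local hweak hint (by positivity) ?_⟩
    exact (closedBall_subset_ball (by linarith)).trans hεU
  choose r hr hrU G hGc hGd hGae using hloc
  have hagree : ∀ z z' : U, ∀ w ∈ ball (z : ℂ) (r z) ∩ ball (z' : ℂ) (r z'),
      G z w = G z' w := by
    intro z z' w hw
    have hopen : IsOpen (ball (z : ℂ) (r z) ∩ ball (z' : ℂ) (r z')) :=
      isOpen_ball.inter isOpen_ball
    have hae : G z =ᵐ[volume.restrict (ball (z : ℂ) (r z) ∩ ball (z' : ℂ) (r z'))] G z' := by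
      rw [Filter.EventuallyEq, ae_restrict_iff' hopen.measurableSet]
      filter_upwards [hGae z, hGae z'] with x hx hx' hxmem
      rw [← hx hxmem.1, ← hx' hxmem.2]
    exact Measure.eqOn_of_ae_eq hae (hGc z).continuousOn (hGc z').continuousOn
      (by rw [hopen.interior_eq]; exact subset_closure) hw
  classical
  let H : ℂ → ℂ := fun w => if hw : w ∈ U then G ⟨w, hw⟩ w else 0
  have hH : ∀ z : U, ∀ w ∈ ball (z : ℂ) (r z), H w = G z w := by
    intro z w hw
    have hwU : w ∈ U := hrU z hw
    simp only [H, dif_pos hwU]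
    exact hagree ⟨w, hwU⟩ z w ⟨mem_ball_self (hr _), hw⟩
  refine ⟨H, ?_, ?_⟩
  · intro w hwU
    have hmem : ball w (r ⟨w, hwU⟩) ∈ 𝓝 w := isOpen_ball.mem_nhds (mem_ball_self (hr ⟨w, hwU⟩))
    have heq : H =ᶠ[𝓝 w] G ⟨w, hwU⟩ := by
      filter_upwards [hmem] with x hx
      exact hH ⟨w, hwU⟩ x hx
    exact (((hGd ⟨w, hwU⟩ w (mem_ball_self (hr _))).differentiableAt hmem).congr_of_eventuallyEq
      heq).differentiableWithinAt
  · obtain ⟨T, hTc, hTU⟩ := TopologicalSpace.isOpen_iUnion_countable
      (fun z : U => ball (z : ℂ) (r z)) (fun z => isOpen_ball)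
    have hcover : U ⊆ ⋃ z ∈ T, ball (z : ℂ) (r z) := by
      rw [hTU]
      intro w hw
      exact mem_iUnion.2 ⟨⟨w, hw⟩, mem_ball_self (hr _)⟩
    rw [ae_restrict_iff' hU.measurableSet]
    have h1 : ∀ z ∈ T, ∀ᵐ w, w ∈ ball (z : ℂ) (r z) → h w = H w := by
      intro z _
      filter_upwards [hGae z] with w hw hwb
      rw [hH z w hwb]
      exact hw hwb
    have hall := (ae_ball_iff hTc).2 h1
    filter_upwards [hall] with w hw hwU
    obtain ⟨z, hzT, hwz⟩ := mem_iUnion₂.1 (hcover hwU)
    exact hw z hzT hwz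

end

end Fermat.Agent.S21.Weyl

namespace Fermat.Agent.S21

open MeasureTheory Complex Metric Set Filter Topology
open scoped ContDiff

/-- **Weyl's lemma** for `∂̄`. -/
theorem weyl_lemma_dbar {g : ℂ → ℂ} {Ω : Set ℂ} (hΩ : IsOpen Ω)
    (hg : LocallyIntegrableOn g Ω) (hweak : WeaklyHolomorphicOn g Ω) :
    ∃ f : ℂ → ℂ, DifferentiableOn ℂ f Ω ∧ ∀ᵐ z ∂(volume.restrict Ω), g z = f z :=
  Weyl.weyl_dbar hΩ hg hweak

end Fermat.Agent.S21
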