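import Fermat.Agent.S21.Defs
import Fermat.Agent.S21.GradC
import Fermat.Agent.S21.Weyl

/-!
# S21 leaf module `WeylH`

FROZEN STATEMENTS: prove the theorem(s) below exactly as stated (replace each `sorry`).
Put every auxiliary declaration inside `namespace Fermat.Agent.S21.WeylH` (to avoid name
clashes with other leaf files).  Do not edit `Defs.lean`.  You may add imports of other
S21 leaf modules listed in PLAN v1 (respect the dependency order, no cycles).
-/

set_option autoImplicit false

open ModularCurve ModularCurve.Period CongruenceSubgroup UpperHalfPlane MeasureTheory Filter Topology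
open scoped MatrixGroups ComplexConjugate ContDiff ENNReal

namespace Fermat.Agent.S21

namespace WeylH

/-- the Lebesgue measure transported to `ℍ` -/
noncomputable abbrev lam : Measure ℍ := (volume : Measure ℂ).comap UpperHalfPlane.coe

theorem map_coe_lam : Measure.map UpperHalfPlane.coe lam = volume.restrict upperHalfPlaneSet := by
  rw [lam, measurableEmbedding_coe.map_comap, range_coe]

/-- the density of the hyperbolic measure with respect to `lam` -/
noncomputable def rho (z : ℍ) : NNReal := (1 / NNReal.mk z.im z.im_pos.le : NNReal) ^ 2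

theorem volume_eq : (volume : Measure ℍ) = lam.withDensity fun z => (rho z : ℝ≥0∞) := rfl

theorem measurable_rho : Measurable rho := by
  unfold rho
  refine Measurable.pow_const (Measurable.const_div ?_ _) _
  exact (UpperHalfPlane.continuous_im.subtype_mk _).measurable

theorem rho_coe (z : ℍ) : (rho z : ℝ) = 1 / z.im ^ 2 := by
  simp [rho]

/-- integrals against the hyperbolic measure as Lebesgue integrals on the upper half plane -/
theorem integral_volume_eq (F : ℍ → ℂ) (G : ℂ → ℂ)
    (hFG : ∀ z : ℍ, (rho z : ℝ) • F z = G z) :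
    ∫ z : ℍ, F z = ∫ w in upperHalfPlaneSet, G w := by
  rw [volume_eq, integral_withDensity_eq_integral_smul measurable_rho, ← map_coe_lam,
    measurableEmbedding_coe.integral_map]
  refine integral_congr_ae (Filter.Eventually.of_forall fun z => ?_)
  simp only [NNReal.smul_def]
  exact hFG z

theorem ofComplex_coe_eq {w : ℂ} (hw : w ∈ upperHalfPlaneSet) : ((ofComplex w : ℍ) : ℂ) = w := by
  rw [ofComplex_apply_of_im_pos hw]

end WeylH

open WeylH in
/-- Y: Weyl's lemma on `ℍ`. -/
theorem weyl_upperHalfPlane (h : ℍ → ℂ) (hm : Measurable h)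
    (hloc : ∀ K : Set ℍ, IsCompact K → ∫⁻ z in K, ‖h z‖ₑ ^ 2 < ⊤)
    (hweak : ∀ φ : ℍ → ℝ, SmoothH φ → HasCompactSupport φ →
      pairing (fun _ => 1) h (gradC φ) = 0) :
    ∃ h' : ℍ → ℂ, DifferentiableOn ℂ (h' ∘ ofComplex) upperHalfPlaneSet ∧ h =ᵐ[volume] h' := by
  classical
  -- the function on `ℂ`
  set g : ℂ → ℂ := Function.extend UpperHalfPlane.coe h 0 with hg_def
  have hg_coe : ∀ z : ℍ, g (z : ℂ) = h z := fun z => coe_injective.extend_apply h 0 z
  have hg_meas : Measurable g := measurableEmbedding_coe.measurable_extend hm measurable_const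
  have hΩ : IsOpen upperHalfPlaneSet := isOpen_upperHalfPlaneSet
  -- local integrability
  have hloc' : LocallyIntegrableOn g upperHalfPlaneSet := by
    rw [locallyIntegrableOn_iff hΩ.isLocallyClosed]
    intro k hk hkc
    have hKc : IsCompact (UpperHalfPlane.coe ⁻¹' k) := by
      rw [isEmbedding_coe.isInducing.isCompact_preimage_iff (by rw [range_coe]; exact hk)]
      exact hkc
    have hKm : MeasurableSet (UpperHalfPlane.coe ⁻¹' k) := hKc.measurableSet
    have hfin := hloc _ hKc
    -- bound for `im` on `K`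
    obtain ⟨M, hM⟩ := hKc.exists_bound_of_continuousOn (f := fun z : ℍ => z.im)
      UpperHalfPlane.continuous_im.continuousOn
    set B : ℝ := max M 1 with hB_def
    have hB : ∀ z ∈ UpperHalfPlane.coe ⁻¹' k, z.im ≤ B := fun z hz =>
      ((le_abs_self _).trans (hM z hz)).trans (le_max_left _ _)
    have hBpos : 0 < B := lt_of_lt_of_le one_pos (le_max_right _ _)
    have hone : ∀ z ∈ UpperHalfPlane.coe ⁻¹' k, (1 : ℝ≥0∞) ≤ ENNReal.ofReal (B ^ 2) * (rho z : ℝ≥0∞) := by
      intro z hz
      rw [← ENNReal.ofReal_coe_nnreal, rho_coe, ← ENNReal.ofReal_mul (by positivity),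
        ← ENNReal.ofReal_one]
      apply ENNReal.ofReal_le_ofReal
      have hy : 0 < z.im := z.im_pos
      rw [mul_one_div, one_le_div (by positivity)]
      exact pow_le_pow_left₀ hy.le (hB z hz) 2
    have key : ∫⁻ w in k, ‖g w‖ₑ ^ 2 ≤
        ENNReal.ofReal (B ^ 2) * ∫⁻ z in UpperHalfPlane.coe ⁻¹' k, ‖h z‖ₑ ^ 2 := by
      have h1 : (volume : Measure ℂ).restrict k =
          Measure.map UpperHalfPlane.coe (lam.restrict (UpperHalfPlane.coe ⁻¹' k)) := by
        rw [← measurableEmbedding_coe.restrict_map, map_coe_lam,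
          Measure.restrict_restrict_of_subset hk]
      rw [h1, measurableEmbedding_coe.lintegral_map]
      simp only [hg_coe]
      rw [volume_eq, setLIntegral_withDensity_eq_setLIntegral_mul _
        measurable_rho.coe_nnreal_ennreal (hm.enorm.pow_const 2) hKm,
        ← lintegral_const_mul' _ _ ENNReal.ofReal_ne_top]
      refine setLIntegral_mono' hKm fun z hz => ?_
      simp only [Pi.mul_apply]
      rw [← mul_assoc]
      calc ‖h z‖ₑ ^ 2 = 1 * ‖h z‖ₑ ^ 2 := (one_mul _).symm
        _ ≤ ENNReal.ofReal (B ^ 2) * (rho z : ℝ≥0∞) * ‖h z‖ₑ ^ 2 := by gcongr; exact hone z hz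
    refine ⟨hg_meas.aestronglyMeasurable, ?_⟩
    rw [hasFiniteIntegral_iff_enorm]
    have hpt : ∀ x : ℝ≥0∞, x ≤ 1 + x ^ 2 := by
      intro x
      rcases le_total x 1 with hx | hx
      · exact hx.trans le_self_add
      · calc x = x * 1 := (mul_one x).symm
          _ ≤ x * x := by gcongr
          _ = x ^ 2 := (sq x).symm
          _ ≤ 1 + x ^ 2 := le_add_self
    calc ∫⁻ w in k, ‖g w‖ₑ ≤ ∫⁻ w in k, (1 + ‖g w‖ₑ ^ 2) := lintegral_mono fun w => hpt _
      _ = volume k + ∫⁻ w in k, ‖g w‖ₑ ^ 2 := by
          rw [lintegral_add_left measurable_const]; simp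
      _ < ⊤ := ENNReal.add_lt_top.mpr ⟨hkc.measure_lt_top,
          lt_of_le_of_lt key (ENNReal.mul_lt_top ENNReal.ofReal_lt_top hfin)⟩
  -- weak holomorphy
  have hweak' : WeaklyHolomorphicOn g upperHalfPlaneSet := by
    intro ψ hψ hψc hψs
    set φ : ℍ → ℝ := fun z => ψ (z : ℂ) with hφ_def
    have hφ_eq : ∀ w ∈ upperHalfPlaneSet, (φ ∘ ofComplex) w = ψ w := by
      intro w hw
      simp only [Function.comp_apply, hφ_def]
      rw [ofComplex_coe_eq hw]
    have hφs : SmoothH φ := hψ.contDiffOn.congr hφ_eq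
    have hφc : HasCompactSupport φ := by
      have hK : IsCompact (UpperHalfPlane.coe ⁻¹' (tsupport ψ)) := by
        rw [isEmbedding_coe.isInducing.isCompact_preimage_iff (by rw [range_coe]; exact hψs)]
        exact hψc
      refine IsCompact.of_isClosed_subset hK (isClosed_tsupport _) ?_
      have hcl : IsClosed (UpperHalfPlane.coe ⁻¹' (tsupport ψ)) :=
        (isClosed_tsupport ψ).preimage UpperHalfPlane.continuous_coe
      refine closure_minimal ?_ hcl
      intro z hz
      exact subset_tsupport ψ hz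
    have h0 := hweak φ hφs hφc
    rw [pairing, integral_volume_eq _ (fun w => g w * dbarR ψ w)] at h0
    · rw [← h0]
      symm
      refine setIntegral_eq_integral_of_forall_compl_eq_zero fun w hw => ?_
      have hw' : w ∉ tsupport ψ := fun hmem => hw (hψs hmem)
      simp [dbarR, fderiv_of_notMem_tsupport (𝕜 := ℝ) hw']
    · intro z
      have hfd : fderiv ℝ (φ ∘ ofComplex) (z : ℂ) = fderiv ℝ ψ (z : ℂ) := by
        apply Filter.EventuallyEq.fderiv_eq
        filter_upwards [hΩ.mem_nhds z.im_pos] with w hw using hφ_eq w hw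
      have hy : (z.im : ℝ) ≠ 0 := z.im_ne_zero
      have hyc : ((z.im : ℝ) : ℂ) ≠ 0 := by exact_mod_cast hy
      rw [rho_coe, hg_coe, gradC, dbarR, hfd]
      simp only [map_sub, map_mul, Complex.conj_ofReal, Complex.conj_I, Complex.real_smul]
      push_cast
      field_simp
      ring
  obtain ⟨f, hf, hgf⟩ := weyl_lemma_dbar hΩ hloc' hweak'
  refine ⟨fun z => f (z : ℂ), ?_, ?_⟩
  · refine hf.congr fun w hw => ?_
    simp only [Function.comp_apply]
    rw [ofComplex_coe_eq hw]
  · have habs : (volume : Measure ℍ) ≪ lam := by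
      rw [volume_eq]; exact withDensity_absolutelyContinuous _ _
    refine habs.ae_le ?_
    rw [← map_coe_lam, measurableEmbedding_coe.ae_map_iff] at hgf
    filter_upwards [hgf] with z hz
    rw [← hg_coe z, hz]

end Fermat.Agent.S21
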