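import Fermat.Agent.S21.Defs
import Fermat.Agent.S21.Reduction
import Fermat.Agent.S21.Primitive
import Fermat.Agent.S21.GradC
import Fermat.Agent.S21.SmoothPeriods
import Fermat.Agent.S21.Weight
import Fermat.Agent.S21.Energy
import Fermat.Agent.S21.FiniteEnergy
import Fermat.Agent.S21.HodgeLimit
import Fermat.Agent.S21.Periodize
import Fermat.Agent.S21.Closed
import Fermat.Agent.S21.WeylH
import Fermat.Agent.S21.LimitInvariant
import Fermat.Agent.S21.CuspFormOfL2
import Fermat.Agent.S21.PeriodLimit

/-!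
# S21 leaf module `Hodge`: assembly of the real Hodge surjectivity (helper21)
-/

set_option autoImplicit false

open ModularCurve ModularCurve.Period CongruenceSubgroup UpperHalfPlane MeasureTheory Filter Topology
open scoped MatrixGroups ComplexConjugate ContDiff ENNReal

namespace Fermat.Agent.S21

namespace Hodge

/-- energy only depends on the a.e. class -/
theorem energy_congr_ae (W : ℍ → ℝ) {a b : ℍ → ℂ} (h : a =ᵐ[volume] b) :
    energy W a = energy W b := by
  unfold energy
  apply lintegral_congr_ae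
  filter_upwards [h] with z hz
  rw [hz]

/-- the indicator-weight energy is controlled by the `W`-energy -/
theorem energy_indicator_le {N : ℕ} {W : ℍ → ℝ} (hW : IsPartitionWeight N W)
    (K : Set ℍ) (hK : IsCompact K) :
    ∃ C : ℝ≥0∞, C < ⊤ ∧ ∀ a : ℍ → ℂ,
      energy (K.indicator fun _ => (1 : ℝ)) a ≤ C * energy W a := by
  obtain ⟨C, hC, hCb⟩ := setLIntegral_le_energy hW K hK
  -- bound of `im ^ 2` on `K`
  obtain ⟨M, hM⟩ : ∃ M : ℝ, ∀ z ∈ K, z.im ^ 2 ≤ M := by
    have hcont : ContinuousOn (fun z : ℍ => z.im ^ 2) K :=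
      (UpperHalfPlane.continuous_im.pow 2).continuousOn
    obtain ⟨M, hM⟩ := hK.bddAbove_image hcont
    exact ⟨M, fun z hz => hM ⟨z, hz, rfl⟩⟩
  refine ⟨ENNReal.ofReal M * C, ENNReal.mul_lt_top ENNReal.ofReal_lt_top hC, fun a => ?_⟩
  have hKm : MeasurableSet K := hK.isClosed.measurableSet
  calc energy (K.indicator fun _ => (1 : ℝ)) a
      = ∫⁻ z : ℍ, K.indicator (fun z => ENNReal.ofReal (z.im ^ 2) * ‖a z‖ₑ ^ 2) z := by
        unfold energy
        apply lintegral_congr
        intro z
        by_cases hz : z ∈ K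
        · simp [hz]
        · simp [hz]
    _ = ∫⁻ z in K, ENNReal.ofReal (z.im ^ 2) * ‖a z‖ₑ ^ 2 := lintegral_indicator hKm _
    _ ≤ ∫⁻ z in K, ENNReal.ofReal M * ‖a z‖ₑ ^ 2 := by
        apply setLIntegral_mono' hKm
        intro z hz
        gcongr
        exact hM z hz
    _ = ENNReal.ofReal M * ∫⁻ z in K, ‖a z‖ₑ ^ 2 := by
        rw [lintegral_const_mul' _ _ ENNReal.ofReal_ne_top]
    _ ≤ ENNReal.ofReal M * (C * energy W a) := by gcongr; exact hCb a
    _ = ENNReal.ofReal M * C * energy W a := by rw [mul_assoc]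

/-- outside the topological support the gradient vanishes -/
theorem gradC_eq_zero_of_notMem_tsupport {φ : ℍ → ℝ} {z : ℍ} (hz : z ∉ tsupport φ) :
    gradC φ z = 0 := by
  apply gradC_eq_zero_of_eventually_const (c := 0)
  have hopen : IsOpen (tsupport φ)ᶜ := (isClosed_tsupport φ).isOpen_compl
  filter_upwards [hopen.mem_nhds hz] with w hw
  exact image_eq_zero_of_notMem_tsupport hw

/-- the unweighted pairing against a compactly supported gradient is an indicator pairing -/
theorem pairing_indicator_eq (a : ℍ → ℂ) (φ : ℍ → ℝ) :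
    pairing ((tsupport φ).indicator fun _ => (1 : ℝ)) a (gradC φ)
      = pairing (fun _ => 1) a (gradC φ) := by
  unfold pairing
  apply integral_congr_ae
  refine Filter.Eventually.of_forall fun z => ?_
  by_cases hz : z ∈ tsupport φ
  · simp [hz]
  · simp [hz, gradC_eq_zero_of_notMem_tsupport hz]

/-- a continuous function vanishing outside a compact set has finite energy -/
theorem energy_lt_top_of_compact {W : ℍ → ℝ} (hWc : Continuous W) (hW0 : ∀ z, 0 ≤ W z)
    {a : ℍ → ℂ} (ha : Continuous a) {K : Set ℍ} (hK : IsCompact K) (hz : ∀ z ∉ K, a z = 0) :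
    energy W a < ⊤ := by
  have hcont : Continuous (fun z : ℍ => W z * z.im ^ 2 * ‖a z‖ ^ 2) :=
    (hWc.mul (UpperHalfPlane.continuous_im.pow 2)).mul (ha.norm.pow 2)
  obtain ⟨M, hM⟩ := hK.exists_bound_of_continuousOn hcont.continuousOn
  have hKm : MeasurableSet K := hK.isClosed.measurableSet
  calc energy W a
      = ∫⁻ z : ℍ, K.indicator (fun z => ENNReal.ofReal (W z * z.im ^ 2) * ‖a z‖ₑ ^ 2) z := by
        unfold energy
        apply lintegral_congr
        intro z
        by_cases h : z ∈ K
        · simp [h]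
        · simp [h, hz z h]
    _ = ∫⁻ z in K, ENNReal.ofReal (W z * z.im ^ 2) * ‖a z‖ₑ ^ 2 := lintegral_indicator hKm _
    _ ≤ ∫⁻ _z in K, ENNReal.ofReal M := by
        apply setLIntegral_mono' hKm
        intro z hzK
        have h1 : ‖a z‖ₑ ^ 2 = ENNReal.ofReal (‖a z‖ ^ 2) := by
          rw [ENNReal.ofReal_pow (norm_nonneg _), ofReal_norm]
        rw [h1, ← ENNReal.ofReal_mul (mul_nonneg (hW0 z) (sq_nonneg _))]
        apply ENNReal.ofReal_le_ofReal
        exact le_trans (le_abs_self _) (by simpa using hM z hzK)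
    _ < ⊤ := by
        rw [setLIntegral_const]
        exact ENNReal.mul_lt_top ENNReal.ofReal_lt_top hK.measure_lt_top

end Hodge

open Hodge in
/-- T7: real Hodge surjectivity (assembly). -/
theorem re_period_surjective (N : ℕ) [NeZero N] (ψ : Additive (Gamma0 N) →+ ℝ)
    (hψ : IsParabolicHom (Gamma0 N) ψ) :
    ∃ f : CuspForm (Gamma0 N) 2, ∀ γ : Gamma0 N,
      (periodMap N f (Additive.ofMul γ)).re = ψ (Additive.ofMul γ) := by
  obtain ⟨u, hu, hper, hcusp⟩ := exists_smooth_periods N ψ hψ
  obtain ⟨W, hW⟩ := exists_partitionWeight N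
  have hWm : Measurable W := hW.continuous.measurable
  have hg₀c : Continuous (gradC u) := continuous_gradC hu
  have hg₀inv : IsWeightTwoInv N (gradC u) :=
    isWeightTwoInv_gradC hu (fun γ => ⟨ψ (Additive.ofMul γ), hper γ⟩)
  have hg₀E : energy W (gradC u) < ⊤ := energy_gradC_lt_top hW u hu hg₀inv hcusp
  obtain ⟨h, v, hhm, hhE, hv, hlim, horth⟩ := exists_hodge_limit hW (gradC u) hg₀c hg₀E
  -- the approximating closed forms
  let g : ℕ → ℍ → ℂ := fun n z => gradC u z - gradC (v n) z
  have hgc : ∀ n, Continuous (g n) := fun n => hg₀c.sub (continuous_gradC (hv n).smooth)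
  have hg_eq : ∀ n, g n = gradC (fun z => u z - v n z) := fun n => by
    funext z; exact (gradC_sub hu (hv n).smooth z).symm
  have hginv : ∀ n, IsWeightTwoInv N (g n) := by
    intro n
    rw [hg_eq n]
    refine isWeightTwoInv_gradC (hu.sub (hv n).smooth) (fun γ => ⟨ψ (Additive.ofMul γ), fun z => ?_⟩)
    show u ((γ : SL(2, ℤ)) • z) - v n ((γ : SL(2, ℤ)) • z) = u z - v n z + ψ (Additive.ofMul γ)
    rw [hper γ z, (hv n).invariant γ z]; ring
  have hgE : ∀ n, energy W (g n) < ⊤ := fun n =>
    energy_sub_lt_top hWm hg₀c.measurable (continuous_gradC (hv n).smooth).measurable hg₀E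
      (hv n).finite_energy
  have hlim' : Tendsto (fun n => energy W (fun z => g n z - h z)) atTop (𝓝 0) := hlim
  -- weak holomorphy of `h`
  have hweak : ∀ φ : ℍ → ℝ, SmoothH φ → HasCompactSupport φ →
      pairing (fun _ => 1) h (gradC φ) = 0 := by
    intro φ hφ hφc
    have hadm := periodize_admissible (N := N) hW φ hφ hφc
    have h1 : ∀ n, pairing (fun _ => 1) (g n) (gradC φ)
        = pairing W (g n) (gradC (periodize N φ)) := fun n =>
      (pairing_periodize hW φ hφ hφc (g n) (hgc n) (hginv n)).symm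
    have h2 : ∀ n, (pairing (fun _ => 1) (g n) (gradC φ)).im = 0 := by
      intro n
      rw [hg_eq n]
      exact pairing_gradC_im_eq_zero _ φ (hu.sub (hv n).smooth) hφ hφc
    have h3 : Tendsto (fun n => pairing W (g n) (gradC (periodize N φ))) atTop
        (𝓝 (pairing W h (gradC (periodize N φ)))) :=
      tendsto_pairing hWm (fun z => (hW.pos z).le) g h _ (fun n => (hgc n).measurable) hhm
        (continuous_gradC hadm.smooth).measurable hgE hhE hadm.finite_energy hlim'
    have h4 : (pairing W h (gradC (periodize N φ))).re = 0 := horth _ hadm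
    -- local convergence
    have h5 : Tendsto (fun n => pairing (fun _ => 1) (g n) (gradC φ)) atTop
        (𝓝 (pairing (fun _ => 1) h (gradC φ))) := by
      obtain ⟨C, hC, hCb⟩ := energy_indicator_le hW (tsupport φ) hφc
      have hKm : MeasurableSet (tsupport φ) := (isClosed_tsupport φ).measurableSet
      have hW'm : Measurable ((tsupport φ).indicator fun _ : ℍ => (1 : ℝ)) :=
        measurable_const.indicator hKm
      have hW'0 : ∀ z, 0 ≤ (tsupport φ).indicator (fun _ : ℍ => (1 : ℝ)) z := fun z =>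
        Set.indicator_nonneg (fun _ _ => zero_le_one) z
      have hfin : ∀ a : ℍ → ℂ, energy W a < ⊤ →
          energy ((tsupport φ).indicator fun _ => (1 : ℝ)) a < ⊤ := fun a ha =>
        lt_of_le_of_lt (hCb a) (ENNReal.mul_lt_top hC ha)
      have hφE : energy W (gradC φ) < ⊤ := by
        exact energy_lt_top_of_compact hW.continuous (fun z => (hW.pos z).le)
          (continuous_gradC hφ) hφc (fun z hz => gradC_eq_zero_of_notMem_tsupport hz)
      have hlim'' : Tendsto (fun n => energy ((tsupport φ).indicator fun _ => (1 : ℝ))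
          (fun z => g n z - h z)) atTop (𝓝 0) := by
        have hb : Tendsto (fun n => C * energy W (fun z => g n z - h z)) atTop (𝓝 0) := by
          have := ENNReal.Tendsto.const_mul hlim' (Or.inr hC.ne)
          simpa using this
        exact tendsto_of_tendsto_of_tendsto_of_le_of_le tendsto_const_nhds hb
          (fun n => zero_le) (fun n => hCb _)
      have := tendsto_pairing hW'm hW'0 g h (gradC φ) (fun n => (hgc n).measurable) hhm
        (continuous_gradC hφ).measurable (fun n => hfin _ (hgE n)) (hfin _ hhE) (hfin _ hφE) hlim''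
      simpa only [pairing_indicator_eq] using this
    have h6 : Tendsto (fun n => pairing (fun _ => 1) (g n) (gradC φ)) atTop
        (𝓝 (pairing W h (gradC (periodize N φ)))) := by
      simpa only [h1] using h3
    have h7 := tendsto_nhds_unique h5 h6
    have h8 : (pairing (fun _ => 1) h (gradC φ)).im = 0 := by
      have ht := (Complex.continuous_im.tendsto _).comp h5
      have hz : (fun n => (pairing (fun _ => 1) (g n) (gradC φ)).im) = fun _ => 0 := by
        funext n; exact h2 n
      have ht' : Tendsto (fun n => (pairing (fun _ => 1) (g n) (gradC φ)).im) atTop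
          (𝓝 (pairing (fun _ => 1) h (gradC φ)).im) := ht
      rw [hz] at ht'
      exact (tendsto_nhds_unique ht' tendsto_const_nhds)
    apply Complex.ext
    · rw [h7]; exact h4
    · exact h8
  -- Weyl's lemma
  have hloc : ∀ K : Set ℍ, IsCompact K → ∫⁻ z in K, ‖h z‖ₑ ^ 2 < ⊤ := by
    intro K hK
    obtain ⟨C, hC, hCb⟩ := setLIntegral_le_energy hW K hK
    exact lt_of_le_of_lt (hCb h) (ENNReal.mul_lt_top hC hhE)
  obtain ⟨h', hol, hae⟩ := weyl_upperHalfPlane h hhm hloc hweak
  have hh'c : Continuous h' := by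
    have hc : ContinuousOn (h' ∘ ofComplex) upperHalfPlaneSet := hol.continuousOn
    have : h' = fun z : ℍ => (h' ∘ ofComplex) (z : ℂ) := by
      funext z; simp [Function.comp, ofComplex_apply]
    rw [this]
    exact hc.comp_continuous UpperHalfPlane.continuous_coe (fun z => z.2)
  have hloclim : ∀ K : Set ℍ, IsCompact K →
      Tendsto (fun n => ∫⁻ z in K, ‖g n z - h' z‖ₑ ^ 2) atTop (𝓝 0) := by
    intro K hK
    obtain ⟨C, hC, hCb⟩ := setLIntegral_le_energy hW K hK
    have hb : Tendsto (fun n => C * energy W (fun z => g n z - h z)) atTop (𝓝 0) := by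
      have := ENNReal.Tendsto.const_mul hlim' (Or.inr hC.ne)
      simpa using this
    refine tendsto_of_tendsto_of_tendsto_of_le_of_le tendsto_const_nhds hb
      (fun n => zero_le) (fun n => ?_)
    have heq : ∫⁻ z in K, ‖g n z - h' z‖ₑ ^ 2 = ∫⁻ z in K, ‖g n z - h z‖ₑ ^ 2 := by
      apply lintegral_congr_ae
      filter_upwards [ae_restrict_of_ae hae] with z hz
      rw [hz]
    show ∫⁻ z in K, ‖g n z - h' z‖ₑ ^ 2 ≤ C * energy W (fun z => g n z - h z)
    rw [heq]
    exact hCb _
  have hinv' : IsWeightTwoInv N h' := isWeightTwoInv_of_tendsto h' hh'c g hgc hginv hloclim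
  have hE' : energy W h' < ⊤ := by rw [← energy_congr_ae W hae]; exact hhE
  obtain ⟨f, hf⟩ := exists_cuspForm_of_energy_lt_top hW h' hol hinv' hE'
  refine ⟨f, fun γ => ?_⟩
  obtain ⟨F, hF⟩ := exists_primitive N f
  obtain ⟨hsm, hgrad⟩ := smoothH_re_of_hasDerivAt (F := F) (f := f) hF.1
  let Ω : ℍ → ℝ := fun z => u z - (F z).re
  have hΩ : SmoothH Ω := hu.sub hsm
  have hΩgrad : ∀ z, gradC Ω z = gradC u z - h' z := fun z => by
    show gradC (fun z => u z - (F z).re) z = _
    rw [gradC_sub hu hsm, hgrad, hf]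
  have hΩγ : ∀ z : ℍ, Ω ((γ : SL(2, ℤ)) • z)
      = Ω z + (ψ (Additive.ofMul γ) - (periodMap N f (Additive.ofMul γ)).re) := by
    intro z
    have e1 := hper γ z
    have e2 := hF.2.2.1.sub_eq_period γ z
    have e3 := periodMap_apply hF γ
    have e4 : F ((γ : SL(2, ℤ)) • z) = F z + periodMap N f (Additive.ofMul γ) := by
      rw [e3]
      have : hF.2.2.1.period γ = F ((γ : SL(2, ℤ)) • UpperHalfPlane.I) - F UpperHalfPlane.I := rfl
      rw [← this, ← e2]; ring
    show u ((γ : SL(2, ℤ)) • z) - (F ((γ : SL(2, ℤ)) • z)).re = u z - (F z).re + _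
    rw [e1, e4, Complex.add_re]; ring
  have hc0 := period_eq_zero_of_tendsto Ω hΩ v (fun n => (hv n).smooth) (γ : SL(2, ℤ))
    (fun n z => (hv n).invariant γ z) _ hΩγ (by
      intro K hK
      have := hloclim K hK
      have heq : ∀ n z, gradC Ω z - gradC (v n) z = g n z - h' z := fun n z => by
        rw [hΩgrad]; show _ = gradC u z - gradC (v n) z - h' z; ring
      simpa only [heq] using this)
  linarith
  
end Fermat.Agent.S21
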