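import Fermat.Agent.S21.Defs
import Fermat.Agent.S21.Primitive

/-!
# S21 leaf module `Injective`

FROZEN STATEMENT `period_conj_eq_zero` (skeleton v1 of helper21), PROVED here by helper2721.
Auxiliary declarations live in `namespace Fermat.Agent.S21.Injective`.
The only dependency on other leaves is `exists_primitive` (module `Primitive`).

Proof (helper2721): maximum modulus principle on `X₀(N)` for `exp (c * H)`, using the cusp
functions of the translates `H ∘ δ`, `δ ∈ SL(2, ℤ)`, and the finite index of `Γ₀(N)`.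
-/

set_option autoImplicit false

open ModularCurve ModularCurve.Period CongruenceSubgroup UpperHalfPlane MeasureTheory Filter Topology
open scoped MatrixGroups ComplexConjugate ContDiff ENNReal

namespace Fermat.Agent.S21.Injective

/-! ### A maximum modulus principle on the modular curve -/

open scoped Manifold in
/-- **Maximum modulus principle on `X₀(N)`.** A holomorphic function on the upper half plane whose
absolute value is `Γ₀(N)`-invariant, and which is `N`-periodic and bounded at `i∞` after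
translation by any element of `SL(2, ℤ)`, is constant. -/
theorem eq_of_norm_invariant (N : ℕ) [NeZero N] (Φ : ℍ → ℂ)
    (hΦ : MDiff Φ)
    (hinv : ∀ γ ∈ Gamma0 N, ∀ z : ℍ, ‖Φ (γ • z)‖ = ‖Φ z‖)
    (hper : ∀ (δ : SL(2, ℤ)) (w : ℍ), Φ (δ • ((N : ℝ) +ᵥ w)) = Φ (δ • w))
    (hbdd : ∀ δ : SL(2, ℤ), IsBoundedAtImInfty (fun w : ℍ => Φ (δ • w))) :
    ∀ z w : ℍ, Φ z = Φ w := by
  have hN : (0 : ℝ) < N := by exact_mod_cast Nat.pos_of_ne_zero (NeZero.ne N)
  -- the translates of `Φ`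
  set Ψ : SL(2, ℤ) → ℍ → ℂ := fun δ w => Φ (δ • w) with hΨ
  have hΨdiff : ∀ δ : SL(2, ℤ), MDiff (Ψ δ) := by
    intro δ
    have h1 : MDiff (fun τ : ℍ => (Matrix.SpecialLinearGroup.mapGL ℝ δ) • τ) :=
      mdifferentiable_smul (by simp)
    exact hΦ.comp h1
  have hΨper : ∀ δ : SL(2, ℤ), Function.Periodic (Ψ δ ∘ ofComplex) (N : ℝ) := by
    intro δ x
    by_cases hx : 0 < x.im
    · have hx' : 0 < (x + (N : ℝ)).im := by simpa using hx
      simp only [Function.comp_apply, ofComplex_apply_of_im_pos hx', ofComplex_apply_of_im_pos hx]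
      have : (⟨x + (N : ℝ), hx'⟩ : ℍ) = (N : ℝ) +ᵥ (⟨x, hx⟩ : ℍ) := by
        apply UpperHalfPlane.ext
        simp [add_comm]
      rw [this]
      exact hper δ _
    · have hx0 : x.im ≤ 0 := not_lt.mp hx
      have hx' : (x + (N : ℝ)).im ≤ 0 := by simpa using hx0
      show Ψ δ (ofComplex (x + ((N : ℝ) : ℂ))) = Ψ δ (ofComplex x)
      rw [ofComplex_apply_eq_of_im_nonpos hx' hx0]
  -- cusp functions
  set G : SL(2, ℤ) → ℂ → ℂ := fun δ => cuspFunction (N : ℝ) (Ψ δ) with hG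
  have hGdiff : ∀ δ, DifferentiableOn ℂ (G δ) (Metric.ball 0 1) := fun δ =>
    differentiableOn_cuspFunction_ball hN (hΨper δ) (hΨdiff δ) (hbdd δ)
  have hGeq : ∀ δ (τ : ℍ), G δ (Function.Periodic.qParam (N : ℝ) τ) = Ψ δ τ := fun δ τ =>
    eq_cuspFunction τ hN.ne' (hΨper δ)
  have hqlt : ∀ τ : ℍ, ‖Function.Periodic.qParam (N : ℝ) τ‖ < 1 := by
    intro τ
    rw [Function.Periodic.norm_qParam, Real.exp_lt_one_iff]
    have : 0 < 2 * Real.pi * τ.im / N := by have := τ.im_pos; positivity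
    have h2 : -2 * Real.pi * (τ : ℂ).im / N = -(2 * Real.pi * τ.im / N) := by
      rw [UpperHalfPlane.coe_im]; ring
    rw [h2]; linarith
  -- the compact disc containing the image of the fundamental domain
  set r : ℝ := Real.exp (-Real.pi / N) with hr
  have hr1 : r < 1 := by
    rw [hr, Real.exp_lt_one_iff]
    have : 0 < Real.pi / N := by positivity
    rw [neg_div]; linarith
  have hr0 : 0 ≤ r := (Real.exp_pos _).le
  have hqfd : ∀ w : ℍ, w ∈ ModularGroup.fd →
      Function.Periodic.qParam (N : ℝ) w ∈ Metric.closedBall (0 : ℂ) r := by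
    intro w hw
    rw [mem_closedBall_zero_iff, Function.Periodic.norm_qParam, hr, Real.exp_le_exp]
    have h3 := ModularGroup.three_le_four_mul_im_sq_of_mem_fd hw
    have hwim : 1 / 2 ≤ w.im := by
      by_contra hlt
      rw [not_le] at hlt
      have := w.im_pos
      nlinarith
    rw [UpperHalfPlane.coe_im, div_le_div_iff_of_pos_right hN]
    nlinarith [Real.pi_pos]
  have hKsub : Metric.closedBall (0 : ℂ) r ⊆ Metric.ball 0 1 :=
    Metric.closedBall_subset_ball hr1
  have hK : IsCompact (Metric.closedBall (0 : ℂ) r) := isCompact_closedBall 0 r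
  have hKne : (Metric.closedBall (0 : ℂ) r).Nonempty := ⟨0, by simpa using hr0⟩
  -- maxima on the compact disc
  have hmax : ∀ δ : SL(2, ℤ), ∃ x ∈ Metric.closedBall (0 : ℂ) r,
      ∀ y ∈ Metric.closedBall (0 : ℂ) r, ‖G δ y‖ ≤ ‖G δ x‖ := by
    intro δ
    have hc : ContinuousOn (fun y => ‖G δ y‖) (Metric.closedBall (0 : ℂ) r) :=
      ((hGdiff δ).continuousOn.mono hKsub).norm
    obtain ⟨x, hx, hxmax⟩ := hK.exists_isMaxOn hKne hc
    exact ⟨x, hx, fun y hy => hxmax hy⟩
  choose xmax hxmem hxmax using hmax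
  -- coset representatives
  let Q := SL(2, ℤ) ⧸ Gamma0 N
  let rep : Q → SL(2, ℤ) := fun q => (Quotient.out q)⁻¹
  obtain ⟨q₀, hq₀⟩ := Finite.exists_max (fun q : Q => ‖G (rep q) (xmax (rep q))‖)
  set δ₀ := rep q₀ with hδ₀
  set M := ‖G δ₀ (xmax δ₀)‖ with hM
  -- the global bound
  have hbound : ∀ z : ℍ, ‖Φ z‖ ≤ M := by
    intro z
    obtain ⟨g, hg⟩ := ModularGroup.exists_smul_mem_fd z
    obtain ⟨h, hh⟩ := QuotientGroup.mk_out_eq_mul (Gamma0 N) g
    set q : Q := (QuotientGroup.mk g : Q) with hq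
    have hz : z = (h : SL(2, ℤ)) • (rep q • (g • z)) := by
      have : (h : SL(2, ℤ)) * rep q * g = 1 := by
        show (h : SL(2, ℤ)) * (Quotient.out q)⁻¹ * g = 1
        have hh' : Quotient.out q = g * h := hh
        rw [hh']; group
      rw [← mul_smul, ← mul_smul, this, one_smul]
    calc ‖Φ z‖ = ‖Φ ((h : SL(2, ℤ)) • (rep q • (g • z)))‖ := by rw [← hz]
      _ = ‖Φ (rep q • (g • z))‖ := hinv _ h.2 _
      _ = ‖G (rep q) (Function.Periodic.qParam (N : ℝ) (g • z : ℍ))‖ := by rw [hGeq]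
      _ ≤ ‖G (rep q) (xmax (rep q))‖ := hxmax _ _ (hqfd _ hg)
      _ ≤ M := hq₀ q
  -- the bound for the cusp function on the whole disc
  have hGbound : ∀ x ∈ Metric.ball (0 : ℂ) 1, ‖G δ₀ x‖ ≤ M := by
    have hne : ∀ x ∈ Metric.ball (0 : ℂ) 1, x ≠ 0 → ‖G δ₀ x‖ ≤ M := by
      intro x hx hx0
      have hx1 : ‖x‖ < 1 := by simpa using hx
      have him := Function.Periodic.im_invQParam_pos_of_norm_lt_one hN hx1 hx0
      have hxq := Function.Periodic.qParam_right_inv hN.ne' hx0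
      have := hGeq δ₀ ⟨_, him⟩
      rw [UpperHalfPlane.coe_mk, hxq] at this
      rw [this]
      exact hbound _
    intro x hx
    by_cases hx0 : x = 0
    · subst hx0
      have hcont : ContinuousAt (G δ₀) 0 :=
        ((hGdiff δ₀).differentiableAt (Metric.isOpen_ball.mem_nhds hx)).continuousAt
      have htend : Tendsto (fun y => ‖G δ₀ y‖) (𝓝[≠] (0 : ℂ)) (𝓝 ‖G δ₀ 0‖) :=
        (hcont.norm.tendsto).mono_left nhdsWithin_le_nhds
      refine le_of_tendsto htend ?_
      have h1 : Metric.ball (0 : ℂ) 1 ∈ 𝓝[≠] (0 : ℂ) :=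
        mem_nhdsWithin_of_mem_nhds (Metric.isOpen_ball.mem_nhds hx)
      filter_upwards [h1, self_mem_nhdsWithin] with y hy hy0
      exact hne y hy hy0
    · exact hne x hx hx0
  -- maximum modulus principle
  have hx₀ : xmax δ₀ ∈ Metric.ball (0 : ℂ) 1 := hKsub (hxmem δ₀)
  have hconst : Set.EqOn (G δ₀) (Function.const ℂ (G δ₀ (xmax δ₀))) (Metric.ball 0 1) :=
    Complex.eqOn_of_isPreconnected_of_isMaxOn_norm (convex_ball (0 : ℂ) 1).isPreconnected
      Metric.isOpen_ball (hGdiff δ₀) hx₀ (fun x hx => hGbound x hx)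
  have hΨconst : ∀ τ : ℍ, Φ (δ₀ • τ) = G δ₀ (xmax δ₀) := by
    intro τ
    have h1 := hGeq δ₀ τ
    have h2 := hconst (show Function.Periodic.qParam (N : ℝ) τ ∈ Metric.ball (0 : ℂ) 1 by
      simpa using hqlt τ)
    have h3 : Ψ δ₀ τ = Φ (δ₀ • τ) := rfl
    rw [← h3, ← h1, h2]
    rfl
  have hall : ∀ z : ℍ, Φ z = G δ₀ (xmax δ₀) := by
    intro z
    have := hΨconst (δ₀⁻¹ • z)
    rwa [← mul_smul, mul_inv_cancel, one_smul] at this
  intro z w
  rw [hall z, hall w]


open scoped Manifold in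
/-- A holomorphic function `H` on the upper half plane such that `Re (c * H)` is `Γ₀(N)`-invariant
(for some `c ≠ 0`), and which is `N`-periodic and bounded at `i∞` after translation by any element
of `SL(2, ℤ)`, is constant. -/
theorem eq_of_re_mul_invariant (N : ℕ) [NeZero N] (H : ℍ → ℂ) (c : ℂ) (hc : c ≠ 0)
    (hH : MDiff H)
    (hinv : ∀ γ ∈ Gamma0 N, ∀ z : ℍ, (c * H (γ • z)).re = (c * H z).re)
    (hper : ∀ (δ : SL(2, ℤ)) (w : ℍ), H (δ • ((N : ℝ) +ᵥ w)) = H (δ • w))
    (hbdd : ∀ δ : SL(2, ℤ), IsBoundedAtImInfty (fun w : ℍ => H (δ • w))) :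
    ∀ z w : ℍ, H z = H w := by
  have hHd : DifferentiableOn ℂ (H ∘ ofComplex) {z : ℂ | 0 < z.im} := mdifferentiable_iff.mp hH
  set Φ : ℍ → ℂ := fun z => Complex.exp (c * H z) with hΦ
  have hΦd : MDiff Φ := by
    rw [mdifferentiable_iff]
    have : (Φ ∘ ofComplex) = fun x => Complex.exp (c * (H ∘ ofComplex) x) := rfl
    rw [this]
    exact (hHd.const_mul c).cexp
  have hΦinv : ∀ γ ∈ Gamma0 N, ∀ z : ℍ, ‖Φ (γ • z)‖ = ‖Φ z‖ := by
    intro γ hγ z
    simp only [hΦ, Complex.norm_exp]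
    rw [hinv γ hγ z]
  have hΦper : ∀ (δ : SL(2, ℤ)) (w : ℍ), Φ (δ • ((N : ℝ) +ᵥ w)) = Φ (δ • w) := by
    intro δ w
    simp only [hΦ]
    rw [hper]
  have hΦbdd : ∀ δ : SL(2, ℤ), IsBoundedAtImInfty (fun w : ℍ => Φ (δ • w)) := by
    intro δ
    obtain ⟨M, A, hMA⟩ := isBoundedAtImInfty_iff.mp (hbdd δ)
    refine isBoundedAtImInfty_iff.mpr ⟨Real.exp (‖c‖ * M), A, fun z hz => ?_⟩
    simp only [hΦ, Complex.norm_exp]
    apply Real.exp_le_exp.mpr
    calc (c * H (δ • z)).re ≤ ‖c * H (δ • z)‖ := Complex.re_le_norm _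
      _ = ‖c‖ * ‖H (δ • z)‖ := norm_mul _ _
      _ ≤ ‖c‖ * M := by gcongr; exact hMA z hz
  have hΦconst := eq_of_norm_invariant N Φ hΦd hΦinv hΦper hΦbdd
  -- now deduce that `H` is constant
  have hopen : IsOpen {z : ℂ | 0 < z.im} := isOpen_upperHalfPlaneSet
  have hderiv : Set.EqOn (deriv (H ∘ ofComplex)) 0 {z : ℂ | 0 < z.im} := by
    intro x hx
    have hdx : HasDerivAt (H ∘ ofComplex) (deriv (H ∘ ofComplex) x) x :=
      (hHd.differentiableAt (hopen.mem_nhds hx)).hasDerivAt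
    have h1 : HasDerivAt (fun y => Complex.exp (c * (H ∘ ofComplex) y))
        (Complex.exp (c * (H ∘ ofComplex) x) * (c * deriv (H ∘ ofComplex) x)) x :=
      (hdx.const_mul c).cexp
    have h2 : HasDerivAt (fun y => Complex.exp (c * (H ∘ ofComplex) y)) 0 x := by
      have hev : (fun _ : ℂ => Φ UpperHalfPlane.I) =ᶠ[𝓝 x]
          (fun y => Complex.exp (c * (H ∘ ofComplex) y)) := by
        filter_upwards [hopen.mem_nhds hx] with y hy
        exact hΦconst UpperHalfPlane.I (ofComplex y)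
      exact (hasDerivAt_const x (Φ UpperHalfPlane.I)).congr_of_eventuallyEq hev.symm
    have h3 := h1.unique h2
    have h4 : c * deriv (H ∘ ofComplex) x = 0 :=
      (mul_eq_zero.mp h3).resolve_left (Complex.exp_ne_zero _)
    exact (mul_eq_zero.mp h4).resolve_left hc
  intro z w
  have := hopen.is_const_of_deriv_eq_zero (convex_halfSpace_im_gt 0).isPreconnected hHd hderiv
    (x := (z : ℂ)) (y := (w : ℂ)) z.im_pos w.im_pos
  simpa [ofComplex_apply] using this


/-! ### Application to equivariant primitives of cusp forms -/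

section Primitive

variable {N : ℕ} {f : CuspForm (Gamma0 N) 2} {F : ℍ → ℂ}

open scoped Manifold in
lemma mdiff_of_hasEquivariantPrimitive (hF : HasEquivariantPrimitive N f F) : MDiff F := by
  rw [mdifferentiable_iff]
  intro x hx
  exact (hF.1 ⟨x, hx⟩).differentiableAt.differentiableWithinAt

lemma tendsto_vadd_atImInfty (t : ℝ) : Tendsto (fun w : ℍ => t +ᵥ w) atImInfty atImInfty := by
  rw [atImInfty, tendsto_comap_iff]
  have : (UpperHalfPlane.im ∘ fun w : ℍ => t +ᵥ w) = UpperHalfPlane.im := by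
    funext z; simp
  rw [this]
  exact tendsto_comap

lemma conj_T_zpow_mem_Gamma0 (δ : SL(2, ℤ)) :
    δ * ModularGroup.T ^ (N : ℤ) * δ⁻¹ ∈ Gamma0 N := by
  have h1 : ModularGroup.T ^ (N : ℤ) ∈ Gamma N := by
    simpa using ModularGroup_T_pow_mem_Gamma (N : ℤ) (N : ℤ) dvd_rfl
  have h2 : δ * ModularGroup.T ^ (N : ℤ) * δ⁻¹ ∈ Gamma N := (Gamma_normal N).conj_mem _ h1 δ
  rw [Gamma_mem] at h2
  rw [Gamma0_mem]
  exact h2.2.2.1

/-- The primitive of a cusp form is `N`-periodic at every cusp. -/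
lemma periodic_of_hasEquivariantPrimitive (hF : HasEquivariantPrimitive N f F)
    (δ : SL(2, ℤ)) (w : ℍ) : F (δ • ((N : ℝ) +ᵥ w)) = F (δ • w) := by
  obtain ⟨L, hL⟩ := hF.2.2.2 δ
  set γ₀ : Gamma0 N := ⟨δ * ModularGroup.T ^ (N : ℤ) * δ⁻¹, conj_T_zpow_mem_Gamma0 δ⟩ with hγ₀
  have hkey : ∀ w : ℍ, F (δ • ((N : ℝ) +ᵥ w)) - F (δ • w) = hF.2.2.1.period γ₀ := by
    intro w
    have h1 := hF.2.2.1.sub_eq_period γ₀ (δ • w)
    have h2 : ((γ₀ : Gamma0 N) : SL(2, ℤ)) • (δ • w) = δ • ((N : ℝ) +ᵥ w) := by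
      have : ((N : ℝ) +ᵥ w) = ModularGroup.T ^ (N : ℤ) • w := by
        rw [modular_T_zpow_smul]; simp
      rw [this, hγ₀]
      simp only [← mul_smul]
      congr 1
      group
    rw [h2] at h1
    exact h1
  have hlim : Tendsto (fun w : ℍ => F (δ • ((N : ℝ) +ᵥ w)) - F (δ • w)) atImInfty (𝓝 (L - L)) :=
    (hL.comp (tendsto_vadd_atImInfty (N : ℝ))).sub hL
  have hconst : Tendsto (fun w : ℍ => F (δ • ((N : ℝ) +ᵥ w)) - F (δ • w)) atImInfty
      (𝓝 (hF.2.2.1.period γ₀)) := by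
    have : (fun w : ℍ => F (δ • ((N : ℝ) +ᵥ w)) - F (δ • w)) = fun _ => hF.2.2.1.period γ₀ :=
      funext hkey
    rw [this]
    exact tendsto_const_nhds
  have h0 : hF.2.2.1.period γ₀ = 0 := by
    have := tendsto_nhds_unique hconst hlim
    simpa using this
  have := hkey w
  rw [h0] at this
  exact sub_eq_zero.mp this

lemma isBoundedAtImInfty_of_hasEquivariantPrimitive (hF : HasEquivariantPrimitive N f F)
    (δ : SL(2, ℤ)) : IsBoundedAtImInfty (fun w : ℍ => F (δ • w)) := by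
  obtain ⟨L, hL⟩ := hF.2.2.2 δ
  exact hL.isBigO_one ℝ


end Primitive

end Fermat.Agent.S21.Injective

namespace Fermat.Agent.S21

open Fermat.Agent.S21.Injective in
/-- T6 -/
theorem period_conj_eq_zero (N : ℕ) [NeZero N] (a b : CuspForm (Gamma0 N) 2)
    (h : ∀ γ : Gamma0 N, periodMap N a (Additive.ofMul γ)
        = conj (periodMap N b (Additive.ofMul γ))) : a = 0 ∧ b = 0 := by
  obtain ⟨Fa', hFa'⟩ := exists_primitive N a
  obtain ⟨Fb', hFb'⟩ := exists_primitive N b
  obtain ⟨Fa, hFa, hPa⟩ := periodMap_def N a hFa'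
  obtain ⟨Fb, hFb, hPb⟩ := periodMap_def N b hFb'
  -- the key relation
  have hkey : ∀ γ ∈ Gamma0 N, ∀ z : ℍ, Fa (γ • z) - Fa z = conj (Fb (γ • z) - Fb z) := by
    intro γ hγ z
    have h1 := hFa.2.2.1.sub_eq_period ⟨γ, hγ⟩ z
    have h2 := hFb.2.2.1.sub_eq_period ⟨γ, hγ⟩ z
    have h3 := h ⟨γ, hγ⟩
    rw [hPa, hPb, IsEquivariantPrimitive.periodHom_apply, IsEquivariantPrimitive.periodHom_apply,
      ← h1, ← h2] at h3
    exact h3
  have hFad := mdiff_of_hasEquivariantPrimitive hFa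
  have hFbd := mdiff_of_hasEquivariantPrimitive hFb
  -- `Fa - Fb` is constant
  have hdiff : ∀ z w : ℍ, Fa z - Fb z = Fa w - Fb w := by
    refine eq_of_re_mul_invariant N (fun z => Fa z - Fb z) 1 one_ne_zero (hFad.sub hFbd) ?_ ?_ ?_
    · intro γ hγ z
      have := congrArg Complex.re (hkey γ hγ z)
      simp only [Complex.sub_re, Complex.conj_re] at this
      simp only [one_mul, Complex.sub_re]
      linarith
    · intro δ w
      show Fa _ - Fb _ = Fa _ - Fb _
      rw [periodic_of_hasEquivariantPrimitive hFa, periodic_of_hasEquivariantPrimitive hFb]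
    · intro δ
      exact (isBoundedAtImInfty_of_hasEquivariantPrimitive hFa δ).sub
        (isBoundedAtImInfty_of_hasEquivariantPrimitive hFb δ)
  -- `Fa + Fb` is constant
  have hsum : ∀ z w : ℍ, Fa z + Fb z = Fa w + Fb w := by
    refine eq_of_re_mul_invariant N (fun z => Fa z + Fb z) (-Complex.I) (by simp)
      (hFad.add hFbd) ?_ ?_ ?_
    · intro γ hγ z
      have := congrArg Complex.im (hkey γ hγ z)
      simp only [Complex.sub_im, Complex.conj_im] at this
      simp only [neg_mul, Complex.neg_re, Complex.mul_re, Complex.I_re, Complex.I_im, zero_mul,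
        one_mul, zero_sub, neg_neg, Complex.add_im]
      linarith
    · intro δ w
      show Fa _ + Fb _ = Fa _ + Fb _
      rw [periodic_of_hasEquivariantPrimitive hFa, periodic_of_hasEquivariantPrimitive hFb]
    · intro δ
      exact (isBoundedAtImInfty_of_hasEquivariantPrimitive hFa δ).add
        (isBoundedAtImInfty_of_hasEquivariantPrimitive hFb δ)
  have hFaconst : ∀ z w : ℍ, Fa z = Fa w := by
    intro z w
    have h1 := hsum z w
    have h2 := hdiff z w
    linear_combination (1 / 2 : ℂ) * h1 + (1 / 2 : ℂ) * h2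
  have hFbconst : ∀ z w : ℍ, Fb z = Fb w := by
    intro z w
    have h1 := hsum z w
    have h2 := hdiff z w
    linear_combination (1 / 2 : ℂ) * h1 - (1 / 2 : ℂ) * h2
  -- a primitive which is constant has zero derivative
  have hzero : ∀ {f : CuspForm (Gamma0 N) 2} {F : ℍ → ℂ}, HasEquivariantPrimitive N f F →
      (∀ z w : ℍ, F z = F w) → f = 0 := by
    intro f F hF hconst
    ext τ
    have hd := hF.1 τ
    have hev : (fun _ : ℂ => F UpperHalfPlane.I) =ᶠ[𝓝 (τ : ℂ)] (F ∘ ofComplex) := by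
      filter_upwards with y
      exact hconst _ _
    have h0 : HasDerivAt (F ∘ ofComplex) 0 (τ : ℂ) :=
      (hasDerivAt_const (τ : ℂ) (F UpperHalfPlane.I)).congr_of_eventuallyEq hev.symm
    simpa using hd.unique h0
  exact ⟨hzero hFa hFaconst, hzero hFb hFbconst⟩

end Fermat.Agent.S21
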