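import Fermat.Agent.S21.Defs
import Fermat.Agent.S21.Primitive

/-!
# S21 leaf module `Parabolic`

FROZEN STATEMENT (PLAN v1, helper21): `periodMap_mem_parabolicHoms`, proved below as stated.
Put every auxiliary declaration inside `namespace Fermat.Agent.S21.Parabolic` (to avoid name
clashes with other leaf files).  Do not edit `Defs.lean`.  You may add imports of other
S21 leaf modules listed in PLAN v1 (respect the dependency order, no cycles).

Proof (helper4946, adapting the argument of helper3501/helper921): an element of trace `±2` is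
`± δ T^m δ⁻¹`; the period of an equivariant primitive along it is the difference of two equal
cusp limits.
-/

set_option autoImplicit false

open ModularCurve ModularCurve.Period CongruenceSubgroup UpperHalfPlane MeasureTheory Filter Topology
open scoped MatrixGroups ComplexConjugate ContDiff ENNReal

namespace Fermat.Agent.S21.Parabolic

/-- Integer lemma: a matrix of determinant one and trace `±2` has a primitive integral
eigenvector with eigenvalue `ε = ±1`. -/
theorem parabolic_exists_coprime_eigenvector (a b c d : ℤ) (hdet : a * d - b * c = 1)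
    (htr : (a + d) ^ 2 = 4) :
    ∃ p q ε : ℤ, IsCoprime p q ∧ (ε = 1 ∨ ε = -1) ∧
      a * p + b * q = ε * p ∧ c * p + d * q = ε * q := by
  obtain ⟨ε, hε, hε2⟩ : ∃ ε : ℤ, (ε = 1 ∨ ε = -1) ∧ a + d = 2 * ε := by
    have h : (a + d - 2) * (a + d + 2) = 0 := by ring_nf; ring_nf at htr; omega
    rcases mul_eq_zero.mp h with h | h
    · exact ⟨1, Or.inl rfl, by omega⟩
    · exact ⟨-1, Or.inr rfl, by omega⟩
  have hε1 : ε * ε = 1 := by rcases hε with rfl | rfl <;> norm_num
  -- α = a - ε, d - ε = -α, α² + b c = 0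
  have hd : d = 2 * ε - a := by omega
  have hα : (a - ε) * (a - ε) + b * c = 0 := by
    subst hd
    nlinarith [hdet, hε1]
  by_cases hb : b = 0 ∧ a - ε = 0
  · obtain ⟨hb0, ha0⟩ := hb
    refine ⟨0, 1, ε, isCoprime_zero_left.mpr isUnit_one, hε, by simp [hb0], ?_⟩
    have : d = ε := by omega
    simp [this]
  · have hg : 0 < Int.gcd b (a - ε) := by
      rw [Int.gcd_pos_iff]
      by_contra hcon
      rw [not_or, not_not, not_not] at hcon
      exact hb ⟨hcon.1, hcon.2⟩
    obtain ⟨p, q, hpq, hbp, hαq⟩ := Int.exists_gcd_one hg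
    set g : ℤ := (Int.gcd b (a - ε) : ℤ) with hgdef
    have hg0 : g ≠ 0 := by
      have : (0 : ℤ) < g := Int.natCast_pos.mpr hg
      exact this.ne'
    refine ⟨p, -q, ε, ?_, hε, ?_, ?_⟩
    · exact (Int.isCoprime_iff_gcd_eq_one.mpr hpq).neg_right
    · -- (a - ε) p - b q = 0
      have h1 : (a - ε) * p - b * q = 0 := by
        rw [hαq, hbp]; ring
      linarith
    · -- c p - (d - ε) q = 0, i.e. c p + (a - ε) q = 0 after multiplying by g
      have h2 : g * (c * p + (a - ε) * q) = 0 := by
        have : g * (c * p + (a - ε) * q) = b * c + (a - ε) * (a - ε) := by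
          rw [hαq, hbp]
          ring
        rw [this]; linarith
      have h3 : c * p + (a - ε) * q = 0 := by
        rcases mul_eq_zero.mp h2 with h | h
        · exact absurd h hg0
        · exact h
      subst hd
      linarith

/-- Integer identities behind `parabolic_exists_conj_translate`. -/
theorem parabolic_conj_entries (a b c d p q r s ε : ℤ) (hdet : a * d - b * c = 1)
    (hδ : p * s - r * q = 1) (hε : ε * ε = 1)
    (h1 : a * p + b * q = ε * p) (h2 : c * p + d * q = ε * q) :
    a * r + b * s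
        = ε * (p * (ε * (s * (a * r + b * s) - r * (c * r + d * s))) + r) ∧
      c * r + d * s
        = ε * (q * (ε * (s * (a * r + b * s) - r * (c * r + d * s))) + s) := by
  have K' : d * p - b * q = ε * p := by
    linear_combination ε * p * hdet - ε * d * h1 + ε * b * h2 - (d * p - b * q) * hε
  have K'' : a * q - c * p = ε * q := by
    linear_combination ε * q * hdet + ε * c * h1 - ε * a * h2 - (a * q - c * p) * hε
  have K : p * (c * r + d * s) - q * (a * r + b * s) = ε := by
    linear_combination ε * hδ + s * K' - r * K''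
  constructor
  · linear_combination (-(a * r + b * s)) * hδ + r * K
      - p * (s * (a * r + b * s) - r * (c * r + d * s)) * hε
  · linear_combination s * K - (c * r + d * s) * hδ
      - q * (s * (a * r + b * s) - r * (c * r + d * s)) * hε

/-- An element of `SL(2, ℤ)` of trace `±2` is, up to sign, conjugate in `SL(2, ℤ)` to a power
of `T`; in terms of the action on the upper half-plane. -/
theorem parabolic_exists_conj_translate (A : SL(2, ℤ))
    (h : (A : Matrix (Fin 2) (Fin 2) ℤ).trace ^ 2 = 4) :
    ∃ (δ : SL(2, ℤ)) (m : ℤ), ∀ w : ℍ, A • (δ • w) = δ • ((m : ℝ) +ᵥ w) := by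
  have hdet : A 0 0 * A 1 1 - A 0 1 * A 1 0 = 1 := by
    have := A.det_coe
    rw [Matrix.det_fin_two] at this
    exact this
  have htr : (A 0 0 + A 1 1) ^ 2 = 4 := by
    rw [Matrix.trace_fin_two] at h
    exact h
  obtain ⟨p, q, ε, hpq, hε, h1, h2⟩ := parabolic_exists_coprime_eigenvector _ _ _ _ hdet htr
  obtain ⟨δ, hδ0, hδ1⟩ := hpq.exists_SL2_col 0
  have hδdet : p * δ 1 1 - δ 0 1 * q = 1 := by
    have := δ.det_coe
    rw [Matrix.det_fin_two, hδ0, hδ1] at this
    exact this
  have hε1 : ε * ε = 1 := by rcases hε with rfl | rfl <;> norm_num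
  obtain ⟨e1, e2⟩ := parabolic_conj_entries _ _ _ _ p q (δ 0 1) (δ 1 1) ε hdet hδdet hε1 h1 h2
  set m : ℤ := ε * (δ 1 1 * (A 0 0 * δ 0 1 + A 0 1 * δ 1 1)
    - δ 0 1 * (A 1 0 * δ 0 1 + A 1 1 * δ 1 1)) with hm
  refine ⟨δ, m, fun w => ?_⟩
  rw [← mul_smul, ← modular_T_zpow_smul, ← mul_smul]
  rcases hε with rfl | rfl
  · have hmat : A * δ = δ * ModularGroup.T ^ m := by
      ext i j
      fin_cases i <;> fin_cases j <;>
        simp [Matrix.mul_apply, Fin.sum_univ_two, ModularGroup.coe_T_zpow, hδ0, hδ1]
      · linarith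
      · linarith
      · linarith
      · linarith
    rw [hmat]
  · have hmat : A * δ = -(δ * ModularGroup.T ^ m) := by
      ext i j
      fin_cases i <;> fin_cases j <;>
        simp [Matrix.mul_apply, Fin.sum_univ_two, ModularGroup.coe_T_zpow, hδ0, hδ1]
      · linarith
      · linarith
      · linarith
      · linarith
    rw [hmat, ModularGroup.SL_neg_smul]

/-- Real translations preserve the filter `atImInfty`. -/
theorem parabolic_tendsto_vadd_atImInfty (m : ℝ) :
    Tendsto (fun w : ℍ => m +ᵥ w) atImInfty atImInfty := by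
  rw [atImInfty, tendsto_comap_iff]
  have : (UpperHalfPlane.im ∘ fun w : ℍ => m +ᵥ w) = UpperHalfPlane.im := by
    funext w
    simp [vadd_im]
  rw [this]
  exact tendsto_comap

/-- The period homomorphism of an equivariant primitive that has a limit at every cusp kills
all elements of trace `±2`. -/
theorem parabolic_isParabolicHom_periodHom {Γ : Subgroup SL(2, ℤ)} {F : ℍ → ℂ}
    (hF : IsEquivariantPrimitive Γ F)
    (hL : ∀ δ : SL(2, ℤ), ∃ L : ℂ, Tendsto (fun w : ℍ => F (δ • w)) atImInfty (𝓝 L)) :
    IsParabolicHom Γ hF.periodHom := by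
  intro γ hγ
  obtain ⟨δ, m, hδ⟩ := parabolic_exists_conj_translate (γ : SL(2, ℤ)) hγ
  obtain ⟨L, hLδ⟩ := hL δ
  rw [IsEquivariantPrimitive.periodHom_apply]
  have key : ∀ w : ℍ, F (δ • ((m : ℝ) +ᵥ w)) - F (δ • w) = hF.period γ := by
    intro w
    rw [← hδ w]
    exact hF.sub_eq_period γ (δ • w)
  have h1 : Tendsto (fun w : ℍ => F (δ • ((m : ℝ) +ᵥ w)) - F (δ • w)) atImInfty
      (𝓝 (L - L)) :=
    (hLδ.comp (parabolic_tendsto_vadd_atImInfty m)).sub hLδ
  have h2 : Tendsto (fun w : ℍ => F (δ • ((m : ℝ) +ᵥ w)) - F (δ • w)) atImInfty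
      (𝓝 (hF.period γ)) := by
    simp only [key]
    exact tendsto_const_nhds
  have h3 := tendsto_nhds_unique h1 h2
  rw [sub_self] at h3
  exact h3.symm

end Fermat.Agent.S21.Parabolic

namespace Fermat.Agent.S21

/-- T4 -/
theorem periodMap_mem_parabolicHoms (N : ℕ) [NeZero N] (f : CuspForm (Gamma0 N) 2) :
    periodMap N f ∈ parabolicHoms ℂ (Gamma0 N) ℂ := by
  classical
  by_cases h : ∃ F : ℍ → ℂ, HasEquivariantPrimitive N f F
  · obtain ⟨F, hF⟩ := h
    obtain ⟨F₀, h₀, e⟩ := periodMap_def N f hF
    rw [e, mem_parabolicHoms_iff]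
    exact Parabolic.parabolic_isParabolicHom_periodHom h₀.2.2.1 h₀.2.2.2
  · have : periodMap N f = 0 := by
      unfold periodMap
      rw [dif_neg h]
    rw [this]
    exact Submodule.zero_mem _

end Fermat.Agent.S21
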