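import Mathlib
import Fermat.Prelude.Def_ModularCurve_PeriodHomPair
import Fermat.Agent.S21.Reduction
import Fermat.Agent.S21.Primitive

set_option autoImplicit false

open ModularCurve ModularCurve.Period CongruenceSubgroup UpperHalfPlane Filter Topology
open scoped MatrixGroups ComplexConjugate ModularForm

namespace Fermat.Agent.S21

namespace Star

/-- The reflection `z ↦ -conj z` (action of `J`) intertwines `A` and `jConjSL A`. -/
theorem J_smul_smul (A : SL(2, ℤ)) (z : ℍ) : J • (A • z) = (jConjSL A) • (J • z) := by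
  ext
  rw [coe_J_smul, coe_specialLinearGroup_apply, coe_specialLinearGroup_apply, jConjSL_coe,
    coe_J_smul]
  simp only [jConjMat_apply_zero_zero, jConjMat_apply_zero_one, jConjMat_apply_one_zero,
    jConjMat_apply_one_one, map_div₀, map_add, map_mul]
  simp
  ring

theorem J_smul_I : J • UpperHalfPlane.I = UpperHalfPlane.I := by
  ext
  rw [coe_J_smul]
  simp

theorem im_J_smul (z : ℍ) : (J • z).im = z.im := by
  show ((J • z : ℍ) : ℂ).im = (z : ℂ).im
  rw [coe_J_smul]
  simp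

theorem tendsto_J_smul : Tendsto (fun z : ℍ => J • z) atImInfty atImInfty := by
  rw [atImInfty, tendsto_comap_iff]
  have : (UpperHalfPlane.im ∘ fun z : ℍ => J • z) = UpperHalfPlane.im := by
    funext w; simp [im_J_smul]
  rw [this]
  exact tendsto_comap

/-- Derivative of the reflected primitive `z ↦ -conj (F (J • z))`. -/
theorem hasDerivAt_neg_conj_comp_J {F f : ℍ → ℂ}
    (hF : ∀ τ : ℍ, HasDerivAt (F ∘ ofComplex) (f τ) ↑τ) (τ : ℍ) :
    HasDerivAt ((fun z : ℍ => -conj (F (J • z))) ∘ ofComplex) (conj (f (J • τ))) ↑τ := by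
  have h1 : HasDerivAt (fun u : ℂ => (F ∘ ofComplex) (-u)) (-(f (J • τ))) (conj (τ : ℂ)) := by
    have hneg : HasDerivAt (fun u : ℂ => -u) (-1) (conj (τ : ℂ)) := (hasDerivAt_id _).neg
    have hF' : HasDerivAt (F ∘ ofComplex) (f (J • τ)) (-(conj (τ : ℂ))) := by
      have := hF (J • τ)
      rwa [coe_J_smul] at this
    have h := hF'.comp (conj (τ : ℂ)) hneg
    have e : f (J • τ) * -1 = -f (J • τ) := by ring
    rw [e] at h
    exact h
  have h2 : HasDerivAt (conj ∘ (fun u : ℂ => (F ∘ ofComplex) (-u)) ∘ conj)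
      (-conj (f (J • τ))) (τ : ℂ) := by
    rw [hasDerivAt_conj_conj_iff]
    simpa using h1
  have h3 := h2.neg
  rw [neg_neg] at h3
  refine h3.congr_of_eventuallyEq ?_
  have hopen : {z : ℂ | 0 < z.im} ∈ 𝓝 (τ : ℂ) :=
    (isOpen_lt continuous_const Complex.continuous_im).mem_nhds τ.im_pos
  filter_upwards [hopen] with z hz
  have hz' : 0 < (-conj z).im := by simpa using hz
  simp only [Function.comp_apply, Pi.neg_apply]
  congr 3
  rw [J_smul, ofComplex_apply_of_im_pos hz]


/-- Conjugating the image of `γ ∈ SL(2, ℤ)` in `GL(2, ℝ)` by `J` gives the image of `jConjSL γ`. -/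
theorem J_mul_mapGL_mul_J (γ : SL(2, ℤ)) :
    J * (Matrix.SpecialLinearGroup.mapGL ℝ γ) * J = Matrix.SpecialLinearGroup.mapGL ℝ (jConjSL γ) := by
  apply Matrix.GeneralLinearGroup.ext
  intro i j
  fin_cases i <;> fin_cases j <;>
    simp [Matrix.mul_apply, Fin.sum_univ_two, Matrix.SpecialLinearGroup.mapGL, jConjMat,
      Matrix.vecMul, dotProduct]

theorem J_inv : (J : GL (Fin 2) ℝ)⁻¹ = J := by
  rw [inv_eq_iff_mul_eq_one, ← sq, J_sq]

open ConjAct Pointwise in
/-- The image of `Γ₀(N)` in `GL(2, ℝ)` is normalised by `J`. -/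
theorem conjAct_J_Gamma0 (N : ℕ) :
    toConjAct (J : GL (Fin 2) ℝ)⁻¹ • ((Gamma0 N).map (Matrix.SpecialLinearGroup.mapGL ℝ))
      = (Gamma0 N).map (Matrix.SpecialLinearGroup.mapGL ℝ) := by
  ext x
  rw [Subgroup.mem_pointwise_smul_iff_inv_smul_mem, ← map_inv, inv_inv, toConjAct_smul, J_inv]
  constructor
  · rintro ⟨γ, hγ, hx⟩
    refine ⟨jConjSL γ, jConjSL_mem_Gamma0 hγ, ?_⟩
    rw [← J_mul_mapGL_mul_J, hx]
    have h2 : (J : GL (Fin 2) ℝ) * J = 1 := by rw [← sq, J_sq]
    calc J * (J * x * J) * J = (J * J) * x * (J * J) := by group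
      _ = x := by rw [h2, one_mul, mul_one]
  · rintro ⟨γ, hγ, rfl⟩
    exact ⟨jConjSL γ, jConjSL_mem_Gamma0 hγ, (J_mul_mapGL_mul_J γ).symm⟩

/-- The cusp form `f*(z) = conj (f (-conj z))`. -/
noncomputable def starForm {N : ℕ} (f : CuspForm (Gamma0 N) 2) : CuspForm (Gamma0 N) 2 :=
  (CuspForm.translate f J).copy ((f : ℍ → ℂ) ∣[(2 : ℤ)] J) rfl (conjAct_J_Gamma0 N).symm

theorem starForm_apply {N : ℕ} (f : CuspForm (Gamma0 N) 2) (τ : ℍ) :
    starForm f τ = conj (f (J • τ)) := by
  show ((f : ℍ → ℂ) ∣[(2 : ℤ)] J) τ = conj (f (J • τ))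
  simp [ModularForm.slash_apply]


/-- The reflected primitive `z ↦ -conj (F (-conj z))` is an equivariant primitive of `f*`. -/
theorem hasPrim_star {N : ℕ} {f : CuspForm (Gamma0 N) 2} {F : ℍ → ℂ}
    (hF : HasEquivariantPrimitive N f F) :
    HasEquivariantPrimitive N (starForm f) (fun z => -conj (F (J • z))) := by
  refine ⟨fun τ => ?_, ?_, fun γ => ?_, fun δ => ?_⟩
  · rw [starForm_apply]
    exact hasDerivAt_neg_conj_comp_J hF.1 τ
  · have h := ((Complex.continuous_conj.tendsto 0).comp (hF.2.1.comp tendsto_J_smul)).neg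
    simpa using h
  · refine ⟨-conj (hF.2.2.1.period (jConjGamma0 N γ)), fun z => ?_⟩
    have h := hF.2.2.1.sub_eq_period (jConjGamma0 N γ) (J • z)
    rw [jConjGamma0_coe] at h
    show -conj (F (J • ((γ : SL(2, ℤ)) • z))) - -conj (F (J • z)) = _
    rw [J_smul_smul, ← h, map_sub]
    ring
  · obtain ⟨L, hL⟩ := hF.2.2.2 (jConjSL δ)
    refine ⟨-conj L, ?_⟩
    have h1 : Tendsto (fun w : ℍ => F (J • (δ • w))) atImInfty (𝓝 L) := by
      refine (hL.comp tendsto_J_smul).congr fun w => ?_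
      simp only [Function.comp_apply, J_smul_smul]
    exact ((Complex.continuous_conj.tendsto L).comp h1).neg

end Star

/-- **T5** (`h5` of `result_of`): complex conjugation of periods is realised by the cusp form
`f*(z) = conj (f (-conj z))`, given existence of equivariant primitives. -/
theorem T5 {N : ℕ}
    (h1 : ∀ f : CuspForm (Gamma0 N) 2, ∃ F : ℍ → ℂ, HasEquivariantPrimitive N f F) :
    ∀ f : CuspForm (Gamma0 N) 2, ∃ f' : CuspForm (Gamma0 N) 2, ∀ γ : Gamma0 N,
      periodMap N f' (Additive.ofMul (jConjGamma0 N γ))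
        = - conj (periodMap N f (Additive.ofMul γ)) := by
  intro f
  obtain ⟨F, hF⟩ := h1 f
  refine ⟨Star.starForm f, fun γ => ?_⟩
  rw [periodMap_apply (Star.hasPrim_star hF), periodMap_apply hF]
  show -conj (F (J • ((jConjGamma0 N γ : SL(2, ℤ)) • UpperHalfPlane.I)))
    - -conj (F (J • UpperHalfPlane.I)) = _
  rw [Star.J_smul_smul, jConjGamma0_coe, jConjSL_jConjSL, Star.J_smul_I, map_sub]
  ring

/-- T5 in the frozen skeleton-v1 form (adapter, helper21). -/
theorem exists_star_form (N : ℕ) [NeZero N] (f : CuspForm (Gamma0 N) 2) :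
    ∃ f' : CuspForm (Gamma0 N) 2, ∀ γ : Gamma0 N,
      periodMap N f' (Additive.ofMul (jConjGamma0 N γ))
        = - conj (periodMap N f (Additive.ofMul γ)) :=
  T5 (exists_primitive N) f

end Fermat.Agent.S21
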