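import Mathlib
import Fermat.Prelude.Def_ModularCurve_PeriodHomPair

/-!
# S21 (Eichler–Shimura): shared definitions (FROZEN — do not edit)

Conventions. All analysis is done on `ℍ = UpperHalfPlane` with Mathlib's hyperbolic measure
`volume : Measure ℍ` (`dx dy / y²`).  Lebesgue area is `y² dμ`.
Real functions `u : ℍ → ℝ` are differentiated through `u ∘ ofComplex : ℂ → ℝ`.
-/

set_option autoImplicit false

open ModularCurve ModularCurve.Period CongruenceSubgroup UpperHalfPlane MeasureTheory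
open scoped MatrixGroups ComplexConjugate ContDiff ENNReal

namespace Fermat.Agent.S21

/-- Smoothness of a real function on `ℍ`. -/
def SmoothH (u : ℍ → ℝ) : Prop := ContDiffOn ℝ ∞ (u ∘ ofComplex) upperHalfPlaneSet

/-- `u_x - i u_y` (twice the Wirtinger derivative `∂u/∂z`) of a real function on `ℍ`.
If `F` is holomorphic with `F' = f` then `gradC (Re F) = f`. -/
noncomputable def gradC (u : ℍ → ℝ) (z : ℍ) : ℂ :=
  ((fderiv ℝ (u ∘ ofComplex) (z : ℂ) 1 : ℝ) : ℂ)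
    - Complex.I * ((fderiv ℝ (u ∘ ofComplex) (z : ℂ) Complex.I : ℝ) : ℂ)

/-- Weight-2 invariance under `Γ₀(N)`: `g (γ z) = (c z + d)² g z`. -/
def IsWeightTwoInv (N : ℕ) (g : ℍ → ℂ) : Prop :=
  ∀ (γ : Gamma0 N) (z : ℍ), g ((γ : SL(2, ℤ)) • z) = denom (γ : SL(2, ℤ)) z ^ 2 * g z

/-- Weighted Petersson energy `∫ W |g|² y² dμ` (`μ` hyperbolic), as an `ℝ≥0∞`. -/
noncomputable def energy (W : ℍ → ℝ) (g : ℍ → ℂ) : ℝ≥0∞ :=
  ∫⁻ z : ℍ, ENNReal.ofReal (W z * z.im ^ 2) * ‖g z‖ₑ ^ 2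

/-- The (complex valued) weighted Petersson pairing `∫ W y² g conj(k) dμ`. -/
noncomputable def pairing (W : ℍ → ℝ) (g k : ℍ → ℂ) : ℂ :=
  ∫ z : ℍ, ((W z * z.im ^ 2 : ℝ) : ℂ) * (g z * conj (k z))

/-- A continuous, everywhere positive weight `W` with `∑_{γ ∈ Γ₀(N)} W (γ z) = 1`. -/
structure IsPartitionWeight (N : ℕ) (W : ℍ → ℝ) : Prop where
  continuous : Continuous W
  pos : ∀ z, 0 < W z
  hasSum : ∀ z : ℍ, HasSum (fun γ : Gamma0 N => W ((γ : SL(2, ℤ)) • z)) 1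

/-- Admissible variations: smooth `Γ₀(N)`-invariant real functions of finite energy. -/
structure IsAdmissible (N : ℕ) (W : ℍ → ℝ) (v : ℍ → ℝ) : Prop where
  smooth : SmoothH v
  invariant : ∀ (γ : Gamma0 N) (z : ℍ), v ((γ : SL(2, ℤ)) • z) = v z
  finite_energy : energy W (gradC v) < ⊤

/-- `Γ₀(N)`-periodization of a function on `ℍ` (a locally finite sum when `φ` has compact
support). -/
noncomputable def periodize (N : ℕ) (φ : ℍ → ℝ) (z : ℍ) : ℝ :=
  ∑ᶠ γ : Gamma0 N, φ ((γ : SL(2, ℤ)) • z)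

end Fermat.Agent.S21
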